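import Mathlib

/-!
# PROJECT C, slice C2 (ideles), part 1: the semilocal algebras `L ⊗_ℚ ℚ_q`

Tensor model of the completions of a number field `L` above a rational prime `q`:
`Loc L q = L ⊗[ℚ] ℚ_[q]` (`= ∏_{w ∣ q} L_w`), with

* `inclL`, `inclQ`, `inclZ` : the structure maps from `L`, `ℚ_[q]`, `ℤ_[q]`;
* `intRing L q` : the integral closure of `ℤ_[q]` (`= ∏ O_w`), `intUnits L q` its unit group inside
  `(Loc L q)ˣ`;
* `Loc.map f` for `f : K →ₐ[ℚ] L`, injective, reflecting integrality;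
* the action of `L ≃ₐ[ℚ] L` (`MulSemiringAction`), preserving `intRing`;
* invariants: `x` is fixed by a finite group `G` of automorphisms iff it comes from the fixed field.
-/

set_option autoImplicit false

open scoped TensorProduct

noncomputable section

namespace Fermat.Agent.CFT.Idele

/-- Elements of `Nat.Primes` are prime. -/
scoped instance factPrimes (q : Nat.Primes) : Fact (q : ℕ).Prime := ⟨q.2⟩

section Local

variable (L : Type*) [Field L] [Algebra ℚ L] (q : Nat.Primes)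

/-- The semilocal algebra `L_q = L ⊗_ℚ ℚ_q`. -/
abbrev Loc : Type _ := L ⊗[ℚ] ℚ_[(q : ℕ)]

/-- `L → L_q`. -/
def inclL : L →+* Loc L q := Algebra.TensorProduct.includeLeftRingHom

/-- `ℚ_q → L_q`. -/
def inclQ : ℚ_[(q : ℕ)] →+* Loc L q :=
  (Algebra.TensorProduct.includeRight : ℚ_[(q : ℕ)] →ₐ[ℚ] Loc L q).toRingHom

/-- `ℤ_q → L_q`. -/
def inclZ : ℤ_[(q : ℕ)] →+* Loc L q := (inclQ L q).comp PadicInt.Coe.ringHom

theorem inclL_apply (a : L) : inclL L q a = a ⊗ₜ[ℚ] (1 : ℚ_[(q : ℕ)]) := rfl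

theorem inclQ_apply (c : ℚ_[(q : ℕ)]) : inclQ L q c = (1 : L) ⊗ₜ[ℚ] c := rfl

theorem inclZ_apply (c : ℤ_[(q : ℕ)]) : inclZ L q c = (1 : L) ⊗ₜ[ℚ] (c : ℚ_[(q : ℕ)]) := rfl

/-- The integral closure of `ℤ_q` in `L_q`. -/
def intRing : Subring (Loc L q) where
  carrier := {x | (inclZ L q).IsIntegralElem x}
  mul_mem' hx hy := RingHom.IsIntegralElem.mul _ hx hy
  one_mem' := RingHom.isIntegralElem_one _
  add_mem' hx hy := RingHom.IsIntegralElem.add _ hx hy
  zero_mem' := RingHom.isIntegralElem_zero _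
  neg_mem' hx := RingHom.IsIntegralElem.neg _ hx

theorem mem_intRing {x : Loc L q} : x ∈ intRing L q ↔ (inclZ L q).IsIntegralElem x := Iff.rfl

theorem inclZ_mem_intRing (c : ℤ_[(q : ℕ)]) : inclZ L q c ∈ intRing L q :=
  RingHom.isIntegralElem_map _

/-- The units of the integral closure, as a subgroup of `(L_q)ˣ`. -/
def intUnits : Subgroup (Loc L q)ˣ where
  carrier := {u | (u : Loc L q) ∈ intRing L q ∧ ((u⁻¹ : (Loc L q)ˣ) : Loc L q) ∈ intRing L q}
  mul_mem' := by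
    rintro u v ⟨hu, hu'⟩ ⟨hv, hv'⟩
    refine ⟨?_, ?_⟩
    · rw [Units.val_mul]; exact (intRing L q).mul_mem hu hv
    · rw [mul_inv_rev, Units.val_mul]; exact (intRing L q).mul_mem hv' hu'
  one_mem' := by
    refine ⟨?_, ?_⟩
    · rw [Units.val_one]; exact (intRing L q).one_mem
    · rw [inv_one, Units.val_one]; exact (intRing L q).one_mem
  inv_mem' := by
    rintro u ⟨hu, hu'⟩
    exact ⟨hu', by rwa [inv_inv]⟩

theorem mem_intUnits {u : (Loc L q)ˣ} :
    u ∈ intUnits L q ↔ (u : Loc L q) ∈ intRing L q ∧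
      ((u⁻¹ : (Loc L q)ˣ) : Loc L q) ∈ intRing L q := Iff.rfl

end Local

section Functoriality

variable {K L M : Type*} [Field K] [Field L] [Field M] [Algebra ℚ K] [Algebra ℚ L] [Algebra ℚ M]
  (q : Nat.Primes)

/-- Functoriality of `L ↦ L_q`. -/
def Loc.map (f : K →ₐ[ℚ] L) : Loc K q →ₐ[ℚ] Loc L q :=
  Algebra.TensorProduct.map f (AlgHom.id ℚ ℚ_[(q : ℕ)])

@[simp] theorem Loc.map_tmul (f : K →ₐ[ℚ] L) (a : K) (c : ℚ_[(q : ℕ)]) :
    Loc.map q f (a ⊗ₜ[ℚ] c) = f a ⊗ₜ[ℚ] c := rfl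

theorem Loc.map_id : Loc.map q (AlgHom.id ℚ L) = AlgHom.id ℚ (Loc L q) :=
  Algebra.TensorProduct.map_id

theorem Loc.map_comp (g : L →ₐ[ℚ] M) (f : K →ₐ[ℚ] L) :
    Loc.map q (g.comp f) = (Loc.map q g).comp (Loc.map q f) := by
  apply Algebra.TensorProduct.ext'
  intro a c
  rfl

theorem Loc.map_comp_apply (g : L →ₐ[ℚ] M) (f : K →ₐ[ℚ] L) (x : Loc K q) :
    Loc.map q (g.comp f) x = Loc.map q g (Loc.map q f x) := by
  rw [Loc.map_comp]; rfl

theorem Loc.map_inclL (f : K →ₐ[ℚ] L) (a : K) : Loc.map q f (inclL K q a) = inclL L q (f a) := rfl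

theorem Loc.map_inclQ (f : K →ₐ[ℚ] L) (c : ℚ_[(q : ℕ)]) :
    Loc.map q f (inclQ K q c) = inclQ L q c := by
  rw [inclQ_apply, inclQ_apply, Loc.map_tmul, map_one]

theorem Loc.map_inclZ (f : K →ₐ[ℚ] L) (c : ℤ_[(q : ℕ)]) :
    Loc.map q f (inclZ K q c) = inclZ L q c := by
  rw [inclZ_apply, inclZ_apply, Loc.map_tmul, map_one]

theorem Loc.map_comp_inclZ (f : K →ₐ[ℚ] L) :
    (Loc.map q f : Loc K q →+* Loc L q).comp (inclZ K q) = inclZ L q :=
  RingHom.ext fun c => Loc.map_inclZ q f c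

/-- `K_q → L_q` is injective (flatness over a field). -/
theorem Loc.map_injective (f : K →ₐ[ℚ] L) : Function.Injective (Loc.map q f) := by
  have h : Function.Injective (LinearMap.rTensor ℚ_[(q : ℕ)] f.toLinearMap) :=
    Module.Flat.rTensor_preserves_injective_linearMap f.toLinearMap f.injective
  intro x y hxy
  apply h
  have e : ∀ z : Loc K q, LinearMap.rTensor ℚ_[(q : ℕ)] f.toLinearMap z = Loc.map q f z := by
    intro z
    induction z using TensorProduct.induction_on with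
    | zero => simp
    | tmul a c => rfl
    | add z w hz hw => rw [map_add, map_add, hz, hw]
  rw [e, e, hxy]

theorem Loc.map_mem_intRing (f : K →ₐ[ℚ] L) {x : Loc K q} (hx : x ∈ intRing K q) :
    Loc.map q f x ∈ intRing L q := by
  rw [mem_intRing] at hx ⊢
  have := RingHom.IsIntegralElem.map hx (Loc.map q f : Loc K q →+* Loc L q)
  rwa [Loc.map_comp_inclZ] at this

theorem Loc.map_mem_intRing_iff (f : K →ₐ[ℚ] L) {x : Loc K q} :
    Loc.map q f x ∈ intRing L q ↔ x ∈ intRing K q := by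
  refine ⟨fun hx => ?_, Loc.map_mem_intRing q f⟩
  rw [mem_intRing] at hx ⊢
  rw [← Loc.map_comp_inclZ q f] at hx
  exact RingHom.IsIntegralElem.of_map (g := (Loc.map q f : Loc K q →+* Loc L q))
    (Loc.map_injective q f) hx

end Functoriality

section Action

variable (L : Type*) [Field L] [Algebra ℚ L] (q : Nat.Primes)

/-- The automorphism of `L_q` induced by an automorphism of `L`.  (No `MulSemiringAction` instance
is declared on `Loc L q`: Mathlib's `TensorProduct.leftHasSMul` already provides the `SMul`.) -/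
def Loc.aut (σ : L ≃ₐ[ℚ] L) : Loc L q ≃ₐ[ℚ] Loc L q :=
  Algebra.TensorProduct.congr σ (AlgEquiv.refl : ℚ_[(q : ℕ)] ≃ₐ[ℚ] ℚ_[(q : ℕ)])

variable {L}

@[simp] theorem Loc.aut_tmul (σ : L ≃ₐ[ℚ] L) (a : L) (c : ℚ_[(q : ℕ)]) :
    Loc.aut L q σ (a ⊗ₜ[ℚ] c) = σ a ⊗ₜ[ℚ] c := rfl

theorem Loc.aut_apply (σ : L ≃ₐ[ℚ] L) (x : Loc L q) :
    Loc.aut L q σ x = Loc.map q (σ : L →ₐ[ℚ] L) x := by
  induction x using TensorProduct.induction_on with
  | zero => simp
  | tmul a c => rfl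
  | add z w hz hw => rw [map_add, map_add, hz, hw]

theorem Loc.aut_one : Loc.aut L q 1 = AlgEquiv.refl := by
  ext x
  induction x using TensorProduct.induction_on with
  | zero => simp
  | tmul a c => rfl
  | add z w hz hw => rw [map_add, map_add, hz, hw]

theorem Loc.aut_mul (σ τ : L ≃ₐ[ℚ] L) :
    Loc.aut L q (σ * τ) = (Loc.aut L q σ) * (Loc.aut L q τ) := by
  ext x
  induction x using TensorProduct.induction_on with
  | zero => simp
  | tmul a c => rfl
  | add z w hz hw => rw [map_add, map_add, hz, hw]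

theorem Loc.aut_mul_apply (σ τ : L ≃ₐ[ℚ] L) (x : Loc L q) :
    Loc.aut L q (σ * τ) x = Loc.aut L q σ (Loc.aut L q τ x) := by
  rw [Loc.aut_mul]; rfl

theorem Loc.aut_inclL (σ : L ≃ₐ[ℚ] L) (a : L) :
    Loc.aut L q σ (inclL L q a) = inclL L q (σ a) := rfl

theorem Loc.aut_inclQ (σ : L ≃ₐ[ℚ] L) (c : ℚ_[(q : ℕ)]) :
    Loc.aut L q σ (inclQ L q c) = inclQ L q c := by
  rw [inclQ_apply, Loc.aut_tmul, map_one]

theorem Loc.aut_mem_intRing (σ : L ≃ₐ[ℚ] L) {x : Loc L q} (hx : x ∈ intRing L q) :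
    Loc.aut L q σ x ∈ intRing L q := by
  rw [Loc.aut_apply]
  exact Loc.map_mem_intRing q _ hx

theorem Loc.aut_mem_intRing_iff (σ : L ≃ₐ[ℚ] L) {x : Loc L q} :
    Loc.aut L q σ x ∈ intRing L q ↔ x ∈ intRing L q := by
  rw [Loc.aut_apply]
  exact Loc.map_mem_intRing_iff q _

variable (L)

/-- `Aut(L/ℚ) → Aut(L_q/ℚ)`. -/
def Loc.autHom : (L ≃ₐ[ℚ] L) →* (Loc L q ≃ₐ[ℚ] Loc L q) where
  toFun := Loc.aut L q
  map_one' := Loc.aut_one q
  map_mul' := Loc.aut_mul q

end Action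

section Invariants

variable {K L : Type*} [Field K] [Field L] [Algebra ℚ K] [Algebra ℚ L] (q : Nat.Primes)

/-- The `L`-basis `1 ⊗ b_i` of `L_q` coming from a `ℚ`-basis of `ℚ_q`. -/
def Loc.basis : Module.Basis (Module.Free.ChooseBasisIndex ℚ ℚ_[(q : ℕ)]) L (Loc L q) :=
  Algebra.TensorProduct.basis L (Module.Free.chooseBasis ℚ ℚ_[(q : ℕ)])

theorem Loc.basis_apply (i : Module.Free.ChooseBasisIndex ℚ ℚ_[(q : ℕ)]) :
    Loc.basis (L := L) q i = (1 : L) ⊗ₜ[ℚ] (Module.Free.chooseBasis ℚ ℚ_[(q : ℕ)] i) :=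
  Algebra.TensorProduct.basis_apply _ i

/-- Coordinates are functorial. -/
theorem Loc.repr_map (f : K →ₐ[ℚ] L) (x : Loc K q)
    (i : Module.Free.ChooseBasisIndex ℚ ℚ_[(q : ℕ)]) :
    (Loc.basis (L := L) q).repr (Loc.map q f x) i = f ((Loc.basis (L := K) q).repr x i) := by
  induction x using TensorProduct.induction_on with
  | zero => simp
  | tmul a c =>
    rw [Loc.map_tmul]
    unfold Loc.basis
    rw [Algebra.TensorProduct.basis_repr_tmul, Algebra.TensorProduct.basis_repr_tmul]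
    simp
  | add z w hz hw =>
    simp only [map_add, Finsupp.add_apply, hz, hw]

/-- **Galois descent for `L_q`**: if `f : K → L` identifies `K` with the fixed field of a set `G` of
automorphisms of `L`, then the `G`-invariants of `L_q` are `K_q`. -/
theorem Loc.mem_range_map_of_fixed (f : K →ₐ[ℚ] L) (G : Set (L ≃ₐ[ℚ] L))
    (hfix : ∀ a : L, (∀ σ ∈ G, σ a = a) → a ∈ f.range) (x : Loc L q)
    (hx : ∀ σ ∈ G, Loc.aut L q σ x = x) : x ∈ (Loc.map q f).range := by
  have hcoord : ∀ i, (Loc.basis (L := L) q).repr x i ∈ f.range := by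
    intro i
    apply hfix
    intro σ hσ
    have h1 := Loc.repr_map q (σ : L →ₐ[ℚ] L) x i
    rw [← Loc.aut_apply, hx σ hσ] at h1
    exact h1.symm
  simp only [AlgHom.mem_range] at hcoord
  choose k hk using hcoord
  rw [AlgHom.mem_range]
  refine ⟨∑ i ∈ ((Loc.basis (L := L) q).repr x).support,
    k i ⊗ₜ[ℚ] (Module.Free.chooseBasis ℚ ℚ_[(q : ℕ)] i), ?_⟩
  rw [map_sum]
  conv_rhs => rw [← (Loc.basis (L := L) q).linearCombination_repr x]
  rw [Finsupp.linearCombination_apply, Finsupp.sum]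
  refine Finset.sum_congr rfl fun i _ => ?_
  rw [Loc.map_tmul, hk i, Loc.basis_apply, TensorProduct.smul_tmul', smul_eq_mul, mul_one]

/-- Conversely elements of `K_q` are fixed by automorphisms of `L` over `K`. -/
theorem Loc.aut_map_of_fixes (f : K →ₐ[ℚ] L) (σ : L ≃ₐ[ℚ] L) (hσ : ∀ a : K, σ (f a) = f a)
    (y : Loc K q) : Loc.aut L q σ (Loc.map q f y) = Loc.map q f y := by
  induction y using TensorProduct.induction_on with
  | zero => simp
  | tmul a c => rw [Loc.map_tmul, Loc.aut_tmul, hσ]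
  | add z w hz hw => rw [map_add, map_add, hz, hw]

end Invariants

end Fermat.Agent.CFT.Idele
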