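import Mathlib
import Fermat.Agent.CFT.Idele.Local

/-!
# PROJECT C, slice C2 (ideles), part 2: the finite idele group in the tensor model

For a field `L` algebraic over `ℚ` (a number field, but also `ℚ̄` or `ℚ_S`):

* `J L` : the restricted product of the `(L ⊗ ℚ_q)ˣ` with respect to the `intUnits L q`
  (a subgroup of the Pi group; no topology);
* `JT L T` : the ideles which are integral units outside the set `T` of primes;
* `diag L : Lˣ →* J L` : the principal ideles, injective;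
* `Idele.map f` for `f : K →ₐ[ℚ] L`, injective; `MulDistribMulAction (L ≃ₐ[ℚ] L) (J L)`;
* Galois descent `Idele.mem_range_map_of_fixed`: the invariants of `J L` are `Idele K`.
-/

set_option autoImplicit false

open scoped TensorProduct

noncomputable section

namespace Fermat.Agent.CFT.Idele

section Defs

variable (L : Type*) [Field L] [Algebra ℚ L]

/-- The ideles which are integral units outside `T`. -/
def JT (T : Set Nat.Primes) : Subgroup (∀ q : Nat.Primes, (Loc L q)ˣ) where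
  carrier := {x | ∀ q, q ∉ T → x q ∈ intUnits L q}
  mul_mem' hx hy q hq := (intUnits L q).mul_mem (hx q hq) (hy q hq)
  one_mem' q _ := (intUnits L q).one_mem
  inv_mem' hx q hq := (intUnits L q).inv_mem (hx q hq)

theorem mem_JT {T : Set Nat.Primes} {x : ∀ q : Nat.Primes, (Loc L q)ˣ} :
    x ∈ JT L T ↔ ∀ q, q ∉ T → x q ∈ intUnits L q := Iff.rfl

theorem jT_mono {T T' : Set Nat.Primes} (h : T ⊆ T') : JT L T ≤ JT L T' :=
  fun _ hx q hq => hx q fun hqT => hq (h hqT)

/-- The (finite) idele group of `L`: families of units of the `L ⊗ ℚ_q` which are integral units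
for almost all `q`. -/
def J : Subgroup (∀ q : Nat.Primes, (Loc L q)ˣ) where
  carrier := {x | {q | x q ∉ intUnits L q}.Finite}
  mul_mem' := by
    intro x y hx hy
    refine (hx.union hy).subset ?_
    intro q hq
    by_contra h
    rw [Set.mem_union, not_or] at h
    exact hq ((intUnits L q).mul_mem (not_not.mp h.1) (not_not.mp h.2))
  one_mem' := by
    refine Set.Finite.subset Set.finite_empty ?_
    intro q hq
    exact absurd (intUnits L q).one_mem hq
  inv_mem' := by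
    intro x hx
    refine hx.subset ?_
    intro q hq hx'
    exact hq ((intUnits L q).inv_mem hx')

theorem mem_J {x : ∀ q : Nat.Primes, (Loc L q)ˣ} :
    x ∈ J L ↔ {q | x q ∉ intUnits L q}.Finite := Iff.rfl

theorem mem_J_iff_exists {x : ∀ q : Nat.Primes, (Loc L q)ˣ} :
    x ∈ J L ↔ ∃ T : Finset Nat.Primes, x ∈ JT L (T : Set Nat.Primes) := by
  constructor
  · intro hx
    refine ⟨hx.toFinset, fun q hq => ?_⟩
    by_contra h
    exact hq ((Set.Finite.mem_toFinset hx).mpr h)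
  · rintro ⟨T, hT⟩
    refine T.finite_toSet.subset ?_
    intro q hq
    by_contra h
    exact hq (hT q h)

theorem jT_le_J (T : Finset Nat.Primes) : JT L (T : Set Nat.Primes) ≤ J L :=
  fun _ hx => (mem_J_iff_exists L).mpr ⟨T, hx⟩

end Defs

/-! ### Integrality of global elements -/

section Integrality

variable (L : Type*) [Field L] [Algebra ℚ L] (q : Nat.Primes)

theorem inclL_mem_intRing_of_isIntegral {a : L} (ha : IsIntegral ℤ a) :
    inclL L q a ∈ intRing L q := by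
  rw [mem_intRing]
  have h1 : ((inclL L q).comp (algebraMap ℤ L)).IsIntegralElem (inclL L q a) :=
    RingHom.IsIntegralElem.map ha (inclL L q)
  have h2 : (inclL L q).comp (algebraMap ℤ L) = (inclZ L q).comp (algebraMap ℤ ℤ_[(q : ℕ)]) :=
    Subsingleton.elim _ _
  rw [h2] at h1
  exact RingHom.IsIntegralElem.of_comp h1

theorem isUnit_intCast_padicInt {m : ℤ} (hm : ¬ ((q : ℕ) : ℤ) ∣ m) :
    IsUnit (m : ℤ_[(q : ℕ)]) := by
  rw [PadicInt.isUnit_iff]
  have h1 := (PadicInt.norm_int_lt_one_iff_dvd (p := (q : ℕ)) m).not.mpr hm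
  exact le_antisymm (PadicInt.norm_le_one _) (not_lt.mp h1)

/-- `a ⊗ 1` is integral at `q` as soon as `q` does not divide a denominator of `a`. -/
theorem inclL_mem_intRing_of_isIntegral_smul {a : L} {m : ℤ} (hm : ¬ ((q : ℕ) : ℤ) ∣ m)
    (ha : IsIntegral ℤ (m • a)) : inclL L q a ∈ intRing L q := by
  obtain ⟨u, hu⟩ := isUnit_intCast_padicInt q hm
  have h1 := inclL_mem_intRing_of_isIntegral L q ha
  have h2 := inclZ_mem_intRing L q ((u⁻¹ : (ℤ_[(q : ℕ)])ˣ) : ℤ_[(q : ℕ)])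
  have h3 : inclL L q a
      = inclL L q (m • a) * inclZ L q ((u⁻¹ : (ℤ_[(q : ℕ)])ˣ) : ℤ_[(q : ℕ)]) := by
    rw [inclL_apply, inclL_apply, inclZ_apply, Algebra.TensorProduct.tmul_mul_tmul, mul_one,
      one_mul]
    have : (m • a : L) = (m : ℚ) • a := by
      rw [Int.cast_smul_eq_zsmul]
    rw [this, TensorProduct.smul_tmul]
    congr 1
    have h4 : ((m : ℚ) • (((u⁻¹ : (ℤ_[(q : ℕ)])ˣ) : ℤ_[(q : ℕ)]) : ℚ_[(q : ℕ)]))
        = (((u : ℤ_[(q : ℕ)]) * ((u⁻¹ : (ℤ_[(q : ℕ)])ˣ) : ℤ_[(q : ℕ)]) : ℤ_[(q : ℕ)]) :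
            ℚ_[(q : ℕ)]) := by
      rw [hu, PadicInt.coe_mul, PadicInt.coe_intCast, Algebra.smul_def]
      simp
    rw [h4, Units.mul_inv, PadicInt.coe_one]
  rw [h3]
  exact (intRing L q).mul_mem h1 h2

theorem finite_setOf_int_dvd {m : ℤ} (hm : m ≠ 0) : {q : Nat.Primes | ((q : ℕ) : ℤ) ∣ m}.Finite := by
  have h1 : {n : ℕ | (n : ℤ) ∣ m}.Finite := by
    have : {n : ℕ | (n : ℤ) ∣ m} ⊆ ↑(m.natAbs.divisors) := by
      intro n hn
      simp only [Finset.mem_coe, Nat.mem_divisors]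
      exact ⟨Int.natCast_dvd.mp hn, by simpa using hm⟩
    exact (Finset.finite_toSet _).subset this
  exact Set.Finite.of_injOn (f := fun q : Nat.Primes => (q : ℕ)) (fun q hq => hq)
    (fun a _ b _ h => Subtype.ext h) h1

variable [Algebra.IsAlgebraic ℚ L]

theorem exists_int_isIntegral_smul (a : L) : ∃ m : ℤ, m ≠ 0 ∧ IsIntegral ℤ (m • a) := by
  have h : IsAlgebraic ℤ a := by
    have := (IsFractionRing.comap_isAlgebraic_iff (A := ℤ) (K := ℚ) (C := L)).mpr inferInstance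
    exact this.isAlgebraic a
  obtain ⟨y, hy, hint⟩ := h.exists_integral_multiple
  exact ⟨y, hy, hint⟩

/-- An element of `L` is integral at almost all primes. -/
theorem finite_setOf_inclL_notMem (a : L) : {q : Nat.Primes | inclL L q a ∉ intRing L q}.Finite := by
  obtain ⟨m, hm0, hm⟩ := exists_int_isIntegral_smul L a
  refine (finite_setOf_int_dvd hm0).subset ?_
  intro q hq
  by_contra h
  exact hq (inclL_mem_intRing_of_isIntegral_smul L q h hm)

end Integrality

/-! ### Principal ideles -/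

section Diag

variable (L : Type*) [Field L] [Algebra ℚ L] [Algebra.IsAlgebraic ℚ L]

/-- The family of local components of a global unit. -/
def diagFun (a : Lˣ) : ∀ q : Nat.Primes, (Loc L q)ˣ :=
  fun q => Units.map (inclL L q : L →* Loc L q) a

omit [Algebra.IsAlgebraic ℚ L] in
theorem diagFun_apply (a : Lˣ) (q : Nat.Primes) :
    ((diagFun L a q : (Loc L q)ˣ) : Loc L q) = inclL L q a := rfl

theorem diagFun_mem (a : Lˣ) : diagFun L a ∈ J L := by
  rw [mem_J]
  refine ((finite_setOf_inclL_notMem L (a : L)).union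
    (finite_setOf_inclL_notMem L ((a⁻¹ : Lˣ) : L))).subset ?_
  intro q hq
  by_contra h
  rw [Set.mem_union, not_or] at h
  refine hq ⟨not_not.mp h.1, ?_⟩
  have : ((diagFun L a q)⁻¹ : (Loc L q)ˣ) = diagFun L a⁻¹ q := by
    unfold diagFun
    rw [map_inv]
  rw [this]
  exact not_not.mp h.2

/-- The principal ideles. -/
def diag : Lˣ →* J L where
  toFun a := ⟨diagFun L a, diagFun_mem L a⟩
  map_one' := by
    apply Subtype.ext
    funext q
    exact map_one _
  map_mul' a b := by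
    apply Subtype.ext
    funext q
    exact map_mul _ a b

theorem diag_apply (a : Lˣ) (q : Nat.Primes) :
    (((diag L a : J L) : ∀ q : Nat.Primes, (Loc L q)ˣ) q : Loc L q) = inclL L q a := rfl

theorem diag_injective : Function.Injective (diag L) := by
  intro a b hab
  have h := congrArg (fun x : J L => ((x : ∀ q : Nat.Primes, (Loc L q)ˣ) ⟨2, Nat.prime_two⟩ :
    Loc L ⟨2, Nat.prime_two⟩)) hab
  exact Units.ext ((inclL L ⟨2, Nat.prime_two⟩).injective h)

end Diag

/-! ### Functoriality and the action of automorphisms -/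

section Functoriality

variable {K L M : Type*} [Field K] [Field L] [Field M] [Algebra ℚ K] [Algebra ℚ L] [Algebra ℚ M]

/-- Functoriality on families of local units. -/
def mapFun (f : K →ₐ[ℚ] L) : (∀ q : Nat.Primes, (Loc K q)ˣ) →* (∀ q : Nat.Primes, (Loc L q)ˣ) where
  toFun x q := Units.map (Loc.map q f : Loc K q →* Loc L q) (x q)
  map_one' := by
    funext q
    exact map_one _
  map_mul' x y := by
    funext q
    exact map_mul _ _ _

theorem mapFun_apply (f : K →ₐ[ℚ] L) (x : ∀ q : Nat.Primes, (Loc K q)ˣ) (q : Nat.Primes) :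
    ((mapFun f x q : (Loc L q)ˣ) : Loc L q) = Loc.map q f (x q) := rfl

theorem mapFun_inv_apply (f : K →ₐ[ℚ] L) (x : ∀ q : Nat.Primes, (Loc K q)ˣ) (q : Nat.Primes) :
    (((mapFun f x q)⁻¹ : (Loc L q)ˣ) : Loc L q) = Loc.map q f ((x q)⁻¹ : (Loc K q)ˣ) := by
  unfold mapFun
  simp only [MonoidHom.coe_mk, OneHom.coe_mk]
  rw [← map_inv]
  rfl

theorem mapFun_mem_intUnits_iff (f : K →ₐ[ℚ] L) (x : ∀ q : Nat.Primes, (Loc K q)ˣ)
    (q : Nat.Primes) : mapFun f x q ∈ intUnits L q ↔ x q ∈ intUnits K q := by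
  rw [mem_intUnits, mem_intUnits, mapFun_apply, mapFun_inv_apply, Loc.map_mem_intRing_iff,
    Loc.map_mem_intRing_iff]

theorem mapFun_mem_JT_iff (f : K →ₐ[ℚ] L) (T : Set Nat.Primes) (x : ∀ q : Nat.Primes, (Loc K q)ˣ) :
    mapFun f x ∈ JT L T ↔ x ∈ JT K T := by
  simp only [mem_JT, mapFun_mem_intUnits_iff]

theorem mapFun_mem_J_iff (f : K →ₐ[ℚ] L) (x : ∀ q : Nat.Primes, (Loc K q)ˣ) :
    mapFun f x ∈ J L ↔ x ∈ J K := by
  simp only [mem_J, mapFun_mem_intUnits_iff]

theorem mapFun_injective (f : K →ₐ[ℚ] L) : Function.Injective (mapFun f) := by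
  intro x y hxy
  funext q
  have h := congrFun hxy q
  apply Units.ext
  apply Loc.map_injective q f
  have := congrArg (fun u : (Loc L q)ˣ => (u : Loc L q)) h
  simpa only [mapFun_apply] using this

/-- `J K → J L` for `f : K → L`. -/
def J.map (f : K →ₐ[ℚ] L) : J K →* J L where
  toFun x := ⟨mapFun f x.1, (mapFun_mem_J_iff f x.1).mpr x.2⟩
  map_one' := Subtype.ext (map_one (mapFun f))
  map_mul' x y := Subtype.ext (map_mul (mapFun f) x.1 y.1)

theorem J.map_val (f : K →ₐ[ℚ] L) (x : J K) :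
    ((J.map f x : J L) : ∀ q : Nat.Primes, (Loc L q)ˣ) = mapFun f x.1 := rfl

theorem J.map_injective (f : K →ₐ[ℚ] L) : Function.Injective (J.map f) := by
  intro x y hxy
  apply Subtype.ext
  apply mapFun_injective f
  exact congrArg Subtype.val hxy

theorem J.map_mem_JT_iff (f : K →ₐ[ℚ] L) (T : Set Nat.Primes) (x : J K) :
    ((J.map f x : J L) : ∀ q : Nat.Primes, (Loc L q)ˣ) ∈ JT L T
      ↔ (x : ∀ q : Nat.Primes, (Loc K q)ˣ) ∈ JT K T :=
  mapFun_mem_JT_iff f T x.1

theorem mapFun_id (x : ∀ q : Nat.Primes, (Loc L q)ˣ) : mapFun (AlgHom.id ℚ L) x = x := by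
  funext q
  apply Units.ext
  rw [mapFun_apply, Loc.map_id]
  rfl

theorem mapFun_comp (g : L →ₐ[ℚ] M) (f : K →ₐ[ℚ] L) (x : ∀ q : Nat.Primes, (Loc K q)ˣ) :
    mapFun (g.comp f) x = mapFun g (mapFun f x) := by
  funext q
  apply Units.ext
  rw [mapFun_apply, mapFun_apply, mapFun_apply, Loc.map_comp_apply]

theorem J.map_id (x : J L) : J.map (AlgHom.id ℚ L) x = x :=
  Subtype.ext (mapFun_id x.1)

theorem J.map_comp (g : L →ₐ[ℚ] M) (f : K →ₐ[ℚ] L) (x : J K) :
    J.map (g.comp f) x = J.map g (J.map f x) :=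
  Subtype.ext (mapFun_comp g f x.1)

theorem J.map_diag [Algebra.IsAlgebraic ℚ K] [Algebra.IsAlgebraic ℚ L] (f : K →ₐ[ℚ] L) (a : Kˣ) :
    J.map f (diag K a) = diag L (Units.map (f : K →* L) a) := by
  apply Subtype.ext
  funext q
  apply Units.ext
  rfl

end Functoriality

section Action

variable (L : Type*) [Field L] [Algebra ℚ L]

/-- The action of `Aut(L/ℚ)` on the ideles. -/
instance instMulDistribMulActionJ : MulDistribMulAction (L ≃ₐ[ℚ] L) (J L) where
  smul σ x := J.map (σ : L →ₐ[ℚ] L) x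
  one_smul x := J.map_id x
  mul_smul σ τ x := J.map_comp (σ : L →ₐ[ℚ] L) (τ : L →ₐ[ℚ] L) x
  smul_mul σ x y := map_mul (J.map (σ : L →ₐ[ℚ] L)) x y
  smul_one σ := map_one (J.map (σ : L →ₐ[ℚ] L))

variable {L}

theorem smul_def (σ : L ≃ₐ[ℚ] L) (x : J L) : σ • x = J.map (σ : L →ₐ[ℚ] L) x := rfl

theorem smul_apply (σ : L ≃ₐ[ℚ] L) (x : J L) (q : Nat.Primes) :
    (((σ • x : J L) : ∀ q : Nat.Primes, (Loc L q)ˣ) q : Loc L q)
      = Loc.aut L q σ ((x : ∀ q : Nat.Primes, (Loc L q)ˣ) q) := by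
  rw [Loc.aut_apply]
  rfl

theorem smul_diag [Algebra.IsAlgebraic ℚ L] (σ : L ≃ₐ[ℚ] L) (a : Lˣ) :
    σ • diag L a = diag L (Units.map (σ : L →* L) a) :=
  J.map_diag (σ : L →ₐ[ℚ] L) a

theorem smul_mem_JT_iff (σ : L ≃ₐ[ℚ] L) (T : Set Nat.Primes) (x : J L) :
    ((σ • x : J L) : ∀ q : Nat.Primes, (Loc L q)ˣ) ∈ JT L T
      ↔ (x : ∀ q : Nat.Primes, (Loc L q)ˣ) ∈ JT L T :=
  J.map_mem_JT_iff (σ : L →ₐ[ℚ] L) T x

end Action

/-! ### Galois descent -/

section Descent

variable {K L : Type*} [Field K] [Field L] [Algebra ℚ K] [Algebra ℚ L]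

/-- **Galois descent for ideles**: if `f : K → L` identifies `K` with the fixed field of a set `G`
of automorphisms of `L`, every `G`-invariant idele of `L` comes from a (unique) idele of `K`. -/
theorem J.mem_range_map_of_fixed (f : K →ₐ[ℚ] L) (G : Set (L ≃ₐ[ℚ] L))
    (hfix : ∀ a : L, (∀ σ ∈ G, σ a = a) → a ∈ f.range) (x : J L)
    (hx : ∀ σ ∈ G, σ • x = x) : x ∈ (J.map f).range := by
  have hloc : ∀ (q : Nat.Primes) (u : (Loc L q)ˣ),
      (∀ σ ∈ G, Loc.aut L q σ (u : Loc L q) = u) → ∃ v : (Loc K q)ˣ,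
        Units.map (Loc.map q f : Loc K q →* Loc L q) v = u := by
    intro q u hu
    have hu' : ∀ σ ∈ G, Loc.aut L q σ ((u⁻¹ : (Loc L q)ˣ) : Loc L q) = (u⁻¹ : (Loc L q)ˣ) := by
      intro σ hσ
      have h1 : (u : Loc L q) * Loc.aut L q σ ((u⁻¹ : (Loc L q)ˣ) : Loc L q) = 1 := by
        conv_lhs => rw [← hu σ hσ]
        rw [← map_mul, Units.mul_inv, map_one]
      rw [mul_comm] at h1
      exact (Units.eq_inv_of_mul_eq_one_right h1)
    obtain ⟨y, hy⟩ := (AlgHom.mem_range (Loc.map q f)).mp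
      (Loc.mem_range_map_of_fixed q f G hfix (u : Loc L q) hu)
    obtain ⟨y', hy'⟩ := (AlgHom.mem_range (Loc.map q f)).mp
      (Loc.mem_range_map_of_fixed q f G hfix ((u⁻¹ : (Loc L q)ˣ) : Loc L q) hu')
    have h1 : y * y' = 1 := by
      apply Loc.map_injective q f
      rw [map_mul, hy, hy', Units.mul_inv, map_one]
    have h2 : y' * y = 1 := by rw [mul_comm]; exact h1
    exact ⟨⟨y, y', h1, h2⟩, Units.ext hy⟩
  have hx' : ∀ (q : Nat.Primes), ∀ σ ∈ G,
      Loc.aut L q σ (((x : ∀ q : Nat.Primes, (Loc L q)ˣ) q : (Loc L q)ˣ) : Loc L q)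
        = ((x : ∀ q : Nat.Primes, (Loc L q)ˣ) q : (Loc L q)ˣ) := by
    intro q σ hσ
    rw [← smul_apply, hx σ hσ]
  choose v hv using fun q => hloc q ((x : ∀ q : Nat.Primes, (Loc L q)ˣ) q) (hx' q)
  have hvx : mapFun f v = (x : ∀ q : Nat.Primes, (Loc L q)ˣ) := funext hv
  have hvJ : v ∈ J K := by
    rw [← mapFun_mem_J_iff f, hvx]
    exact x.2
  exact ⟨⟨v, hvJ⟩, Subtype.ext hvx⟩

/-- Conversely, ideles of `K` are fixed by the automorphisms of `L` over `K`. -/
theorem J.smul_map_of_fixes (f : K →ₐ[ℚ] L) (σ : L ≃ₐ[ℚ] L) (hσ : ∀ a : K, σ (f a) = f a)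
    (y : J K) : σ • J.map f y = J.map f y := by
  have h : (σ : L →ₐ[ℚ] L).comp f = f := AlgHom.ext fun a => hσ a
  rw [smul_def, ← J.map_comp, h]

end Descent

end Fermat.Agent.CFT.Idele
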