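import Mathlib
import Fermat.Agent.CFT.Idele.Basic

/-!
# PROJECT C, slice C2 (ideles), part 3: idele classes and the product decomposition of `J_{L,T}`

* `C L := J L ⧸ (diag L).range` with the induced action of `L ≃ₐ[ℚ] L`, `toC L : J L →* C L`;
* `TUnits L T : Subgroup Lˣ` : the global units whose principal idele lies in `J_{L,T}`;
* `JTprod L T` : the product decomposition
  `J_{L,T} ≃* (∏_{q ∈ T} (L_q)ˣ) × (∏_{q ∉ T} intUnits L q)`, equivariant.
-/

set_option autoImplicit false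

open scoped TensorProduct

noncomputable section

namespace Fermat.Agent.CFT.Idele

section Classes

variable (L : Type*) [Field L] [Algebra ℚ L] [Algebra.IsAlgebraic ℚ L]

instance instCommGroupJ : CommGroup (J L) := Subgroup.toCommGroup (J L)

/-- The (finite) idele class group. -/
abbrev C : Type _ := J L ⧸ (diag L).range

/-- The projection `J L → C L`. -/
def toC : J L →* C L := QuotientGroup.mk' (diag L).range

theorem toC_surjective : Function.Surjective (toC L) := QuotientGroup.mk'_surjective _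

theorem toC_eq_one_iff (x : J L) : toC L x = 1 ↔ ∃ a : Lˣ, diag L a = x := by
  unfold toC
  rw [QuotientGroup.mk'_apply, QuotientGroup.eq_one_iff]
  rfl

theorem toC_diag (a : Lˣ) : toC L (diag L a) = 1 := (toC_eq_one_iff L _).mpr ⟨a, rfl⟩

variable {L}

theorem smul_mem_range_diag (σ : L ≃ₐ[ℚ] L) {x : J L} (hx : x ∈ (diag L).range) :
    σ • x ∈ (diag L).range := by
  obtain ⟨a, rfl⟩ := hx
  exact ⟨_, (smul_diag σ a).symm⟩

/-- The action of one automorphism on idele classes. -/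
def C.act (σ : L ≃ₐ[ℚ] L) : C L →* C L :=
  QuotientGroup.map (diag L).range (diag L).range (MulDistribMulAction.toMonoidHom (J L) σ)
    (fun _ hx => smul_mem_range_diag σ hx)

theorem C.act_toC (σ : L ≃ₐ[ℚ] L) (x : J L) : C.act σ (toC L x) = toC L (σ • x) := rfl

variable (L)

/-- The action of `Aut(L/ℚ)` on the idele class group. -/
instance instMulDistribMulActionC : MulDistribMulAction (L ≃ₐ[ℚ] L) (C L) where
  smul σ c := C.act σ c
  one_smul c := by
    obtain ⟨x, rfl⟩ := toC_surjective L c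
    show C.act 1 (toC L x) = toC L x
    rw [C.act_toC, one_smul]
  mul_smul σ τ c := by
    obtain ⟨x, rfl⟩ := toC_surjective L c
    show C.act (σ * τ) (toC L x) = C.act σ (C.act τ (toC L x))
    rw [C.act_toC, C.act_toC, C.act_toC, mul_smul]
  smul_mul σ c d := map_mul (C.act σ) c d
  smul_one σ := map_one (C.act σ)

variable {L}

theorem smul_toC (σ : L ≃ₐ[ℚ] L) (x : J L) : σ • toC L x = toC L (σ • x) := rfl

end Classes

/-! ### `T`-ideles inside `J L`, `T`-units -/

section TIdeles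

variable (L : Type*) [Field L] [Algebra ℚ L]

/-- `J_{L,T}` as a subgroup of `J L`. -/
def JTsub (T : Set Nat.Primes) : Subgroup (J L) := (JT L T).comap (J L).subtype

theorem mem_JTsub {T : Set Nat.Primes} {x : J L} :
    x ∈ JTsub L T ↔ ∀ q, q ∉ T → (x : ∀ q : Nat.Primes, (Loc L q)ˣ) q ∈ intUnits L q := Iff.rfl

theorem JTsub_mono {T T' : Set Nat.Primes} (h : T ⊆ T') : JTsub L T ≤ JTsub L T' :=
  fun _ hx => jT_mono L h hx

/-- Every idele lies in some `J_{L,T}` with `T` finite. -/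
theorem exists_mem_JTsub (x : J L) : ∃ T : Finset Nat.Primes, x ∈ JTsub L (T : Set Nat.Primes) :=
  (mem_J_iff_exists L).mp x.2

variable {L}

theorem smul_mem_JTsub_iff (σ : L ≃ₐ[ℚ] L) (T : Set Nat.Primes) (x : J L) :
    σ • x ∈ JTsub L T ↔ x ∈ JTsub L T :=
  smul_mem_JT_iff σ T x

variable (L) [Algebra.IsAlgebraic ℚ L]

/-- The `T`-units of `L`: global units whose principal idele is an integral unit outside `T`. -/
def TUnits (T : Set Nat.Primes) : Subgroup Lˣ := (JTsub L T).comap (diag L)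

theorem mem_TUnits {T : Set Nat.Primes} {a : Lˣ} :
    a ∈ TUnits L T ↔ ∀ q, q ∉ T → inclL L q (a : L) ∈ intRing L q ∧
      inclL L q ((a⁻¹ : Lˣ) : L) ∈ intRing L q := by
  unfold TUnits
  rw [Subgroup.mem_comap, mem_JTsub]
  refine forall₂_congr fun q _ => ?_
  rw [mem_intUnits]
  rfl

/-- `Lˣ ∩ J_{L,T}` (inside `J L`) is the image of the `T`-units. -/
theorem range_diag_inf_JTsub (T : Set Nat.Primes) :
    (diag L).range ⊓ JTsub L T = (TUnits L T).map (diag L) := by
  ext x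
  constructor
  · rintro ⟨⟨a, rfl⟩, hx⟩
    exact ⟨a, hx, rfl⟩
  · rintro ⟨a, ha, rfl⟩
    exact ⟨⟨a, rfl⟩, ha⟩

end TIdeles

/-! ### The product decomposition of `J_{L,T}` -/

section Product

variable (L : Type*) [Field L] [Algebra ℚ L] (T : Set Nat.Primes)

open Classical in
/-- `J_{L,T} ≃ (∏_{q ∈ T} (L_q)ˣ) × (∏_{q ∉ T} U_q)`. -/
def JTprod : JT L T ≃* (∀ q : T, (Loc L q)ˣ) × (∀ q : {q : Nat.Primes // q ∉ T}, intUnits L q) where
  toFun x := (fun q => x.1 q.1, fun q => ⟨x.1 q.1, x.2 q.1 q.2⟩)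
  invFun y := ⟨fun q => if h : q ∈ T then y.1 ⟨q, h⟩ else (y.2 ⟨q, h⟩ : (Loc L q)ˣ), by
    intro q hq
    simp only [dif_neg hq]
    exact (y.2 ⟨q, hq⟩).2⟩
  left_inv x := by
    apply Subtype.ext
    funext q
    by_cases h : q ∈ T
    · simp only [dif_pos h]
    · simp only [dif_neg h]
  right_inv y := by
    refine Prod.ext ?_ ?_
    · funext q
      simp only [dif_pos q.2]
    · funext q
      apply Subtype.ext
      simp only [dif_neg q.2]
  map_mul' x y := rfl

theorem JTprod_fst (x : JT L T) (q : T) : (JTprod L T x).1 q = x.1 q.1 := rfl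

theorem JTprod_snd (x : JT L T) (q : {q : Nat.Primes // q ∉ T}) :
    ((JTprod L T x).2 q : (Loc L q.1)ˣ) = x.1 q.1 := rfl

end Product

/-! ### The action on the factors of the product decomposition -/

section ProductAction

variable {L : Type*} [Field L] [Algebra ℚ L] (T : Set Nat.Primes)

/-- The action of an automorphism on the local units at `q`. -/
def autUnits (σ : L ≃ₐ[ℚ] L) (q : Nat.Primes) : (Loc L q)ˣ →* (Loc L q)ˣ :=
  Units.map (Loc.map q (σ : L →ₐ[ℚ] L) : Loc L q →* Loc L q)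

theorem autUnits_apply (σ : L ≃ₐ[ℚ] L) (q : Nat.Primes) (u : (Loc L q)ˣ) :
    ((autUnits σ q u : (Loc L q)ˣ) : Loc L q) = Loc.aut L q σ (u : Loc L q) := by
  rw [Loc.aut_apply]
  rfl

theorem autUnits_val (σ : L ≃ₐ[ℚ] L) (q : Nat.Primes) (u : (Loc L q)ˣ) :
    ((autUnits σ q u : (Loc L q)ˣ) : Loc L q) = Loc.map q (σ : L →ₐ[ℚ] L) (u : Loc L q) := rfl

theorem autUnits_inv_val (σ : L ≃ₐ[ℚ] L) (q : Nat.Primes) (u : (Loc L q)ˣ) :
    (((autUnits σ q u)⁻¹ : (Loc L q)ˣ) : Loc L q)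
      = Loc.map q (σ : L →ₐ[ℚ] L) ((u⁻¹ : (Loc L q)ˣ) : Loc L q) := by
  rw [← map_inv]
  rfl

theorem autUnits_mem_intUnits_iff (σ : L ≃ₐ[ℚ] L) (q : Nat.Primes) (u : (Loc L q)ˣ) :
    autUnits σ q u ∈ intUnits L q ↔ u ∈ intUnits L q := by
  rw [mem_intUnits, mem_intUnits, autUnits_val, autUnits_inv_val, Loc.map_mem_intRing_iff,
    Loc.map_mem_intRing_iff]

theorem autUnits_one (q : Nat.Primes) (u : (Loc L q)ˣ) :
    autUnits (1 : L ≃ₐ[ℚ] L) q u = u := by
  apply Units.ext
  rw [autUnits_apply, Loc.aut_one]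
  rfl

theorem autUnits_mul (σ τ : L ≃ₐ[ℚ] L) (q : Nat.Primes) (u : (Loc L q)ˣ) :
    autUnits (σ * τ) q u = autUnits σ q (autUnits τ q u) := by
  apply Units.ext
  rw [autUnits_apply, autUnits_apply, autUnits_apply, Loc.aut_mul_apply]

/-- The action of an automorphism on the integral local units at `q`. -/
def autIntUnits (σ : L ≃ₐ[ℚ] L) (q : Nat.Primes) : intUnits L q →* intUnits L q where
  toFun u := ⟨autUnits σ q u.1, (autUnits_mem_intUnits_iff σ q u.1).mpr u.2⟩
  map_one' := Subtype.ext (map_one _)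
  map_mul' u v := Subtype.ext (map_mul _ u.1 v.1)

theorem autIntUnits_val (σ : L ≃ₐ[ℚ] L) (q : Nat.Primes) (u : intUnits L q) :
    ((autIntUnits σ q u : intUnits L q) : (Loc L q)ˣ) = autUnits σ q (u : (Loc L q)ˣ) := rfl

theorem smul_val_apply (σ : L ≃ₐ[ℚ] L) (x : J L) (q : Nat.Primes) :
    ((σ • x : J L) : ∀ q : Nat.Primes, (Loc L q)ˣ) q
      = autUnits σ q ((x : ∀ q : Nat.Primes, (Loc L q)ˣ) q) := rfl

/-- The product decomposition is equivariant: `T`-component. -/
theorem JTprod_mapFun_fst (σ : L ≃ₐ[ℚ] L) (x : JT L T) (q : T) :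
    (JTprod L T ⟨mapFun (σ : L →ₐ[ℚ] L) x.1, (mapFun_mem_JT_iff _ T x.1).mpr x.2⟩).1 q
      = autUnits σ q.1 ((JTprod L T x).1 q) := rfl

/-- The product decomposition is equivariant: component outside `T`. -/
theorem JTprod_mapFun_snd (σ : L ≃ₐ[ℚ] L) (x : JT L T) (q : {q : Nat.Primes // q ∉ T}) :
    (JTprod L T ⟨mapFun (σ : L →ₐ[ℚ] L) x.1, (mapFun_mem_JT_iff _ T x.1).mpr x.2⟩).2 q
      = autIntUnits σ q.1 ((JTprod L T x).2 q) := rfl

end ProductAction

end Fermat.Agent.CFT.Idele
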