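import Mathlib
import Fermat.Agent.CFT.Idele.Class

/-!
# PROJECT C, slice C2 (ideles), part 3: the idele sequence in `Rep ℤ G`

For a field `L` algebraic over `ℚ` we package the three `Gal`-modules `Lˣ`, `J L`, `C L` as objects
of `Rep ℤ (L ≃ₐ[ℚ] L)` (via Mathlib's `Rep.ofMulDistribMulAction`, i.e. on `Additive _`) and prove
that
`0 → Lˣ → J L → C L → 0`
is a short exact sequence there.  Restricting along any group homomorphism `φ : G →* (L ≃ₐ[ℚ] L)`
(e.g. `Gal(L/K) → Gal(L/ℚ)`, or a subgroup inclusion) gives the short exact sequence over `G`.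

## Main definitions

* `repOfHom f hf`: a `G`-equivariant monoid hom `A →* B` of `MulDistribMulAction`-modules as a
  morphism `Rep.ofMulDistribMulAction G A ⟶ Rep.ofMulDistribMulAction G B`.
* `repU L`, `repJ L`, `repC L : Rep ℤ (L ≃ₐ[ℚ] L)`.
* `ideleSC L : ShortComplex (Rep ℤ (L ≃ₐ[ℚ] L))` and `ideleSC_shortExact`.
* `ideleSCres φ`, `ideleSCres_shortExact φ` for `φ : G →* (L ≃ₐ[ℚ] L)`.
* `galHom K L : (L ≃ₐ[K] L) →* (L ≃ₐ[ℚ] L)` and `unitsResIso K L`:
  `Rep.res (galHom K L) (repU L) ≅ Rep.ofAlgebraAutOnUnits K L`.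
-/

set_option autoImplicit false

universe u

noncomputable section

open CategoryTheory

namespace Fermat.Agent.CFT.Idele

/-! ### Generalities on `Rep.ofMulDistribMulAction` -/

section General

/-- A criterion for short exactness in `Rep k G` in terms of the underlying functions. -/
theorem shortExact_of_elementwise {k G : Type u} [CommRing k] [Group G]
    (S : ShortComplex (Rep.{u} k G))
    (hf : Function.Injective S.f.hom) (hg : Function.Surjective S.g.hom)
    (hex : ∀ x : S.X₂, S.g.hom x = 0 → ∃ y : S.X₁, S.f.hom y = x) : S.ShortExact where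
  exact := (forget₂ (Rep.{u} k G) (ModuleCat k)).reflects_exact_of_faithful _ <|
    (ShortComplex.moduleCat_exact_iff _).2 fun x hx => hex x hx
  mono_f := (Rep.mono_iff_injective _).2 hf
  epi_g := (Rep.epi_iff_surjective _).2 hg

variable {G A B C : Type} [Group G] [CommGroup A] [CommGroup B] [CommGroup C]
  [MulDistribMulAction G A] [MulDistribMulAction G B] [MulDistribMulAction G C]

/-- An equivariant homomorphism of multiplicative `G`-modules as a morphism in `Rep ℤ G`. -/
def repOfHom (f : A →* B) (hf : ∀ (g : G) (a : A), f (g • a) = g • f a) :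
    Rep.ofMulDistribMulAction G A ⟶ Rep.ofMulDistribMulAction G B :=
  Rep.ofHom <| LinearMap.intertwiningMap_of_isIntertwiningMap
    (ρ := Representation.ofMulDistribMulAction G A) (σ := Representation.ofMulDistribMulAction G B)
    (f.toAdditive.toIntLinearMap) (fun g v => congrArg Additive.ofMul (hf g v.toMul))

theorem repOfHom_apply (f : A →* B) (hf : ∀ (g : G) (a : A), f (g • a) = g • f a)
    (a : Additive A) : (repOfHom f hf).hom a = Additive.ofMul (f a.toMul) := rfl

/-- The short complex in `Rep ℤ G` attached to a pair of composable equivariant homomorphisms with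
trivial composite. -/
def repSC (f : A →* B) (hf : ∀ (g : G) (a : A), f (g • a) = g • f a)
    (p : B →* C) (hp : ∀ (g : G) (b : B), p (g • b) = g • p b) (hfp : ∀ a, p (f a) = 1) :
    ShortComplex (Rep.{0} ℤ G) :=
  ShortComplex.mk (repOfHom f hf) (repOfHom p hp) (by
    ext a
    exact congrArg Additive.ofMul (hfp a.toMul))

theorem repSC_shortExact (f : A →* B) (hf : ∀ (g : G) (a : A), f (g • a) = g • f a)
    (p : B →* C) (hp : ∀ (g : G) (b : B), p (g • b) = g • p b) (hfp : ∀ a, p (f a) = 1)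
    (hinj : Function.Injective f) (hsurj : Function.Surjective p)
    (hex : ∀ b, p b = 1 → ∃ a, f a = b) : (repSC f hf p hp hfp).ShortExact := by
  refine shortExact_of_elementwise (repSC f hf p hp hfp) ?_ ?_ ?_
  · intro a a' h
    exact congrArg Additive.ofMul (hinj (congrArg Additive.toMul h) : a.toMul = a'.toMul)
  · intro c
    obtain ⟨b, hb⟩ := hsurj c.toMul
    exact ⟨Additive.ofMul b, congrArg Additive.ofMul hb⟩
  · intro b hb
    obtain ⟨a, ha⟩ := hex b.toMul (congrArg Additive.toMul hb)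
    exact ⟨Additive.ofMul a, congrArg Additive.ofMul ha⟩

end General

/-! ### The idele sequence over `L ≃ₐ[ℚ] L` -/

section Idele

variable (L : Type) [Field L] [Algebra ℚ L] [Algebra.IsAlgebraic ℚ L]

/-- `Lˣ` as a representation of `L ≃ₐ[ℚ] L` (this is `Rep.ofAlgebraAutOnUnits ℚ L`). -/
abbrev repU : Rep.{0} ℤ (L ≃ₐ[ℚ] L) := Rep.ofMulDistribMulAction (L ≃ₐ[ℚ] L) Lˣ

/-- The idele group `J L` as a representation of `L ≃ₐ[ℚ] L`. -/
abbrev repJ : Rep.{0} ℤ (L ≃ₐ[ℚ] L) := Rep.ofMulDistribMulAction (L ≃ₐ[ℚ] L) (J L)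

/-- The idele class group `C L` as a representation of `L ≃ₐ[ℚ] L`. -/
abbrev repC : Rep.{0} ℤ (L ≃ₐ[ℚ] L) := Rep.ofMulDistribMulAction (L ≃ₐ[ℚ] L) (C L)

theorem diag_smul (σ : L ≃ₐ[ℚ] L) (a : Lˣ) : diag L (σ • a) = σ • diag L a :=
  (smul_diag σ a).symm

/-- `0 → Lˣ → J L → C L → 0` in `Rep ℤ (L ≃ₐ[ℚ] L)`. -/
def ideleSC : ShortComplex (Rep.{0} ℤ (L ≃ₐ[ℚ] L)) :=
  repSC (diag L) (diag_smul L) (toC L) (fun σ x => (smul_toC σ x).symm) (toC_diag L)

theorem ideleSC_X₁ : (ideleSC L).X₁ = repU L := rfl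
theorem ideleSC_X₂ : (ideleSC L).X₂ = repJ L := rfl
theorem ideleSC_X₃ : (ideleSC L).X₃ = repC L := rfl

theorem ideleSC_f_apply (a : Additive Lˣ) :
    (ideleSC L).f.hom a = Additive.ofMul (diag L a.toMul) := rfl

theorem ideleSC_g_apply (x : Additive (J L)) :
    (ideleSC L).g.hom x = Additive.ofMul (toC L x.toMul) := rfl

theorem ideleSC_shortExact : (ideleSC L).ShortExact :=
  repSC_shortExact _ _ _ _ _ (diag_injective L) (toC_surjective L)
    (fun x hx => (toC_eq_one_iff L x).mp hx)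

/-! ### Restriction to a group mapping to `L ≃ₐ[ℚ] L` -/

variable {L} {G : Type} [Group G] (φ : G →* (L ≃ₐ[ℚ] L))

/-- The idele sequence over a group `G` acting on `L` through `φ`. -/
abbrev ideleSCres : ShortComplex (Rep.{0} ℤ G) := (ideleSC L).map (Rep.resFunctor φ)

theorem ideleSCres_shortExact : (ideleSCres φ).ShortExact :=
  (Rep.shortExact_res φ).2 (ideleSC_shortExact L)

theorem ideleSCres_X₁ : (ideleSCres φ).X₁ = Rep.res φ (repU L) := rfl
theorem ideleSCres_X₂ : (ideleSCres φ).X₂ = Rep.res φ (repJ L) := rfl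
theorem ideleSCres_X₃ : (ideleSCres φ).X₃ = Rep.res φ (repC L) := rfl

omit [Algebra.IsAlgebraic ℚ L] in
theorem res_repJ_ρ_apply (g : G) (x : Additive (J L)) :
    (Rep.res φ (repJ L)).ρ g x = Additive.ofMul (φ g • x.toMul) := rfl

theorem res_repC_ρ_apply (g : G) (x : Additive (C L)) :
    (Rep.res φ (repC L)).ρ g x = Additive.ofMul (φ g • x.toMul) := rfl

omit [Algebra.IsAlgebraic ℚ L] in
theorem res_repU_ρ_apply (g : G) (x : Additive Lˣ) :
    (Rep.res φ (repU L)).ρ g x = Additive.ofMul (φ g • x.toMul) := rfl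

end Idele

/-! ### The relative Galois group -/

section Relative

section GalHom

variable (K L : Type*) [Field K] [Field L] [Algebra ℚ K] [Algebra ℚ L] [Algebra K L]
  [IsScalarTower ℚ K L]

/-- `Gal(L/K) → Gal(L/ℚ)`. -/
def galHom : (L ≃ₐ[K] L) →* (L ≃ₐ[ℚ] L) where
  toFun σ := σ.restrictScalars ℚ
  map_one' := rfl
  map_mul' _ _ := rfl

theorem galHom_apply (σ : L ≃ₐ[K] L) (a : L) : galHom K L σ a = σ a := rfl

theorem galHom_injective : Function.Injective (galHom K L) := by
  intro σ τ h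
  ext a
  exact congrArg (fun f : L ≃ₐ[ℚ] L => f a) h

theorem galHom_algebraMap (σ : L ≃ₐ[K] L) (a : K) :
    galHom K L σ (algebraMap K L a) = algebraMap K L a := σ.commutes a

end GalHom

variable (K L : Type) [Field K] [Field L] [Algebra ℚ K] [Algebra ℚ L] [Algebra K L]
  [IsScalarTower ℚ K L] [Algebra.IsAlgebraic ℚ L]

/-- Over `Gal(L/K)`, the restriction of `repU L` is Mathlib's `Rep.ofAlgebraAutOnUnits K L`. -/
def unitsResIso : Rep.res (galHom K L) (repU L) ≅ Rep.ofAlgebraAutOnUnits K L :=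
  Rep.mkIso (Representation.Equiv.mk (LinearEquiv.refl ℤ (Additive Lˣ)) (fun _ => rfl))

end Relative

end Fermat.Agent.CFT.Idele
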