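import Mathlib
import Fermat.Agent.CFT.Idele.Rep

/-!
# PROJECT C, slice C2 (ideles), part 4: functoriality and Galois descent for idele class groups

* `C.map f : C K →* C L` for `f : K →ₐ[ℚ] L` (`C.map_toC`, `C.map_id`, `C.map_comp`, `C.smul_map`).
* `C.map_injective_of_fixed`: `C K → C L` is injective when `K` is the fixed field of a set of
  automorphisms of `L` (e.g. `L/K` Galois, finite or not).
* `C.mem_range_map_of_fixed` (**Galois descent for idele classes**, via Hilbert 90): for a finite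
  Galois extension `L/K`, `(C L)^{Gal(L/K)} = C K`.
-/

set_option autoImplicit false

namespace Fermat.Agent.CFT.Idele

open groupCohomology

section CMap

variable {K L M : Type*} [Field K] [Field L] [Field M] [Algebra ℚ K] [Algebra ℚ L] [Algebra ℚ M]
  [Algebra.IsAlgebraic ℚ K] [Algebra.IsAlgebraic ℚ L] [Algebra.IsAlgebraic ℚ M]

/-- Functoriality of the idele class group. -/
noncomputable def C.map (f : K →ₐ[ℚ] L) : C K →* C L :=
  QuotientGroup.map (diag K).range (diag L).range (J.map f) (by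
    rintro _ ⟨a, rfl⟩
    exact ⟨Units.map (f : K →* L) a, (J.map_diag f a).symm⟩)

theorem C.map_toC (f : K →ₐ[ℚ] L) (x : J K) : C.map f (toC K x) = toC L (J.map f x) := rfl

theorem C.map_id (x : C L) : C.map (AlgHom.id ℚ L) x = x := by
  obtain ⟨y, rfl⟩ := toC_surjective L x
  rw [C.map_toC, J.map_id]

theorem C.map_comp (g : L →ₐ[ℚ] M) (f : K →ₐ[ℚ] L) (x : C K) :
    C.map (g.comp f) x = C.map g (C.map f x) := by
  obtain ⟨y, rfl⟩ := toC_surjective K x
  rw [C.map_toC, C.map_toC, C.map_toC, J.map_comp]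

theorem C.smul_eq_map (σ : L ≃ₐ[ℚ] L) (x : C L) : σ • x = C.map (σ : L →ₐ[ℚ] L) x := by
  obtain ⟨y, rfl⟩ := toC_surjective L x
  rfl

/-- Classes coming from `K` are fixed by the automorphisms of `L` over `K`. -/
theorem C.smul_map_of_fixes (f : K →ₐ[ℚ] L) (σ : L ≃ₐ[ℚ] L) (hσ : ∀ a : K, σ (f a) = f a)
    (y : C K) : σ • C.map f y = C.map f y := by
  obtain ⟨x, rfl⟩ := toC_surjective K y
  rw [C.map_toC, smul_toC, J.smul_map_of_fixes f σ hσ]

/-- `C.map` is equivariant for compatible automorphisms. -/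
theorem C.map_smul (f : K →ₐ[ℚ] L) (σ : K ≃ₐ[ℚ] K) (τ : L ≃ₐ[ℚ] L)
    (h : ∀ a : K, τ (f a) = f (σ a)) (y : C K) : C.map f (σ • y) = τ • C.map f y := by
  have e : f.comp (σ : K →ₐ[ℚ] K) = (τ : L →ₐ[ℚ] L).comp f := AlgHom.ext fun a => (h a).symm
  rw [C.smul_eq_map, C.smul_eq_map, ← C.map_comp, ← C.map_comp, e]

omit [Algebra.IsAlgebraic ℚ K] [Algebra.IsAlgebraic ℚ L] in
/-- `J.map` is equivariant for compatible automorphisms. -/
theorem J.map_smul (f : K →ₐ[ℚ] L) (σ : K ≃ₐ[ℚ] K) (τ : L ≃ₐ[ℚ] L)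
    (h : ∀ a : K, τ (f a) = f (σ a)) (y : J K) : J.map f (σ • y) = τ • J.map f y := by
  have e : f.comp (σ : K →ₐ[ℚ] K) = (τ : L →ₐ[ℚ] L).comp f := AlgHom.ext fun a => (h a).symm
  rw [smul_def, smul_def, ← J.map_comp, ← J.map_comp, e]

/-- `C K → C L` is injective when `K` is the fixed field of a set of automorphisms of `L`. -/
theorem C.map_injective_of_fixed (f : K →ₐ[ℚ] L) (G : Set (L ≃ₐ[ℚ] L))
    (hG : ∀ σ ∈ G, ∀ a : K, σ (f a) = f a)
    (hfix : ∀ a : L, (∀ σ ∈ G, σ a = a) → a ∈ f.range) : Function.Injective (C.map f) := by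
  rw [injective_iff_map_eq_one]
  intro y hy
  obtain ⟨x, rfl⟩ := toC_surjective K y
  rw [C.map_toC, toC_eq_one_iff] at hy
  obtain ⟨b, hb⟩ := hy
  have hbfix : ∀ σ ∈ G, σ (b : L) = b := by
    intro σ hσ
    have h1 : σ • diag L b = diag L b := by
      rw [hb]
      exact J.smul_map_of_fixes f σ (hG σ hσ) x
    rw [smul_diag] at h1
    have h2 := diag_injective L h1
    exact congrArg (fun u : Lˣ => (u : L)) h2
  obtain ⟨a, ha⟩ := (AlgHom.mem_range f).mp (hfix (b : L) hbfix)
  have ha0 : a ≠ 0 := by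
    rintro rfl
    rw [map_zero] at ha
    exact b.ne_zero ha.symm
  have hxa : x = diag K (Units.mk0 a ha0) := by
    apply J.map_injective f
    rw [J.map_diag, ← hb]
    congr 1
    apply Units.ext
    exact ha.symm
  rw [hxa, toC_diag]

end CMap

/-! ### Galois descent for classes -/

section Descent

variable (K L : Type*) [Field K] [Field L] [Algebra ℚ K] [Algebra ℚ L] [Algebra K L]
  [IsScalarTower ℚ K L] [Algebra.IsAlgebraic ℚ K] [Algebra.IsAlgebraic ℚ L]

/-- The structure map `K → L` as a `ℚ`-algebra homomorphism. -/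
abbrev inclHom : K →ₐ[ℚ] L := IsScalarTower.toAlgHom ℚ K L

omit [Algebra.IsAlgebraic ℚ K] [Algebra.IsAlgebraic ℚ L] in
theorem inclHom_apply (a : K) : inclHom K L a = algebraMap K L a := rfl

omit [Algebra.IsAlgebraic ℚ K] [Algebra.IsAlgebraic ℚ L] in
theorem galHom_inclHom (σ : L ≃ₐ[K] L) (a : K) :
    galHom K L σ (inclHom K L a) = inclHom K L a := σ.commutes a

omit [Algebra.IsAlgebraic ℚ K] [Algebra.IsAlgebraic ℚ L] in
/-- For `L/K` Galois, `K` is the fixed field of the image of `Gal(L/K)`. -/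
theorem mem_range_inclHom_of_fixed [IsGalois K L] (a : L)
    (ha : ∀ σ ∈ Set.range (galHom K L), σ a = a) : a ∈ (inclHom K L).range := by
  obtain ⟨b, hb⟩ := (InfiniteGalois.mem_range_algebraMap_iff_fixed (k := K) (K := L) a).mpr
    (fun σ => ha _ ⟨σ, rfl⟩)
  exact ⟨b, hb⟩

/-- For `L/K` Galois (finite or infinite), `C K → C L` is injective. -/
theorem C.map_inclHom_injective [IsGalois K L] : Function.Injective (C.map (inclHom K L)) :=
  C.map_injective_of_fixed (inclHom K L) (Set.range (galHom K L))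
    (by rintro _ ⟨σ, rfl⟩ a; exact galHom_inclHom K L σ a)
    (mem_range_inclHom_of_fixed K L)

omit [Algebra.IsAlgebraic ℚ K] [Algebra.IsAlgebraic ℚ L] in
/-- For `L/K` Galois (finite or infinite), `J_L^{Gal(L/K)} = J_K`. -/
theorem J.mem_range_map_inclHom [IsGalois K L] (x : J L)
    (hx : ∀ σ : L ≃ₐ[K] L, galHom K L σ • x = x) : x ∈ (J.map (inclHom K L)).range :=
  J.mem_range_map_of_fixed (inclHom K L) (Set.range (galHom K L))
    (mem_range_inclHom_of_fixed K L) x (by rintro _ ⟨σ, rfl⟩; exact hx σ)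

/-- **Galois descent for idele classes**: for a finite Galois extension `L/K`,
`(C L)^{Gal(L/K)} = C K` (a consequence of Hilbert's Theorem 90). -/
theorem C.mem_range_map_inclHom [FiniteDimensional K L] [IsGalois K L] (x : C L)
    (hx : ∀ σ : L ≃ₐ[K] L, galHom K L σ • x = x) : x ∈ (C.map (inclHom K L)).range := by
  obtain ⟨y, rfl⟩ := toC_surjective L x
  -- the cocycle `σ ↦ σ y / y ∈ Lˣ`
  have hex : ∀ σ : L ≃ₐ[K] L, ∃ a : Lˣ, diag L a = galHom K L σ • y / y := by
    intro σ
    have h := hx σ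
    rw [smul_toC] at h
    have h1 : toC L (galHom K L σ • y / y) = 1 := by
      rw [map_div, h, div_self']
    exact (toC_eq_one_iff L _).mp h1
  choose a ha using hex
  have hcoc : IsMulCocycle₁ a := by
    intro σ τ
    apply diag_injective L
    have hsm : diag L (σ • a τ) = galHom K L σ • diag L (a τ) := by
      rw [smul_diag]
      rfl
    rw [map_mul, ha, hsm, ha τ, ha σ, map_mul, mul_smul, smul_div']
    rw [div_mul_div_cancel]
  obtain ⟨b, hb⟩ := isMulCoboundary₁_of_isMulCocycle₁_of_aut_to_units a hcoc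
  -- `y / b` is invariant
  have hinv : ∀ σ : L ≃ₐ[K] L, galHom K L σ • (y / diag L b) = y / diag L b := by
    intro σ
    have hsm : galHom K L σ • diag L b = diag L (σ • b) := by
      rw [smul_diag]
      rfl
    have h1 : diag L (σ • b) = diag L b * (galHom K L σ • y / y) := by
      rw [← ha σ, ← map_mul, ← hb σ, mul_div_cancel]
    rw [smul_div', hsm, h1, div_eq_div_iff_mul_eq_mul]
    rw [mul_comm y, mul_comm (diag L b) (_ / _), mul_assoc, mul_comm (diag L b) y, ← mul_assoc,
      div_mul_cancel]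
  obtain ⟨z, hz⟩ := J.mem_range_map_inclHom K L (y / diag L b) hinv
  refine ⟨toC K z, ?_⟩
  rw [C.map_toC, hz, map_div, toC_diag, div_one]

end Descent

end Fermat.Agent.CFT.Idele
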