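import Mathlib
import Fermat.Agent.CFT.Idele.Class

/-!
# PROJECT C, slice C2 (ideles), part 5: `S`-ideles, unit ideles outside `S`, `S`-idele classes

For a set `S` of rational primes and a field `L` algebraic over `ℚ`:

* `trunc L S : J L →* J L` : truncation (components outside `S` replaced by `1`), equivariant;
* `JS L S : Subgroup (J L)` : the ideles supported in `S` (`= ∏_{q ∈ S} (L ⊗ ℚ_q)ˣ` for `S` finite,
  see `JSprod`);
* `US L S : Subgroup (J L)` : the unit ideles outside `S` (trivial at `S`);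
  `JS L S ⊔ US L S = JTsub L S`, `JS L S ⊓ US L S = ⊥`;
* `CS L S := J L ⧸ (Lˣ · US L S)`, `toCS`, with the action of `L ≃ₐ[ℚ] L`;
* `diagS L S : TUnits L S →* JS L S` : the `S`-units inside the `S`-ideles;
* `ClS L S := J L ⧸ (Lˣ · J_{L,S})` : the `S`-ideal class group;
* exactness of `1 → TUnits L S → JS L S → CS L S → ClS L S → 1`:
  `diagS_injective`, `toCS_eq_one_iff_of_mem_JS`, `toClS_eq_one_iff'`, `CS.toClS_surjective`.
-/

set_option autoImplicit false

open scoped TensorProduct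

noncomputable section

namespace Fermat.Agent.CFT.Idele

/-! ### Truncation -/

section Trunc

variable (L : Type*) [Field L] [Algebra ℚ L] (S : Set Nat.Primes)

open Classical in
/-- Truncation of a family of local units to the set `S`. -/
def truncFun : (∀ q : Nat.Primes, (Loc L q)ˣ) →* (∀ q : Nat.Primes, (Loc L q)ˣ) where
  toFun x q := if q ∈ S then x q else 1
  map_one' := by
    funext q
    by_cases h : q ∈ S
    · simp only [if_pos h, Pi.one_apply]
    · simp only [if_neg h, Pi.one_apply]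
  map_mul' x y := by
    funext q
    by_cases h : q ∈ S
    · simp only [if_pos h, Pi.mul_apply]
    · simp only [if_neg h, Pi.mul_apply, mul_one]

variable {L S}

theorem truncFun_of_mem (x : ∀ q : Nat.Primes, (Loc L q)ˣ) {q : Nat.Primes} (hq : q ∈ S) :
    truncFun L S x q = x q := by
  classical
  exact if_pos hq

theorem truncFun_of_notMem (x : ∀ q : Nat.Primes, (Loc L q)ˣ) {q : Nat.Primes} (hq : q ∉ S) :
    truncFun L S x q = 1 := by
  classical
  exact if_neg hq

theorem truncFun_mem_J {x : ∀ q : Nat.Primes, (Loc L q)ˣ} (hx : x ∈ J L) :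
    truncFun L S x ∈ J L := by
  refine Set.Finite.subset hx ?_
  intro q hq hxq
  apply hq
  by_cases h : q ∈ S
  · rw [truncFun_of_mem x h]
    exact hxq
  · rw [truncFun_of_notMem x h]
    exact (intUnits L q).one_mem

variable (L S)

/-- Truncation of ideles to the set `S`. -/
def trunc : J L →* J L where
  toFun x := ⟨truncFun L S x.1, truncFun_mem_J x.2⟩
  map_one' := Subtype.ext (map_one (truncFun L S))
  map_mul' x y := Subtype.ext (map_mul (truncFun L S) x.1 y.1)

variable {L S}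

theorem trunc_of_mem (x : J L) {q : Nat.Primes} (hq : q ∈ S) :
    (trunc L S x : ∀ q : Nat.Primes, (Loc L q)ˣ) q = (x : ∀ q : Nat.Primes, (Loc L q)ˣ) q :=
  truncFun_of_mem x.1 hq

theorem trunc_of_notMem (x : J L) {q : Nat.Primes} (hq : q ∉ S) :
    (trunc L S x : ∀ q : Nat.Primes, (Loc L q)ˣ) q = 1 :=
  truncFun_of_notMem x.1 hq

theorem J.ext' {x y : J L}
    (h : ∀ q, (x : ∀ q : Nat.Primes, (Loc L q)ˣ) q = (y : ∀ q : Nat.Primes, (Loc L q)ˣ) q) :
    x = y := Subtype.ext (funext h)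

theorem trunc_trunc (x : J L) : trunc L S (trunc L S x) = trunc L S x := by
  apply J.ext'
  intro q
  by_cases h : q ∈ S
  · rw [trunc_of_mem _ h]
  · rw [trunc_of_notMem _ h, trunc_of_notMem _ h]

/-- An idele is the product of its `S`-part and its part outside `S`. -/
theorem trunc_mul_trunc_compl (x : J L) : trunc L S x * trunc L Sᶜ x = x := by
  apply J.ext'
  intro q
  show (trunc L S x : ∀ q : Nat.Primes, (Loc L q)ˣ) q
    * (trunc L Sᶜ x : ∀ q : Nat.Primes, (Loc L q)ˣ) q = _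
  by_cases h : q ∈ S
  · rw [trunc_of_mem _ h, trunc_of_notMem _ (fun h' : q ∈ Sᶜ => h' h), mul_one]
  · rw [trunc_of_notMem _ h, trunc_of_mem _ (show q ∈ Sᶜ from h), one_mul]

theorem smul_trunc (σ : L ≃ₐ[ℚ] L) (x : J L) : σ • trunc L S x = trunc L S (σ • x) := by
  apply J.ext'
  intro q
  by_cases h : q ∈ S
  · rw [trunc_of_mem _ h, smul_val_apply, smul_val_apply, trunc_of_mem _ h]
  · rw [trunc_of_notMem _ h, smul_val_apply, trunc_of_notMem _ h, map_one]

end Trunc

/-! ### `S`-ideles and unit ideles outside `S` -/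

section JSUS

variable (L : Type*) [Field L] [Algebra ℚ L] (S : Set Nat.Primes)

/-- The ideles supported in `S`: all components outside `S` are `1`. -/
def JS : Subgroup (J L) where
  carrier := {x | ∀ q, q ∉ S → (x : ∀ q : Nat.Primes, (Loc L q)ˣ) q = 1}
  mul_mem' := by
    intro x y hx hy q hq
    show (x : ∀ q : Nat.Primes, (Loc L q)ˣ) q * (y : ∀ q : Nat.Primes, (Loc L q)ˣ) q = 1
    rw [hx q hq, hy q hq, mul_one]
  one_mem' := fun _ _ => rfl
  inv_mem' := by
    intro x hx q hq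
    show ((x : ∀ q : Nat.Primes, (Loc L q)ˣ) q)⁻¹ = 1
    rw [hx q hq, inv_one]

/-- The unit ideles outside `S`: trivial at `S`, integral units elsewhere. -/
def US : Subgroup (J L) where
  carrier := {x | (∀ q, q ∈ S → (x : ∀ q : Nat.Primes, (Loc L q)ˣ) q = 1) ∧
    ∀ q, q ∉ S → (x : ∀ q : Nat.Primes, (Loc L q)ˣ) q ∈ intUnits L q}
  mul_mem' := by
    intro x y hx hy
    refine ⟨fun q hq => ?_, fun q hq => ?_⟩
    · show (x : ∀ q : Nat.Primes, (Loc L q)ˣ) q * (y : ∀ q : Nat.Primes, (Loc L q)ˣ) q = 1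
      rw [hx.1 q hq, hy.1 q hq, mul_one]
    · exact (intUnits L q).mul_mem (hx.2 q hq) (hy.2 q hq)
  one_mem' := ⟨fun _ _ => rfl, fun q _ => (intUnits L q).one_mem⟩
  inv_mem' := by
    intro x hx
    refine ⟨fun q hq => ?_, fun q hq => ?_⟩
    · show ((x : ∀ q : Nat.Primes, (Loc L q)ˣ) q)⁻¹ = 1
      rw [hx.1 q hq, inv_one]
    · exact (intUnits L q).inv_mem (hx.2 q hq)

variable {L S}

theorem mem_JS {x : J L} :
    x ∈ JS L S ↔ ∀ q, q ∉ S → (x : ∀ q : Nat.Primes, (Loc L q)ˣ) q = 1 := Iff.rfl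

theorem mem_US {x : J L} :
    x ∈ US L S ↔ (∀ q, q ∈ S → (x : ∀ q : Nat.Primes, (Loc L q)ˣ) q = 1) ∧
      ∀ q, q ∉ S → (x : ∀ q : Nat.Primes, (Loc L q)ˣ) q ∈ intUnits L q := Iff.rfl

theorem trunc_mem_JS (x : J L) : trunc L S x ∈ JS L S := fun _ hq => trunc_of_notMem x hq

theorem trunc_eq_self_iff {x : J L} : trunc L S x = x ↔ x ∈ JS L S := by
  constructor
  · intro h
    rw [← h]
    exact trunc_mem_JS x
  · intro hx
    apply J.ext'
    intro q
    by_cases h : q ∈ S
    · exact trunc_of_mem x h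
    · rw [trunc_of_notMem x h, hx q h]

theorem trunc_eq_one_of_mem_US {x : J L} (hx : x ∈ US L S) : trunc L S x = 1 := by
  apply J.ext'
  intro q
  by_cases h : q ∈ S
  · rw [trunc_of_mem x h, hx.1 q h]
    rfl
  · rw [trunc_of_notMem x h]
    rfl

theorem range_trunc : (trunc L S).range = JS L S := by
  ext x
  constructor
  · rintro ⟨y, rfl⟩
    exact trunc_mem_JS y
  · intro hx
    exact ⟨x, trunc_eq_self_iff.mpr hx⟩

theorem JS_le_JTsub : JS L S ≤ JTsub L S := by
  intro x hx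
  refine (mem_JTsub L).mpr (fun q hq => ?_)
  rw [hx q hq]
  exact (intUnits L q).one_mem

theorem US_le_JTsub : US L S ≤ JTsub L S := fun _ hx => (mem_JTsub L).mpr (fun q hq => hx.2 q hq)

theorem trunc_compl_mem_US_iff {x : J L} : trunc L Sᶜ x ∈ US L S ↔ x ∈ JTsub L S := by
  constructor
  · intro h q hq
    have := h.2 q hq
    rwa [trunc_of_mem x (show q ∈ Sᶜ from hq)] at this
  · intro h
    refine ⟨fun q hq => trunc_of_notMem x (fun h' : q ∈ Sᶜ => h' hq), fun q hq => ?_⟩
    rw [trunc_of_mem x (show q ∈ Sᶜ from hq)]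
    exact h q hq

theorem JS_inf_US : JS L S ⊓ US L S = ⊥ := by
  rw [eq_bot_iff]
  rintro x ⟨h1, h2⟩
  rw [Subgroup.mem_bot]
  apply J.ext'
  intro q
  by_cases h : q ∈ S
  · exact h2.1 q h
  · exact h1 q h

theorem JS_sup_US : JS L S ⊔ US L S = JTsub L S := by
  apply le_antisymm (sup_le JS_le_JTsub US_le_JTsub)
  intro x hx
  rw [← trunc_mul_trunc_compl (S := S) x]
  exact Subgroup.mul_mem_sup (trunc_mem_JS x) (trunc_compl_mem_US_iff.mpr hx)

theorem smul_mem_JS_iff (σ : L ≃ₐ[ℚ] L) (x : J L) : σ • x ∈ JS L S ↔ x ∈ JS L S := by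
  rw [← trunc_eq_self_iff, ← trunc_eq_self_iff, ← smul_trunc]
  constructor
  · intro h
    have := congrArg (fun y => σ⁻¹ • y) h
    simpa only [inv_smul_smul] using this
  · intro h
    rw [h]

theorem smul_mem_US (σ : L ≃ₐ[ℚ] L) {x : J L} (hx : x ∈ US L S) : σ • x ∈ US L S := by
  refine ⟨fun q hq => ?_, fun q hq => ?_⟩
  · rw [smul_val_apply, hx.1 q hq, map_one]
  · rw [smul_val_apply, autUnits_mem_intUnits_iff]
    exact hx.2 q hq

theorem smul_mem_US_iff (σ : L ≃ₐ[ℚ] L) (x : J L) : σ • x ∈ US L S ↔ x ∈ US L S := by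
  constructor
  · intro h
    have := smul_mem_US σ⁻¹ h
    rwa [inv_smul_smul] at this
  · exact smul_mem_US σ

end JSUS

/-! ### `S`-ideles as a finite product -/

section JSprod

variable (L : Type*) [Field L] [Algebra ℚ L] (S : Set Nat.Primes)

open Classical in
/-- For a finite set `S`, `J_S(L) = ∏_{q ∈ S} (L ⊗ ℚ_q)ˣ`. -/
def JSprod (hS : S.Finite) : JS L S ≃* (∀ q : S, (Loc L q)ˣ) where
  toFun x q := (x.1 : ∀ q : Nat.Primes, (Loc L q)ˣ) q.1
  invFun y := ⟨⟨(fun q => if h : q ∈ S then y ⟨q, h⟩ else 1 : ∀ q : Nat.Primes, (Loc L q)ˣ), by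
      refine hS.subset ?_
      intro q hq
      by_contra h
      apply hq
      simp only [dif_neg h]
      exact (intUnits L q).one_mem⟩, by
    intro q hq
    show (if h : q ∈ S then y ⟨q, h⟩ else (1 : (Loc L q)ˣ)) = 1
    simp only [dif_neg hq]⟩
  left_inv x := by
    apply Subtype.ext
    apply J.ext'
    intro q
    show (if h : q ∈ S then (x.1 : ∀ q : Nat.Primes, (Loc L q)ˣ) q else (1 : (Loc L q)ˣ)) = _
    by_cases h : q ∈ S
    · simp only [dif_pos h]
    · simp only [dif_neg h]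
      exact (x.2 q h).symm
  right_inv y := by
    funext q
    show (if h : q.1 ∈ S then y ⟨q.1, h⟩ else (1 : (Loc L q.1)ˣ)) = y q
    simp only [dif_pos q.2]
  map_mul' x y := rfl

theorem JSprod_apply (hS : S.Finite) (x : JS L S) (q : S) :
    JSprod L S hS x q = (x.1 : ∀ q : Nat.Primes, (Loc L q)ˣ) q.1 := rfl

end JSprod

/-! ### `S`-idele classes -/

section CS

variable (L : Type*) [Field L] [Algebra ℚ L] [Algebra.IsAlgebraic ℚ L] (S : Set Nat.Primes)

/-- The `S`-idele class group `J L ⧸ (Lˣ · U^S)`. -/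
abbrev CS : Type _ := J L ⧸ ((diag L).range ⊔ US L S)

/-- The projection `J L → CS L S`. -/
def toCS : J L →* CS L S := QuotientGroup.mk' _

theorem toCS_surjective : Function.Surjective (toCS L S) := QuotientGroup.mk'_surjective _

variable {L S}

theorem toCS_eq_one_iff {x : J L} :
    toCS L S x = 1 ↔ ∃ a : Lˣ, ∃ u ∈ US L S, x = diag L a * u := by
  unfold toCS
  rw [QuotientGroup.mk'_apply, QuotientGroup.eq_one_iff, Subgroup.mem_sup]
  constructor
  · rintro ⟨_, ⟨a, rfl⟩, u, hu, rfl⟩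
    exact ⟨a, u, hu, rfl⟩
  · rintro ⟨a, u, hu, rfl⟩
    exact ⟨_, ⟨a, rfl⟩, u, hu, rfl⟩

theorem toCS_diag (a : Lˣ) : toCS L S (diag L a) = 1 :=
  toCS_eq_one_iff.mpr ⟨a, 1, (US L S).one_mem, (mul_one _).symm⟩

theorem toCS_of_mem_US {u : J L} (hu : u ∈ US L S) : toCS L S u = 1 :=
  toCS_eq_one_iff.mpr ⟨1, u, hu, by rw [map_one, one_mul]⟩

theorem smul_mem_sup (σ : L ≃ₐ[ℚ] L) {x : J L} (hx : x ∈ (diag L).range ⊔ US L S) :
    σ • x ∈ (diag L).range ⊔ US L S := by
  obtain ⟨y, hy, u, hu, rfl⟩ := Subgroup.mem_sup.mp hx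
  rw [smul_mul']
  exact Subgroup.mul_mem_sup (smul_mem_range_diag σ hy) (smul_mem_US σ hu)

/-- The action of one automorphism on `S`-idele classes. -/
def CS.act (σ : L ≃ₐ[ℚ] L) : CS L S →* CS L S :=
  QuotientGroup.map _ _ (MulDistribMulAction.toMonoidHom (J L) σ) (fun _ hx => smul_mem_sup σ hx)

theorem CS.act_toCS (σ : L ≃ₐ[ℚ] L) (x : J L) : CS.act σ (toCS L S x) = toCS L S (σ • x) := rfl

variable (L S)

/-- The action of `Aut(L/ℚ)` on the `S`-idele class group. -/
instance instMulDistribMulActionCS : MulDistribMulAction (L ≃ₐ[ℚ] L) (CS L S) where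
  smul σ c := CS.act σ c
  one_smul c := by
    obtain ⟨x, rfl⟩ := toCS_surjective L S c
    show CS.act 1 (toCS L S x) = toCS L S x
    rw [CS.act_toCS, one_smul]
  mul_smul σ τ c := by
    obtain ⟨x, rfl⟩ := toCS_surjective L S c
    show CS.act (σ * τ) (toCS L S x) = CS.act σ (CS.act τ (toCS L S x))
    rw [CS.act_toCS, CS.act_toCS, CS.act_toCS, mul_smul]
  smul_mul σ c d := map_mul (CS.act σ) c d
  smul_one σ := map_one (CS.act σ)

variable {L S}

theorem smul_toCS (σ : L ≃ₐ[ℚ] L) (x : J L) : σ • toCS L S x = toCS L S (σ • x) := rfl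

variable (L S)

/-- `C L → CS L S`. -/
def C.toCS : C L →* CS L S :=
  QuotientGroup.map _ _ (MonoidHom.id (J L)) (fun _ hx => Subgroup.mem_sup_left hx)

theorem C.toCS_toC (x : J L) : C.toCS L S (toC L x) = Idele.toCS L S x := rfl

theorem C.toCS_surjective : Function.Surjective (C.toCS L S) := by
  intro c
  obtain ⟨x, rfl⟩ := Idele.toCS_surjective L S c
  exact ⟨toC L x, rfl⟩

/-- The `S`-units inside the `S`-ideles. -/
def diagS : TUnits L S →* JS L S where
  toFun a := ⟨trunc L S (diag L a.1), trunc_mem_JS _⟩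
  map_one' := by
    apply Subtype.ext
    show trunc L S (diag L ((1 : TUnits L S) : Lˣ)) = 1
    rw [OneMemClass.coe_one, map_one, map_one]
  map_mul' a b := by
    apply Subtype.ext
    show trunc L S (diag L ((a * b : TUnits L S) : Lˣ)) = _
    rw [Subgroup.coe_mul, map_mul, map_mul]
    rfl

theorem diagS_val (a : TUnits L S) : (diagS L S a : J L) = trunc L S (diag L a.1) := rfl

theorem diagS_apply (a : TUnits L S) {q : Nat.Primes} (hq : q ∈ S) :
    (((diagS L S a : J L) : ∀ q : Nat.Primes, (Loc L q)ˣ) q : Loc L q) = inclL L q (a.1 : L) := by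
  rw [diagS_val, trunc_of_mem _ hq]
  rfl

theorem diagS_injective (hS : S.Nonempty) : Function.Injective (diagS L S) := by
  obtain ⟨q, hq⟩ := hS
  intro a b hab
  apply Subtype.ext
  apply Units.ext
  apply (inclL L q).injective
  rw [← diagS_apply L S a hq, ← diagS_apply L S b hq, hab]

variable {L S}

/-- The principal idele of an `S`-unit is its `S`-part times a unit idele outside `S`. -/
theorem trunc_compl_diag_mem_US {a : Lˣ} (ha : a ∈ TUnits L S) :
    trunc L Sᶜ (diag L a) ∈ US L S :=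
  trunc_compl_mem_US_iff.mpr ha

theorem toCS_diagS (a : TUnits L S) : toCS L S (diagS L S a : J L) = 1 := by
  have h := trunc_mul_trunc_compl (S := S) (diag L a.1)
  have h2 : (diagS L S a : J L) = diag L a.1 * (trunc L Sᶜ (diag L a.1))⁻¹ := by
    rw [diagS_val, eq_mul_inv_iff_mul_eq, h]
  rw [h2, map_mul, toCS_diag, one_mul]
  exact toCS_of_mem_US ((US L S).inv_mem (trunc_compl_diag_mem_US a.2))

/-- Exactness at `JS L S`: an `S`-idele has trivial class in `CS L S` iff it comes from an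
`S`-unit. -/
theorem toCS_eq_one_iff_of_mem_JS {x : J L} (hx : x ∈ JS L S) :
    toCS L S x = 1 ↔ ∃ a : TUnits L S, (diagS L S a : J L) = x := by
  constructor
  · intro h
    obtain ⟨a, u, hu, rfl⟩ := toCS_eq_one_iff.mp h
    have ha : a ∈ TUnits L S := by
      refine (mem_JTsub L).mpr (fun q hq => ?_)
      have h1 := hx q hq
      have h2 : (diag L a : ∀ q : Nat.Primes, (Loc L q)ˣ) q
          * (u : ∀ q : Nat.Primes, (Loc L q)ˣ) q = 1 := h1
      rw [mul_eq_one_iff_eq_inv.mp h2]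
      exact (intUnits L q).inv_mem (hu.2 q hq)
    refine ⟨⟨a, ha⟩, ?_⟩
    rw [diagS_val]
    have h3 : trunc L S (diag L a * u) = diag L a * u := trunc_eq_self_iff.mpr hx
    rw [map_mul, trunc_eq_one_of_mem_US hu, mul_one] at h3
    exact h3
  · rintro ⟨a, rfl⟩
    exact toCS_diagS a

end CS

/-! ### The `S`-class group -/

section ClS

variable (L : Type*) [Field L] [Algebra ℚ L] [Algebra.IsAlgebraic ℚ L] (S : Set Nat.Primes)

/-- The `S`-ideal class group in idelic form: `J L ⧸ (Lˣ · J_{L,S})`. -/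
abbrev ClS : Type _ := J L ⧸ ((diag L).range ⊔ JTsub L S)

/-- The projection `J L → ClS L S`. -/
def toClS : J L →* ClS L S := QuotientGroup.mk' _

theorem toClS_surjective : Function.Surjective (toClS L S) := QuotientGroup.mk'_surjective _

variable {L S}

theorem toClS_eq_one_iff {x : J L} :
    toClS L S x = 1 ↔ ∃ a : Lˣ, ∃ y ∈ JTsub L S, x = diag L a * y := by
  unfold toClS
  rw [QuotientGroup.mk'_apply, QuotientGroup.eq_one_iff, Subgroup.mem_sup]
  constructor
  · rintro ⟨_, ⟨a, rfl⟩, u, hu, rfl⟩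
    exact ⟨a, u, hu, rfl⟩
  · rintro ⟨a, u, hu, rfl⟩
    exact ⟨_, ⟨a, rfl⟩, u, hu, rfl⟩

variable (L S)

/-- `CS L S → ClS L S`. -/
def CS.toClS : CS L S →* ClS L S :=
  QuotientGroup.map _ _ (MonoidHom.id (J L))
    (fun _ hx => (sup_le_sup_left (US_le_JTsub (L := L) (S := S)) _) hx)

theorem CS.toClS_toCS (x : J L) : CS.toClS L S (toCS L S x) = Idele.toClS L S x := rfl

theorem CS.toClS_surjective : Function.Surjective (CS.toClS L S) := by
  intro c
  obtain ⟨x, rfl⟩ := Idele.toClS_surjective L S c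
  exact ⟨toCS L S x, rfl⟩

variable {L S}

/-- Exactness at `CS L S`: a class dies in the `S`-class group iff it is the class of an
`S`-idele. -/
theorem CS.toClS_eq_one_iff {c : CS L S} :
    CS.toClS L S c = 1 ↔ ∃ x ∈ JS L S, toCS L S x = c := by
  obtain ⟨z, rfl⟩ := toCS_surjective L S c
  rw [CS.toClS_toCS]
  constructor
  · intro h
    obtain ⟨a, y, hy, rfl⟩ := Idele.toClS_eq_one_iff.mp h
    refine ⟨trunc L S y, trunc_mem_JS y, ?_⟩
    rw [map_mul, toCS_diag, one_mul]
    conv_rhs => rw [← trunc_mul_trunc_compl (S := S) y]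
    rw [map_mul, toCS_of_mem_US (trunc_compl_mem_US_iff.mpr hy), mul_one]
  · rintro ⟨x, hx, hxz⟩
    have h1 : toCS L S (z / x) = 1 := by rw [map_div, hxz, div_self']
    obtain ⟨a, u, hu, h2⟩ := toCS_eq_one_iff.mp h1
    refine Idele.toClS_eq_one_iff.mpr ⟨a, u * x, ?_, ?_⟩
    · exact (JTsub L S).mul_mem (US_le_JTsub hu) (JS_le_JTsub hx)
    · rw [← mul_assoc, ← h2, div_mul_cancel]

end ClS

/-! ### Functoriality in the field -/

section Functoriality

variable {K L : Type*} [Field K] [Field L] [Algebra ℚ K] [Algebra ℚ L] {S : Set Nat.Primes}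

theorem J.map_apply (f : K →ₐ[ℚ] L) (x : J K) (q : Nat.Primes) :
    (J.map f x : ∀ q : Nat.Primes, (Loc L q)ˣ) q
      = Units.map (Loc.map q f : Loc K q →* Loc L q) ((x : ∀ q : Nat.Primes, (Loc K q)ˣ) q) := rfl

theorem J.map_trunc (f : K →ₐ[ℚ] L) (x : J K) :
    J.map f (trunc K S x) = trunc L S (J.map f x) := by
  apply J.ext'
  intro q
  by_cases h : q ∈ S
  · rw [trunc_of_mem _ h, J.map_apply, J.map_apply, trunc_of_mem _ h]
  · rw [trunc_of_notMem _ h, J.map_apply, trunc_of_notMem _ h, map_one]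

theorem J.map_mem_JS_iff (f : K →ₐ[ℚ] L) (x : J K) : J.map f x ∈ JS L S ↔ x ∈ JS K S := by
  rw [← trunc_eq_self_iff, ← trunc_eq_self_iff, ← J.map_trunc]
  exact (J.map_injective f).eq_iff

theorem J.map_mem_JTsub_iff (f : K →ₐ[ℚ] L) (x : J K) :
    J.map f x ∈ JTsub L S ↔ x ∈ JTsub K S :=
  J.map_mem_JT_iff f S x

theorem J.map_mem_US_iff (f : K →ₐ[ℚ] L) (x : J K) : J.map f x ∈ US L S ↔ x ∈ US K S := by
  constructor
  · intro h
    refine ⟨fun q hq => ?_, fun q hq => ?_⟩
    · have h1 := h.1 q hq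
      rw [J.map_apply] at h1
      apply Units.ext
      apply Loc.map_injective q f
      have h2 := congrArg (fun u : (Loc L q)ˣ => (u : Loc L q)) h1
      simpa using h2
    · have h1 : J.map f x ∈ JTsub L S := US_le_JTsub h
      exact (mem_JTsub K).mp ((J.map_mem_JTsub_iff f x).mp h1) q hq
  · intro h
    refine ⟨fun q hq => ?_, fun q hq => ?_⟩
    · rw [J.map_apply, h.1 q hq, map_one]
    · have h1 : x ∈ JTsub K S := US_le_JTsub h
      exact (mem_JTsub L).mp ((J.map_mem_JTsub_iff f x).mpr h1) q hq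

variable [Algebra.IsAlgebraic ℚ K] [Algebra.IsAlgebraic ℚ L]

theorem J.map_mem_sup (f : K →ₐ[ℚ] L) {x : J K} (hx : x ∈ (diag K).range ⊔ US K S) :
    J.map f x ∈ (diag L).range ⊔ US L S := by
  obtain ⟨_, ⟨a, rfl⟩, u, hu, rfl⟩ := Subgroup.mem_sup.mp hx
  rw [map_mul, J.map_diag]
  exact Subgroup.mul_mem_sup ⟨_, rfl⟩ ((J.map_mem_US_iff f u).mpr hu)

/-- Functoriality of the `S`-idele class group. -/
def CS.map (f : K →ₐ[ℚ] L) : CS K S →* CS L S :=
  QuotientGroup.map _ _ (J.map f) (fun _ hx => J.map_mem_sup f hx)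

theorem CS.map_toCS (f : K →ₐ[ℚ] L) (x : J K) :
    CS.map f (toCS K S x) = toCS L S (J.map f x) := rfl

/-- The units `TUnits` are functorial. -/
theorem map_mem_TUnits_iff (f : K →ₐ[ℚ] L) (a : Kˣ) :
    Units.map (f : K →* L) a ∈ TUnits L S ↔ a ∈ TUnits K S := by
  show diag L (Units.map (f : K →* L) a) ∈ JTsub L S ↔ diag K a ∈ JTsub K S
  rw [← J.map_diag, J.map_mem_JTsub_iff]

end Functoriality

end Fermat.Agent.CFT.Idele
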