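import Mathlib
import Fermat.Agent.CFT.Idele.SIdele
import Fermat.Agent.CFT.Dict.Valuation
import Fermat.Agent.CFT.C3.ClassGen

/-!
# PROJECT C, slice C2 (ideles), part 7: number fields — `J_L = Lˣ · J_{L,T}` and `T`-units

For a number field `L` we connect the tensor model with the ideal theory of `𝓞 L`, consuming
helper5's dictionary (`Dict/Valuation.lean`) and helper1's class group generation lemma
(`C3/ClassGen.lean`).

* `mem_TUnits_iff_valuation` **(I3b)**: `a ∈ TUnits L T` iff `w.valuation L a = 1` for all finite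
  places `w` of `L` not above `T`;  `TUnits_eq` : for a finite `T`, `TUnits L T` is Mathlib's group of
  `S`-units `(aboveQ L T).unit L` (the group used in helper1's `herbrand_TUnits`).
* `exists_finset_sup_eq_top` **(I3a)**: there is a finite `T₀` with `Lˣ · J_{L,T} = J_L` for all
  `T ⊇ T₀`; `toC_comp_subtype_surjective`, `subsingleton_ClS`.
-/

set_option autoImplicit false

open scoped TensorProduct NumberField

noncomputable section

namespace Fermat.Agent.CFT.Idele

open IsDedekindDomain Fermat.Agent.CFT.Dict Fermat.Agent.CFT.C3.ClassGen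

variable {L : Type} [Field L] [NumberField L]

/-! ### Places over a rational prime -/

/-- A finite place of `L` containing `q` as a `PrimeOver q (𝓞 L)`. -/
def primeOverOf (w : HeightOneSpectrum (𝓞 L)) (q : Nat.Primes)
    (h : (((q : ℕ) : 𝓞 L)) ∈ w.asIdeal) : PrimeOver (q : ℕ) (𝓞 L) :=
  ⟨w.asIdeal, w.isMaximal, h⟩

theorem primeOverOf_toHeightOneSpectrum (w : HeightOneSpectrum (𝓞 L)) (q : Nat.Primes)
    (h : (((q : ℕ) : 𝓞 L)) ∈ w.asIdeal) : (primeOverOf w q h).toHeightOneSpectrum = w :=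
  HeightOneSpectrum.ext rfl

theorem PrimeOver.mem_toHeightOneSpectrum {q : Nat.Primes} (v : PrimeOver (q : ℕ) (𝓞 L)) :
    (((q : ℕ) : 𝓞 L)) ∈ v.toHeightOneSpectrum.asIdeal := v.mem

/-- The valuation at a place `w` (with its rational prime) of a family of local units, as an
integer. -/
def ordW (x : ∀ q : Nat.Primes, (Loc L q)ˣ) (w : HeightOneSpectrum (𝓞 L)) : ℤ :=
  Multiplicative.toAdd
    ((primeOverOf w (natPrime L w) (natPrime_mem L w)).ordAt (x (natPrime L w)))

theorem ordW_eq_aux (x : ∀ q : Nat.Primes, (Loc L q)ˣ) (q q' : Nat.Primes) (h : q' = q)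
    (v : PrimeOver (q : ℕ) (𝓞 L)) (v' : PrimeOver (q' : ℕ) (𝓞 L)) (hv : v'.ideal = v.ideal) :
    Multiplicative.toAdd (v'.ordAt (x q')) = Multiplicative.toAdd (v.ordAt (x q)) := by
  subst h
  have : v' = v := by
    cases v; cases v'
    simp only at hv
    subst hv
    rfl
  rw [this]

theorem ordW_toHeightOneSpectrum (x : ∀ q : Nat.Primes, (Loc L q)ˣ) {q : Nat.Primes}
    (v : PrimeOver (q : ℕ) (𝓞 L)) :
    ordW x v.toHeightOneSpectrum = Multiplicative.toAdd (v.ordAt (x q)) :=
  ordW_eq_aux x q (natPrime L v.toHeightOneSpectrum) (mem_iff_eq_natPrime.mp v.mem) v _ rfl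

/-- (D3) in integer form. -/
theorem toAdd_ordAt_diag {q : Nat.Primes} (v : PrimeOver (q : ℕ) (𝓞 L)) (a : Lˣ) :
    Multiplicative.toAdd (v.ordAt ((diag L a : ∀ q : Nat.Primes, (Loc L q)ˣ) q))
      = WithZero.log (v.toHeightOneSpectrum.valuation L (a : L)) := by
  have h := v.coe_ordAt_inclL a
  have h' : (diag L a : ∀ q : Nat.Primes, (Loc L q)ˣ) q
      = Units.map (inclL L q : L →* Loc L q) a := rfl
  rw [h', ← h]
  rfl

theorem ordAt_diag_eq_one_iff {q : Nat.Primes} (v : PrimeOver (q : ℕ) (𝓞 L)) (a : Lˣ) :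
    v.ordAt ((diag L a : ∀ q : Nat.Primes, (Loc L q)ˣ) q) = 1
      ↔ v.toHeightOneSpectrum.valuation L (a : L) = 1 := by
  have h := v.coe_ordAt_inclL a
  have h' : (diag L a : ∀ q : Nat.Primes, (Loc L q)ˣ) q
      = Units.map (inclL L q : L →* Loc L q) a := rfl
  rw [h', ← h, ← WithZero.coe_one, WithZero.coe_inj]

/-! ### (I3b): `T`-units -/

/-- **(I3b)** The `T`-units of the tensor model are the elements of `Lˣ` which are units at all finite
places not above `T`. -/
theorem mem_TUnits_iff_valuation (T : Set Nat.Primes) (a : Lˣ) :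
    a ∈ TUnits L T ↔ ∀ (w : HeightOneSpectrum (𝓞 L)) (q : Nat.Primes),
      (((q : ℕ) : 𝓞 L)) ∈ w.asIdeal → q ∉ T → w.valuation L (a : L) = 1 := by
  have h0 : a ∈ TUnits L T ↔ ∀ q, q ∉ T →
      (diag L a : ∀ q : Nat.Primes, (Loc L q)ˣ) q ∈ intUnits L q := Iff.rfl
  rw [h0]
  constructor
  · intro h w q hq hqT
    have h1 := (mem_intUnits_iff_forall_ordAt _).mp (h q hqT) (primeOverOf w q hq)
    rw [ordAt_diag_eq_one_iff, primeOverOf_toHeightOneSpectrum] at h1
    exact h1
  · intro h q hqT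
    rw [mem_intUnits_iff_forall_ordAt]
    intro v
    rw [ordAt_diag_eq_one_iff]
    exact h v.toHeightOneSpectrum q v.mem hqT

/-- For a finite set `T` of rational primes, the `T`-units of the tensor model are Mathlib's
`S`-units for the set of places above `T` (the group of helper1's `herbrand_TUnits`). -/
theorem TUnits_eq (T : Finset Nat.Primes) :
    TUnits L (T : Set Nat.Primes) = Fermat.Agent.CFT.C3.SUnitRank.TUnits L (aboveQ L T) := by
  ext a
  rw [mem_TUnits_iff_valuation, mem_TUnits_aboveQ_iff']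
  constructor
  · intro h w q hq hqT
    exact h w q hq (fun h' => hqT (Finset.mem_coe.mp h'))
  · intro h w q hq hqT
    exact h w q hq (fun h' => hqT (Finset.mem_coe.mpr h'))

/-! ### (I3a): `J_L = Lˣ · J_{L,T}` -/

theorem ordW_eq_zero_of_mem_intUnits (x : ∀ q : Nat.Primes, (Loc L q)ˣ)
    (w : HeightOneSpectrum (𝓞 L)) (h : x (natPrime L w) ∈ intUnits L (natPrime L w)) :
    ordW x w = 0 := by
  unfold ordW
  rw [(mem_intUnits_iff_forall_ordAt _).mp h]
  rfl

theorem finite_support_ordW (x : J L) :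
    (Function.support (ordW (x : ∀ q : Nat.Primes, (Loc L q)ˣ))).Finite := by
  have hx : {q : Nat.Primes | (x : ∀ q : Nat.Primes, (Loc L q)ˣ) q ∉ intUnits L q}.Finite := x.2
  refine (finite_setOf_natPrime_mem L hx.toFinset).subset ?_
  intro w hw
  rw [Function.mem_support] at hw
  show natPrime L w ∈ hx.toFinset
  rw [Set.Finite.mem_toFinset]
  intro h
  exact hw (ordW_eq_zero_of_mem_intUnits _ w h)

/-- **(I3a)**, element form: every idele is a principal idele times an idele in `J_{L,T}`, as soon as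
`T` contains a fixed finite set `T₀` of primes (depending only on `L`). -/
theorem exists_finset_forall_exists_diag_mul :
    ∃ T₀ : Finset Nat.Primes, ∀ T : Set Nat.Primes, (T₀ : Set Nat.Primes) ⊆ T →
      ∀ x : J L, ∃ a : Lˣ, ∃ y ∈ JTsub L T, x = diag L a * y := by
  obtain ⟨T₀, hT₀⟩ := exists_finset_forall_exists_log_valuation_eq' L
  refine ⟨T₀, fun T hT x => ?_⟩
  obtain ⟨a, ha⟩ := hT₀ T₀ (Finset.Subset.refl _)
    (Finsupp.ofSupportFinite _ (finite_support_ordW x))
  refine ⟨a, x / diag L a, ?_, by rw [mul_div_cancel]⟩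
  refine JTsub_mono L hT ((mem_JTsub L).mpr fun q hq => ?_)
  rw [mem_intUnits_iff_forall_ordAt]
  intro v
  have h1 : ((x / diag L a : J L) : ∀ q : Nat.Primes, (Loc L q)ˣ) q
      = (x : ∀ q : Nat.Primes, (Loc L q)ˣ) q / (diag L a : ∀ q : Nat.Primes, (Loc L q)ˣ) q := rfl
  rw [h1, map_div, div_eq_one]
  apply Multiplicative.toAdd.injective
  rw [toAdd_ordAt_diag, ha v.toHeightOneSpectrum q v.mem (fun h => hq (Finset.mem_coe.mpr h)),
    Finsupp.ofSupportFinite_coe, ordW_toHeightOneSpectrum]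

/-- **(I3a)** `J_L = Lˣ · J_{L,T}` for all `T` containing a fixed finite set of primes. -/
theorem exists_finset_sup_eq_top :
    ∃ T₀ : Finset Nat.Primes, ∀ T : Set Nat.Primes, (T₀ : Set Nat.Primes) ⊆ T →
      (diag L).range ⊔ JTsub L T = ⊤ := by
  obtain ⟨T₀, hT₀⟩ := exists_finset_forall_exists_diag_mul (L := L)
  refine ⟨T₀, fun T hT => ?_⟩
  rw [eq_top_iff]
  intro x _
  obtain ⟨a, y, hy, rfl⟩ := hT₀ T hT x
  exact Subgroup.mul_mem_sup ⟨a, rfl⟩ hy

/-- For `T ⊇ T₀` the `T`-ideles surject onto the idele class group. -/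
theorem exists_finset_toC_surjective :
    ∃ T₀ : Finset Nat.Primes, ∀ T : Set Nat.Primes, (T₀ : Set Nat.Primes) ⊆ T →
      Function.Surjective ((toC L).comp (JTsub L T).subtype) := by
  obtain ⟨T₀, hT₀⟩ := exists_finset_forall_exists_diag_mul (L := L)
  refine ⟨T₀, fun T hT c => ?_⟩
  obtain ⟨x, rfl⟩ := toC_surjective L c
  obtain ⟨a, y, hy, rfl⟩ := hT₀ T hT x
  refine ⟨⟨y, hy⟩, ?_⟩
  rw [map_mul, toC_diag, one_mul]
  rfl

/-- For `T ⊇ T₀` the idelic `T`-class group is trivial. -/
theorem exists_finset_subsingleton_ClS :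
    ∃ T₀ : Finset Nat.Primes, ∀ T : Set Nat.Primes, (T₀ : Set Nat.Primes) ⊆ T →
      Subsingleton (ClS L T) := by
  obtain ⟨T₀, hT₀⟩ := exists_finset_sup_eq_top (L := L)
  refine ⟨T₀, fun T hT => ?_⟩
  show Subsingleton (J L ⧸ ((diag L).range ⊔ JTsub L T))
  rw [hT₀ T hT]
  exact QuotientGroup.subsingleton_quotient_top

end Fermat.Agent.CFT.Idele
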