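import Mathlib
import Fermat.Agent.CFT.Idele.SIdele
import Fermat.Agent.CFT.Idele.ClassDescent

/-!
# PROJECT C, slice C2 (ideles), part 8: the modules `U^S`, `J_S`, `C_S` in `Rep`, Galois descent

* `subgroupAction H hH` : the restriction of a `MulDistribMulAction` to a stable subgroup; instances
  for `US L S`, `JS L S`, `JTsub L S`, `TUnits L S`.
* `usSC L S hS` : `0 → U^S → C_L → C_S(L) → 0`, short exact in `Rep ℤ (L ≃ₐ[ℚ] L)` (`S ≠ ∅`).
* `sunitSC L S` : `E_S(L) → J_S(L) → C_S(L)`, exact with injective first map (`S ≠ ∅`); short exact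
  when the idelic `S`-class group is trivial.
* `CS.map_inclHom_injective`, `CS.mem_range_map_inclHom` : for `L/K` finite Galois and `S ≠ ∅`,
  `C_S(K) → C_S(L)` is injective, and `C_S(L)^{Gal(L/K)} = C_S(K)` provided
  `H¹(Gal(L/K), U^S(L)) = 0` (true when `L/K` is unramified outside `S`).
-/

set_option autoImplicit false

open scoped TensorProduct

noncomputable section

namespace Fermat.Agent.CFT.Idele

open groupCohomology CategoryTheory

/-! ### Restriction of an action to a stable subgroup -/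

section SubgroupAction

variable {G A : Type*} [Group G] [CommGroup A] [MulDistribMulAction G A]

/-- The restriction of a `MulDistribMulAction` to a stable subgroup. -/
@[reducible] def subgroupAction (H : Subgroup A) (hH : ∀ (g : G) (a : A), a ∈ H → g • a ∈ H) :
    MulDistribMulAction G H where
  smul g a := ⟨g • a.1, hH g a.1 a.2⟩
  one_smul a := Subtype.ext (one_smul G a.1)
  mul_smul g h a := Subtype.ext (mul_smul g h a.1)
  smul_mul g a b := Subtype.ext (smul_mul' g a.1 b.1)
  smul_one g := Subtype.ext (smul_one g)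

end SubgroupAction

section Instances

variable (L : Type*) [Field L] [Algebra ℚ L] (S : Set Nat.Primes)

instance instMulDistribMulActionUS : MulDistribMulAction (L ≃ₐ[ℚ] L) (US L S) :=
  subgroupAction (US L S) (fun σ _ h => smul_mem_US σ h)

instance instMulDistribMulActionJS : MulDistribMulAction (L ≃ₐ[ℚ] L) (JS L S) :=
  subgroupAction (JS L S) (fun σ x h => (smul_mem_JS_iff σ x).mpr h)

instance instMulDistribMulActionJTsub : MulDistribMulAction (L ≃ₐ[ℚ] L) (JTsub L S) :=
  subgroupAction (JTsub L S) (fun σ x h => (smul_mem_JTsub_iff σ S x).mpr h)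

variable {L S}

theorem US.coe_smul (σ : L ≃ₐ[ℚ] L) (u : US L S) : ((σ • u : US L S) : J L) = σ • (u : J L) := rfl

theorem JS.coe_smul (σ : L ≃ₐ[ℚ] L) (x : JS L S) : ((σ • x : JS L S) : J L) = σ • (x : J L) := rfl

theorem JTsub.coe_smul (σ : L ≃ₐ[ℚ] L) (x : JTsub L S) :
    ((σ • x : JTsub L S) : J L) = σ • (x : J L) := rfl

variable [Algebra.IsAlgebraic ℚ L]

theorem smul_mem_TUnits (σ : L ≃ₐ[ℚ] L) {a : Lˣ} (ha : a ∈ TUnits L S) : σ • a ∈ TUnits L S := by
  show diag L (σ • a) ∈ JTsub L S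
  have h : diag L (σ • a) = σ • diag L a := (smul_diag σ a).symm
  rw [h]
  exact (smul_mem_JTsub_iff σ S _).mpr ha

variable (L S)

instance instMulDistribMulActionTUnits : MulDistribMulAction (L ≃ₐ[ℚ] L) (TUnits L S) :=
  subgroupAction (TUnits L S) (fun σ _ h => smul_mem_TUnits σ h)

variable {L S}

theorem TUnits.coe_smul (σ : L ≃ₐ[ℚ] L) (a : TUnits L S) :
    ((σ • a : TUnits L S) : Lˣ) = σ • (a : Lˣ) := rfl

theorem diagS_smul (σ : L ≃ₐ[ℚ] L) (a : TUnits L S) : diagS L S (σ • a) = σ • diagS L S a := by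
  apply Subtype.ext
  show trunc L S (diag L (σ • (a : Lˣ))) = σ • trunc L S (diag L (a : Lˣ))
  have h : diag L (σ • (a : Lˣ)) = σ • diag L (a : Lˣ) := (smul_diag σ a.1).symm
  rw [h, smul_trunc]

end Instances

/-! ### `Lˣ ∩ U^S = 1` and the uniqueness of the decomposition in `Lˣ · U^S` -/

section Unique

variable {L : Type*} [Field L] [Algebra ℚ L] [Algebra.IsAlgebraic ℚ L] {S : Set Nat.Primes}

theorem eq_one_of_diag_mem_US (hS : S.Nonempty) {a : Lˣ} (ha : diag L a ∈ US L S) : a = 1 := by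
  obtain ⟨q, hq⟩ := hS
  apply Units.ext
  apply (inclL L q).injective
  have h : inclL L q (a : L) = ((1 : (Loc L q)ˣ) : Loc L q) :=
    congrArg (fun u : (Loc L q)ˣ => (u : Loc L q)) (ha.1 q hq)
  rw [Units.val_one] at h
  rw [Units.val_one, map_one]
  exact h

/-- The decomposition of an element of `Lˣ · U^S` is unique (`S ≠ ∅`). -/
theorem diag_mul_unique (hS : S.Nonempty) {a a' : Lˣ} {u u' : J L} (hu : u ∈ US L S)
    (hu' : u' ∈ US L S) (h : diag L a * u = diag L a' * u') : a = a' ∧ u = u' := by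
  have h1 : diag L (a / a') = u' / u := by
    rw [map_div, div_eq_div_iff_mul_eq_mul, h, mul_comm]
  have h2 : a / a' = 1 :=
    eq_one_of_diag_mem_US hS (h1 ▸ (US L S).div_mem hu' hu)
  have h3 : a = a' := div_eq_one.mp h2
  refine ⟨h3, ?_⟩
  rw [h3] at h
  exact mul_left_cancel h

end Unique

/-! ### The sequence `0 → U^S → C_L → C_S(L) → 0` -/

section USSeq

variable (L : Type*) [Field L] [Algebra ℚ L] [Algebra.IsAlgebraic ℚ L] (S : Set Nat.Primes)

/-- `U^S → C_L`. -/
def US.toC : US L S →* C L := (Idele.toC L).comp (US L S).subtype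

theorem US.toC_apply (u : US L S) : US.toC L S u = Idele.toC L (u : J L) := rfl

variable {L S}

theorem US.toC_injective (hS : S.Nonempty) : Function.Injective (US.toC L S) := by
  rw [injective_iff_map_eq_one]
  intro u hu
  obtain ⟨a, ha⟩ := (toC_eq_one_iff L _).mp (hu : Idele.toC L (u : J L) = 1)
  have h1 : a = 1 := eq_one_of_diag_mem_US hS (ha ▸ u.2)
  apply Subtype.ext
  have ha' : (u : J L) = diag L a := ha.symm
  rw [ha', h1, map_one]
  rfl

theorem US.toC_smul (σ : L ≃ₐ[ℚ] L) (u : US L S) : US.toC L S (σ • u) = σ • US.toC L S u := rfl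

theorem C.toCS_smul (σ : L ≃ₐ[ℚ] L) (c : C L) : C.toCS L S (σ • c) = σ • C.toCS L S c := by
  obtain ⟨x, rfl⟩ := toC_surjective L c
  rfl

theorem C.toCS_US_toC (u : US L S) : C.toCS L S (US.toC L S u) = 1 :=
  toCS_of_mem_US u.2

/-- Exactness at `C_L`. -/
theorem C.toCS_eq_one_iff (c : C L) : C.toCS L S c = 1 ↔ ∃ u : US L S, US.toC L S u = c := by
  obtain ⟨x, rfl⟩ := toC_surjective L c
  rw [C.toCS_toC]
  constructor
  · intro h
    obtain ⟨a, u, hu, rfl⟩ := Idele.toCS_eq_one_iff.mp h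
    refine ⟨⟨u, hu⟩, ?_⟩
    rw [US.toC_apply, map_mul, toC_diag, one_mul]
  · rintro ⟨u, hu⟩
    have h1 : Idele.toCS L S x = C.toCS L S (toC L x) := rfl
    rw [h1, ← hu]
    exact C.toCS_US_toC u

end USSeq

/-! ### Galois descent for `S`-idele classes -/

section Descent

variable (K L : Type*) [Field K] [Field L] [Algebra ℚ K] [Algebra ℚ L] [Algebra K L]
  [IsScalarTower ℚ K L] [Algebra.IsAlgebraic ℚ K] [Algebra.IsAlgebraic ℚ L] (S : Set Nat.Primes)

variable {S}

/-- For `L/K` Galois and `S ≠ ∅`, `C_S(K) → C_S(L)` is injective. -/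
theorem CS.map_inclHom_injective [IsGalois K L] (hS : S.Nonempty) :
    Function.Injective (CS.map (S := S) (inclHom K L)) := by
  rw [injective_iff_map_eq_one]
  intro c hc
  obtain ⟨x, rfl⟩ := toCS_surjective K S c
  rw [CS.map_toCS] at hc
  obtain ⟨b, u, hu, hbu⟩ := toCS_eq_one_iff.mp hc
  -- both `b` and `u` are invariant
  have hinv : ∀ σ : L ≃ₐ[K] L, (galHom K L σ • b = b) ∧ galHom K L σ • u = u := by
    intro σ
    have h1 : galHom K L σ • J.map (inclHom K L) x = J.map (inclHom K L) x :=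
      J.smul_map_of_fixes (inclHom K L) _ (galHom_inclHom K L σ) x
    rw [hbu, smul_mul', smul_diag] at h1
    exact diag_mul_unique hS (smul_mem_US _ hu) hu h1
  obtain ⟨u', hu'⟩ := J.mem_range_map_inclHom K L u (fun σ => (hinv σ).2)
  have hb : (b : L) ∈ (inclHom K L).range :=
    mem_range_inclHom_of_fixed K L (b : L) (by
      rintro _ ⟨σ, rfl⟩
      exact congrArg (fun v : Lˣ => (v : L)) (hinv σ).1)
  obtain ⟨b', hb'⟩ := (AlgHom.mem_range (inclHom K L)).mp hb
  have hb0 : b' ≠ 0 := by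
    rintro rfl
    rw [map_zero] at hb'
    exact b.ne_zero hb'.symm
  have hx : x = diag K (Units.mk0 b' hb0) * u' := by
    apply J.map_injective (inclHom K L)
    rw [map_mul, J.map_diag, hu', hbu]
    congr 2
    apply Units.ext
    exact hb'.symm
  rw [hx]
  refine toCS_eq_one_iff.mpr ⟨_, u', ?_, rfl⟩
  rw [← J.map_mem_US_iff (inclHom K L), hu']
  exact hu

/-- **Galois descent for `S`-idele classes**: for a finite Galois extension `L/K` such that
`H¹(Gal(L/K), U^S(L)) = 0` (e.g. `L/K` unramified outside `S`) and `S ≠ ∅`,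
`C_S(L)^{Gal(L/K)} = C_S(K)`. -/
theorem CS.mem_range_map_inclHom [FiniteDimensional K L] [IsGalois K L] (hS : S.Nonempty)
    (hU : ∀ u : (L ≃ₐ[K] L) → J L, (∀ σ, u σ ∈ US L S) →
      (∀ σ τ, u (σ * τ) = galHom K L σ • u τ * u σ) →
      ∃ v ∈ US L S, ∀ σ, u σ = galHom K L σ • v / v)
    (x : CS L S) (hx : ∀ σ : L ≃ₐ[K] L, galHom K L σ • x = x) :
    x ∈ (CS.map (S := S) (inclHom K L)).range := by
  obtain ⟨y, rfl⟩ := toCS_surjective L S x
  have hex : ∀ σ : L ≃ₐ[K] L, ∃ a : Lˣ, ∃ u ∈ US L S,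
      galHom K L σ • y / y = diag L a * u := by
    intro σ
    have h := hx σ
    rw [smul_toCS] at h
    have h1 : toCS L S (galHom K L σ • y / y) = 1 := by
      rw [map_div, h, div_self']
    exact toCS_eq_one_iff.mp h1
  choose a u hu hau using hex
  -- the cocycle identity for `σ ↦ σ y / y`
  have hmul : ∀ σ τ : L ≃ₐ[K] L, galHom K L (σ * τ) • y / y
      = galHom K L σ • (galHom K L τ • y / y) * (galHom K L σ • y / y) := by
    intro σ τ
    rw [map_mul, mul_smul, smul_div', div_mul_div_cancel]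
  have hsplit : ∀ σ τ : L ≃ₐ[K] L,
      a (σ * τ) = σ • a τ * a σ ∧ u (σ * τ) = galHom K L σ • u τ * u σ := by
    intro σ τ
    have h1 := hmul σ τ
    rw [hau, hau, hau, smul_mul', smul_diag] at h1
    have h2 : diag L (Units.map ((galHom K L σ : L ≃ₐ[ℚ] L) : L →* L) (a τ))
        * galHom K L σ • u τ * (diag L (a σ) * u σ)
        = diag L (σ • a τ * a σ) * (galHom K L σ • u τ * u σ) := by
      rw [map_mul]
      have : diag L (σ • a τ) = diag L (Units.map ((galHom K L σ : L ≃ₐ[ℚ] L) : L →* L) (a τ)) :=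
        rfl
      rw [this]
      exact mul_mul_mul_comm _ _ _ _
    rw [h2] at h1
    exact diag_mul_unique hS (hu _) ((US L S).mul_mem (smul_mem_US _ (hu τ)) (hu σ)) h1
  obtain ⟨b, hb⟩ := isMulCoboundary₁_of_isMulCocycle₁_of_aut_to_units a
    (fun σ τ => (hsplit σ τ).1)
  obtain ⟨v, hv, hvu⟩ := hU u hu (fun σ τ => (hsplit σ τ).2)
  -- `y / (b v)` is invariant
  have hinv : ∀ σ : L ≃ₐ[K] L,
      galHom K L σ • (y / (diag L b * v)) = y / (diag L b * v) := by
    intro σ
    have hsm : galHom K L σ • diag L b = diag L (σ • b) := by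
      rw [smul_diag]
      rfl
    have h1 : diag L (σ • b) = diag L b * diag L (a σ) := by
      rw [← map_mul, ← hb σ, mul_div_cancel]
    have h2 : galHom K L σ • v = v * u σ := by
      rw [hvu σ, mul_div_cancel]
    have h3 : galHom K L σ • y = y * (diag L (a σ) * u σ) := by
      rw [← hau σ, mul_div_cancel]
    rw [smul_div', smul_mul', hsm, h1, h2, h3, div_eq_div_iff_mul_eq_mul]
    simp only [mul_assoc, mul_comm, mul_left_comm]
  obtain ⟨z, hz⟩ := J.mem_range_map_inclHom K L (y / (diag L b * v)) hinv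
  refine ⟨toCS K S z, ?_⟩
  rw [CS.map_toCS, hz, map_div, map_mul, toCS_diag, toCS_of_mem_US hv, one_mul, div_one]

end Descent

end Fermat.Agent.CFT.Idele
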