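import Mathlib
import Fermat.Agent.CFT.Idele.Rep
import Fermat.Agent.CFT.Idele.SClass

/-!
# PROJECT C, slice C2 (ideles), part 9: the `S`-modules in `Rep ℤ G`

For `L : Type` algebraic over `ℚ` and a set `S` of rational primes, as objects of
`Rep ℤ (L ≃ₐ[ℚ] L)` (restrict along any `φ : G →* (L ≃ₐ[ℚ] L)` with `Rep.resFunctor φ`):

* `repUS L S`, `repJS L S`, `repCS L S`, `repES L S` (the `S`-units `TUnits L S`);
* `usSC L S` : `0 → U^S → C_L → C_S(L) → 0`, `usSC_shortExact` (`S ≠ ∅`);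
* `sunitSC L S` : `E_S(L) → J_S(L) → C_S(L)`, `sunitSC_exact`, `sunitSC_mono` (`S ≠ ∅`),
  `sunitSC_shortExact` when the idelic `S`-class group `ClS L S` is trivial (for a number field:
  as soon as `S` contains the finite set `T₀` of `Global.lean`).
-/

set_option autoImplicit false

noncomputable section

open CategoryTheory

namespace Fermat.Agent.CFT.Idele

/-- A criterion for exactness in `Rep k G` in terms of the underlying functions. -/
theorem exact_of_elementwise {k G : Type} [CommRing k] [Group G]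
    (X : ShortComplex (Rep.{0} k G))
    (hex : ∀ x : X.X₂, X.g.hom x = 0 → ∃ y : X.X₁, X.f.hom y = x) : X.Exact :=
  (forget₂ (Rep.{0} k G) (ModuleCat k)).reflects_exact_of_faithful _ <|
    (ShortComplex.moduleCat_exact_iff _).2 fun x hx => hex x hx

section

variable (L : Type) [Field L] [Algebra ℚ L] [Algebra.IsAlgebraic ℚ L] (S : Set Nat.Primes)

/-- The unit ideles outside `S` as a representation. -/
abbrev repUS : Rep.{0} ℤ (L ≃ₐ[ℚ] L) := Rep.ofMulDistribMulAction (L ≃ₐ[ℚ] L) (US L S)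

/-- The `S`-ideles as a representation. -/
abbrev repJS : Rep.{0} ℤ (L ≃ₐ[ℚ] L) := Rep.ofMulDistribMulAction (L ≃ₐ[ℚ] L) (JS L S)

/-- The `S`-idele classes as a representation. -/
abbrev repCS : Rep.{0} ℤ (L ≃ₐ[ℚ] L) := Rep.ofMulDistribMulAction (L ≃ₐ[ℚ] L) (CS L S)

/-- The `S`-units as a representation. -/
abbrev repES : Rep.{0} ℤ (L ≃ₐ[ℚ] L) := Rep.ofMulDistribMulAction (L ≃ₐ[ℚ] L) (TUnits L S)

/-- `0 → U^S → C_L → C_S(L) → 0`. -/
def usSC : ShortComplex (Rep.{0} ℤ (L ≃ₐ[ℚ] L)) :=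
  repSC (US.toC L S) (fun σ u => US.toC_smul σ u) (C.toCS L S) (fun σ c => C.toCS_smul σ c)
    (fun u => C.toCS_US_toC u)

theorem usSC_X₁ : (usSC L S).X₁ = repUS L S := rfl
theorem usSC_X₂ : (usSC L S).X₂ = repC L := rfl
theorem usSC_X₃ : (usSC L S).X₃ = repCS L S := rfl

theorem usSC_f_apply (u : Additive (US L S)) :
    (usSC L S).f.hom u = Additive.ofMul (US.toC L S u.toMul) := rfl

theorem usSC_g_apply (c : Additive (C L)) :
    (usSC L S).g.hom c = Additive.ofMul (C.toCS L S c.toMul) := rfl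

variable {S}

theorem usSC_shortExact (hS : S.Nonempty) : (usSC L S).ShortExact :=
  repSC_shortExact _ _ _ _ _ (US.toC_injective hS) (C.toCS_surjective L S)
    (fun c hc => (C.toCS_eq_one_iff c).mp hc)

variable (S)

/-- `J_S(L) → C_S(L)`. -/
def JS.toCS : JS L S →* CS L S := (Idele.toCS L S).comp (JS L S).subtype

theorem JS.toCS_apply (x : JS L S) : JS.toCS L S x = Idele.toCS L S (x : J L) := rfl

theorem JS.toCS_smul (σ : L ≃ₐ[ℚ] L) (x : JS L S) : JS.toCS L S (σ • x) = σ • JS.toCS L S x := rfl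

/-- `E_S(L) → J_S(L) → C_S(L)`. -/
def sunitSC : ShortComplex (Rep.{0} ℤ (L ≃ₐ[ℚ] L)) :=
  repSC (diagS L S) (fun σ a => diagS_smul σ a) (JS.toCS L S) (fun σ x => JS.toCS_smul L S σ x)
    (fun a => toCS_diagS a)

theorem sunitSC_X₁ : (sunitSC L S).X₁ = repES L S := rfl
theorem sunitSC_X₂ : (sunitSC L S).X₂ = repJS L S := rfl
theorem sunitSC_X₃ : (sunitSC L S).X₃ = repCS L S := rfl

theorem sunitSC_f_apply (a : Additive (TUnits L S)) :
    (sunitSC L S).f.hom a = Additive.ofMul (diagS L S a.toMul) := rfl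

theorem sunitSC_g_apply (x : Additive (JS L S)) :
    (sunitSC L S).g.hom x = Additive.ofMul (JS.toCS L S x.toMul) := rfl

theorem sunitSC_exact : (sunitSC L S).Exact := by
  refine exact_of_elementwise _ fun x hx => ?_
  change Additive (JS L S) at x
  have h1 : Idele.toCS L S ((Additive.toMul x : JS L S) : J L) = 1 := congrArg Additive.toMul hx
  obtain ⟨a, ha⟩ := (toCS_eq_one_iff_of_mem_JS (Additive.toMul x : JS L S).2).mp h1
  exact ⟨Additive.ofMul a, congrArg Additive.ofMul (Subtype.ext ha)⟩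

variable {S}

theorem sunitSC_f_injective (hS : S.Nonempty) : Function.Injective (sunitSC L S).f.hom := by
  intro a a' h
  exact congrArg Additive.ofMul
    (diagS_injective L S hS (congrArg Additive.toMul h) : a.toMul = a'.toMul)

theorem sunitSC_mono (hS : S.Nonempty) : Mono (sunitSC L S).f :=
  (Rep.mono_iff_injective _).2 (sunitSC_f_injective L hS)

theorem JS.toCS_surjective [Subsingleton (ClS L S)] : Function.Surjective (JS.toCS L S) := by
  intro c
  obtain ⟨x, hx, rfl⟩ := CS.toClS_eq_one_iff.mp (Subsingleton.elim (CS.toClS L S c) 1)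
  exact ⟨⟨x, hx⟩, rfl⟩

/-- `0 → E_S(L) → J_S(L) → C_S(L) → 0` is short exact when the `S`-class group is trivial. -/
theorem sunitSC_shortExact (hS : S.Nonempty) [Subsingleton (ClS L S)] :
    (sunitSC L S).ShortExact :=
  repSC_shortExact _ _ _ _ _ (diagS_injective L S hS) (JS.toCS_surjective L)
    (fun x hx => by
      obtain ⟨a, ha⟩ := (toCS_eq_one_iff_of_mem_JS x.2).mp hx
      exact ⟨a, Subtype.ext ha⟩)

end

end Fermat.Agent.CFT.Idele
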