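import Mathlib
import Fermat.Agent.CFT.Idele.SIdele
import Fermat.Agent.CFT.Idele.ClassDescent

/-!
# PROJECT C, slice C2 (ideles), part 6: smooth ideles of an infinite algebraic extension

For a (possibly infinite) algebraic extension `Ω/ℚ` (e.g. `ℚ̄` or `ℚ_S`) the group `J Ω` is too big:
the discrete Galois module of class field theory is its *smooth part*
`Jsm Ω = ⋃_F J F`, the union over the finite subextensions `F ⊆ Ω`.

* `Loc.exists_mem_range_map`: every element of `Ω ⊗ ℚ_q` comes from some `F ⊗ ℚ_q`, `F/ℚ` finite.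
* `Jsm Ω : Subgroup (J Ω)`; `smul_mem_Jsm`; `diag_mem_Jsm`; `Jsm_eq_top` for `Ω/ℚ` finite;
  `JS_le_Jsm` (for `S` finite, all `S`-ideles are smooth).
* `mem_Jsm_iff_fixed`: for `Ω/ℚ` Galois, `x ∈ Jsm Ω` iff `x` is fixed by `Gal(Ω/F)` for some finite
  `F` (so `Jsm Ω` is the module of smooth vectors of `J Ω`).
* `Csm Ω : Subgroup (C Ω)`, `CSsm Ω S : Subgroup (CS Ω S)` : the images of `Jsm Ω`, i.e. the direct
  limits of the `C F`, resp. of the `CS F S`; Galois-stable.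
-/

set_option autoImplicit false

open scoped TensorProduct

noncomputable section

namespace Fermat.Agent.CFT.Idele

/- For `F : IntermediateField ℚ Ω` there are two non-defeq instances of `Algebra ℚ F`
(`DivisionRing.toRatAlgebra`, found first by default, and `F.algebra'`, the one in the type of
`F.val : F →ₐ[ℚ] Ω`).  Everything below uses `F.algebra'`. -/
attribute [local instance 2000] IntermediateField.algebra'

section LocSmooth

variable {Ω : Type*} [Field Ω] [Algebra ℚ Ω] [Algebra.IsAlgebraic ℚ Ω] (q : Nat.Primes)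

omit [Algebra.IsAlgebraic ℚ Ω] in
theorem Loc.range_map_mono {F F' : IntermediateField ℚ Ω} (h : F ≤ F') :
    (Loc.map q F.val).range ≤ (Loc.map q F'.val).range := by
  rintro _ ⟨y, rfl⟩
  refine ⟨Loc.map q (IntermediateField.inclusion h) y, ?_⟩
  have e : F'.val.comp (IntermediateField.inclusion h) = F.val := by
    ext a
    rfl
  show Loc.map q F'.val (Loc.map q (IntermediateField.inclusion h) y) = Loc.map q F.val y
  rw [← Loc.map_comp_apply, e]

/-- Every element of `Ω ⊗ ℚ_q` is defined over a finite subextension. -/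
theorem Loc.exists_mem_range_map (x : Loc Ω q) :
    ∃ F : IntermediateField ℚ Ω, FiniteDimensional ℚ F ∧ x ∈ (Loc.map q F.val).range := by
  induction x using TensorProduct.induction_on with
  | zero => exact ⟨⊥, inferInstance, Subalgebra.zero_mem _⟩
  | tmul a c =>
    refine ⟨IntermediateField.adjoin ℚ {a},
      IntermediateField.adjoin.finiteDimensional (Algebra.IsIntegral.isIntegral a), ?_⟩
    refine ⟨(⟨a, IntermediateField.mem_adjoin_simple_self ℚ a⟩ :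
      IntermediateField.adjoin ℚ {a}) ⊗ₜ[ℚ] c, ?_⟩
    show Loc.map q _ _ = _
    rw [Loc.map_tmul]
    rfl
  | add x y hx hy =>
    obtain ⟨F₁, h₁, hx⟩ := hx
    obtain ⟨F₂, h₂, hy⟩ := hy
    refine ⟨F₁ ⊔ F₂, IntermediateField.finiteDimensional_sup F₁ F₂, ?_⟩
    exact Subalgebra.add_mem _ (Loc.range_map_mono q le_sup_left hx)
      (Loc.range_map_mono q le_sup_right hy)

/-- Every unit of `Ω ⊗ ℚ_q` is defined over a finite subextension. -/
theorem Loc.exists_units_map_eq (u : (Loc Ω q)ˣ) :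
    ∃ F : IntermediateField ℚ Ω, FiniteDimensional ℚ F ∧
      ∃ v : (Loc F q)ˣ, Units.map (Loc.map q F.val : Loc F q →* Loc Ω q) v = u := by
  obtain ⟨F₁, h₁, hu1⟩ := Loc.exists_mem_range_map q (u : Loc Ω q)
  obtain ⟨F₂, h₂, hu2⟩ := Loc.exists_mem_range_map q ((u⁻¹ : (Loc Ω q)ˣ) : Loc Ω q)
  refine ⟨F₁ ⊔ F₂, IntermediateField.finiteDimensional_sup F₁ F₂, ?_⟩
  obtain ⟨y, hy⟩ := Loc.range_map_mono q (le_sup_left : F₁ ≤ F₁ ⊔ F₂) hu1
  obtain ⟨y', hy'⟩ := Loc.range_map_mono q (le_sup_right : F₂ ≤ F₁ ⊔ F₂) hu2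
  have hy1 : Loc.map q (F₁ ⊔ F₂).val y = (u : Loc Ω q) := hy
  have hy2 : Loc.map q (F₁ ⊔ F₂).val y' = ((u⁻¹ : (Loc Ω q)ˣ) : Loc Ω q) := hy'
  have h1 : y * y' = 1 := by
    apply Loc.map_injective q (F₁ ⊔ F₂).val
    rw [map_mul, map_one, hy1, hy2]
    exact Units.mul_inv u
  have h2 : y' * y = 1 := by rw [mul_comm]; exact h1
  exact ⟨⟨y, y', h1, h2⟩, Units.ext hy1⟩

end LocSmooth

/-! ### Smooth ideles -/

section Jsm

variable (Ω : Type*) [Field Ω] [Algebra ℚ Ω] [Algebra.IsAlgebraic ℚ Ω]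

omit [Algebra.IsAlgebraic ℚ Ω] in
theorem J.range_map_mono {F F' : IntermediateField ℚ Ω} (h : F ≤ F') :
    (J.map F.val).range ≤ (J.map F'.val).range := by
  rintro _ ⟨y, rfl⟩
  refine ⟨J.map (IntermediateField.inclusion h) y, ?_⟩
  have e : F'.val.comp (IntermediateField.inclusion h) = F.val := by
    ext a
    rfl
  rw [← J.map_comp, e]

/-- The smooth ideles: those defined over a finite subextension. -/
def Jsm : Subgroup (J Ω) where
  carrier := {x | ∃ F : IntermediateField ℚ Ω, FiniteDimensional ℚ F ∧ x ∈ (J.map F.val).range}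
  mul_mem' := by
    rintro x y ⟨F₁, h₁, hx⟩ ⟨F₂, h₂, hy⟩
    exact ⟨F₁ ⊔ F₂, IntermediateField.finiteDimensional_sup F₁ F₂,
      Subgroup.mul_mem _ (J.range_map_mono Ω le_sup_left hx) (J.range_map_mono Ω le_sup_right hy)⟩
  one_mem' := ⟨⊥, inferInstance, Subgroup.one_mem _⟩
  inv_mem' := by
    rintro x ⟨F, h, hx⟩
    exact ⟨F, h, Subgroup.inv_mem _ hx⟩

variable {Ω}

omit [Algebra.IsAlgebraic ℚ Ω] in
theorem mem_Jsm {x : J Ω} :
    x ∈ Jsm Ω ↔ ∃ F : IntermediateField ℚ Ω, FiniteDimensional ℚ F ∧ x ∈ (J.map F.val).range :=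
  Iff.rfl

omit [Algebra.IsAlgebraic ℚ Ω] in
theorem J.map_val_mem_Jsm (F : IntermediateField ℚ Ω) [FiniteDimensional ℚ F] (y : J F) :
    J.map F.val y ∈ Jsm Ω := ⟨F, inferInstance, y, rfl⟩

omit [Algebra.IsAlgebraic ℚ Ω] in
theorem smul_mem_Jsm (σ : Ω ≃ₐ[ℚ] Ω) {x : J Ω} (hx : x ∈ Jsm Ω) : σ • x ∈ Jsm Ω := by
  obtain ⟨F, hF, y, rfl⟩ := hx
  refine ⟨F.map (σ : Ω →ₐ[ℚ] Ω), inferInstance, J.map (F.equivMap (σ : Ω →ₐ[ℚ] Ω) : F →ₐ[ℚ] _) y, ?_⟩
  rw [smul_def, ← J.map_comp, ← J.map_comp]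
  congr 1

omit [Algebra.IsAlgebraic ℚ Ω] in
theorem smul_mem_Jsm_iff (σ : Ω ≃ₐ[ℚ] Ω) (x : J Ω) : σ • x ∈ Jsm Ω ↔ x ∈ Jsm Ω := by
  constructor
  · intro h
    have := smul_mem_Jsm σ⁻¹ h
    rwa [inv_smul_smul] at this
  · exact smul_mem_Jsm σ

theorem diag_mem_Jsm (a : Ωˣ) : diag Ω a ∈ Jsm Ω := by
  have hF : FiniteDimensional ℚ (IntermediateField.adjoin ℚ {(a : Ω)}) :=
    IntermediateField.adjoin.finiteDimensional (Algebra.IsIntegral.isIntegral (a : Ω))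
  refine ⟨IntermediateField.adjoin ℚ {(a : Ω)}, hF, ?_⟩
  have ha0 : (⟨(a : Ω), IntermediateField.mem_adjoin_simple_self ℚ (a : Ω)⟩ :
      IntermediateField.adjoin ℚ {(a : Ω)}) ≠ 0 := by
    intro h
    exact a.ne_zero (congrArg Subtype.val h)
  refine ⟨diag _ (Units.mk0 _ ha0), ?_⟩
  rw [J.map_diag]
  congr 1
  exact Units.ext rfl

theorem range_diag_le_Jsm : (diag Ω).range ≤ Jsm Ω := by
  rintro _ ⟨a, rfl⟩
  exact diag_mem_Jsm a

omit [Algebra.IsAlgebraic ℚ Ω] in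
theorem Jsm_eq_top [FiniteDimensional ℚ Ω] : Jsm Ω = ⊤ := by
  rw [eq_top_iff]
  intro x _
  have hfd : FiniteDimensional ℚ (⊤ : IntermediateField ℚ Ω) :=
    LinearEquiv.finiteDimensional (IntermediateField.topEquiv (F := ℚ) (E := Ω)).symm.toLinearEquiv
  refine ⟨⊤, hfd, J.map (IntermediateField.topEquiv (F := ℚ) (E := Ω)).symm.toAlgHom x, ?_⟩
  rw [← J.map_comp]
  have e : (⊤ : IntermediateField ℚ Ω).val.comp
      (IntermediateField.topEquiv (F := ℚ) (E := Ω)).symm.toAlgHom = AlgHom.id ℚ Ω := by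
    ext a
    rfl
  rw [e, J.map_id]

/-- For a finite set `S`, all `S`-ideles are smooth. -/
theorem JS_le_Jsm {S : Set Nat.Primes} (hS : S.Finite) : JS Ω S ≤ Jsm Ω := by
  classical
  intro x hx
  choose F hF v hv using fun q : Nat.Primes =>
    Loc.exists_units_map_eq q ((x : ∀ q : Nat.Primes, (Loc Ω q)ˣ) q)
  let E : IntermediateField ℚ Ω := ⨆ q ∈ hS.toFinset, F q
  have hE : FiniteDimensional ℚ E := by
    have : ∀ q, FiniteDimensional ℚ (F q) := hF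
    exact IntermediateField.finiteDimensional_iSup_of_finset
  have hle : ∀ q ∈ S, F q ≤ E := fun q hq =>
    le_iSup₂_of_le q (hS.mem_toFinset.mpr hq) le_rfl
  -- the components over `E`
  have hcomp : ∀ q : Nat.Primes, ∃ w : (Loc E q)ˣ,
      Units.map (Loc.map q E.val : Loc E q →* Loc Ω q) w
        = (x : ∀ q : Nat.Primes, (Loc Ω q)ˣ) q := by
    intro q
    by_cases hq : q ∈ S
    · refine ⟨Units.map (Loc.map q (IntermediateField.inclusion (hle q hq)) :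
        Loc (F q) q →* Loc E q) (v q), ?_⟩
      rw [← hv q]
      apply Units.ext
      show Loc.map q E.val (Loc.map q (IntermediateField.inclusion (hle q hq)) (v q : Loc (F q) q))
        = Loc.map q (F q).val (v q : Loc (F q) q)
      rw [← Loc.map_comp_apply]
      congr 1
    · exact ⟨1, by rw [map_one, hx q hq]⟩
  choose w hw using hcomp
  have hwx : mapFun E.val w = (x : ∀ q : Nat.Primes, (Loc Ω q)ˣ) := funext hw
  have hwJ : w ∈ J E := by
    rw [← mapFun_mem_J_iff E.val, hwx]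
    exact x.2
  exact ⟨E, hE, ⟨w, hwJ⟩, Subtype.ext hwx⟩

omit [Algebra.IsAlgebraic ℚ Ω] in
/-- Ideles defined over `F` are fixed by the automorphisms fixing `F`. -/
theorem smul_eq_of_mem_range {F : IntermediateField ℚ Ω} {x : J Ω} (hx : x ∈ (J.map F.val).range)
    (σ : Ω ≃ₐ[ℚ] Ω) (hσ : ∀ a : F, σ a = a) : σ • x = x := by
  obtain ⟨y, rfl⟩ := hx
  exact J.smul_map_of_fixes F.val σ hσ y

omit [Algebra.IsAlgebraic ℚ Ω] in
/-- For `Ω/ℚ` Galois, the smooth ideles are exactly the smooth vectors of the `Gal(Ω/ℚ)`-module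
`J Ω`. -/
theorem mem_Jsm_iff_fixed [IsGalois ℚ Ω] {x : J Ω} :
    x ∈ Jsm Ω ↔ ∃ F : IntermediateField ℚ Ω, FiniteDimensional ℚ F ∧
      ∀ σ ∈ F.fixingSubgroup, σ • x = x := by
  constructor
  · rintro ⟨F, hF, hx⟩
    refine ⟨F, hF, fun σ hσ => smul_eq_of_mem_range hx σ fun a => ?_⟩
    exact (IntermediateField.mem_fixingSubgroup_iff F σ).mp hσ a a.2
  · rintro ⟨F, hF, hx⟩
    refine ⟨F, hF, ?_⟩
    refine J.mem_range_map_of_fixed F.val (F.fixingSubgroup : Set (Ω ≃ₐ[ℚ] Ω)) ?_ x hx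
    intro a ha
    have h1 : a ∈ IntermediateField.fixedField F.fixingSubgroup := by
      rw [IntermediateField.mem_fixedField_iff]
      exact ha
    rw [InfiniteGalois.fixedField_fixingSubgroup] at h1
    exact ⟨⟨a, h1⟩, rfl⟩

end Jsm

/-! ### Smooth idele classes -/

section Csm

variable (Ω : Type*) [Field Ω] [Algebra ℚ Ω] [Algebra.IsAlgebraic ℚ Ω] (S : Set Nat.Primes)

/-- The smooth idele classes `Jsm Ω / Ωˣ = lim C F`, as a subgroup of `C Ω`. -/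
def Csm : Subgroup (C Ω) := (Jsm Ω).map (toC Ω)

/-- The smooth `S`-idele classes `lim CS F S`, as a subgroup of `CS Ω S`. -/
def CSsm : Subgroup (CS Ω S) := (Jsm Ω).map (toCS Ω S)

variable {Ω S}

theorem mem_Csm {c : C Ω} : c ∈ Csm Ω ↔ ∃ x ∈ Jsm Ω, toC Ω x = c := Iff.rfl

theorem mem_CSsm {c : CS Ω S} : c ∈ CSsm Ω S ↔ ∃ x ∈ Jsm Ω, toCS Ω S x = c := Iff.rfl

theorem smul_mem_Csm (σ : Ω ≃ₐ[ℚ] Ω) {c : C Ω} (hc : c ∈ Csm Ω) : σ • c ∈ Csm Ω := by
  obtain ⟨x, hx, rfl⟩ := hc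
  exact ⟨σ • x, smul_mem_Jsm σ hx, (smul_toC σ x).symm⟩

theorem smul_mem_CSsm (σ : Ω ≃ₐ[ℚ] Ω) {c : CS Ω S} (hc : c ∈ CSsm Ω S) : σ • c ∈ CSsm Ω S := by
  obtain ⟨x, hx, rfl⟩ := hc
  exact ⟨σ • x, smul_mem_Jsm σ hx, (smul_toCS σ x).symm⟩

/-- A preimage in `J Ω` of a smooth class is smooth. -/
theorem mem_Jsm_of_toC_mem_Csm {x : J Ω} (hx : toC Ω x ∈ Csm Ω) : x ∈ Jsm Ω := by
  obtain ⟨y, hy, hxy⟩ := hx
  have h1 : toC Ω (x / y) = 1 := by rw [map_div, hxy, div_self']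
  obtain ⟨a, ha⟩ := (toC_eq_one_iff Ω _).mp h1
  have h2 : x = diag Ω a * y := by rw [ha, div_mul_cancel]
  rw [h2]
  exact (Jsm Ω).mul_mem (diag_mem_Jsm a) hy

/-- Classes of ideles defined over `F` are fixed by the automorphisms fixing `F`. -/
theorem smul_toC_eq_of_mem_range {F : IntermediateField ℚ Ω} {x : J Ω}
    (hx : x ∈ (J.map F.val).range) (σ : Ω ≃ₐ[ℚ] Ω) (hσ : ∀ a : F, σ a = a) :
    σ • toC Ω x = toC Ω x := by
  rw [smul_toC, smul_eq_of_mem_range hx σ hσ]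

/-- Every smooth class is fixed by `Gal(Ω/F)` for some finite `F`. -/
theorem exists_fixed_of_mem_Csm {c : C Ω} (hc : c ∈ Csm Ω) :
    ∃ F : IntermediateField ℚ Ω, FiniteDimensional ℚ F ∧ ∀ σ ∈ F.fixingSubgroup, σ • c = c := by
  obtain ⟨x, ⟨F, hF, hx⟩, rfl⟩ := hc
  refine ⟨F, hF, fun σ hσ => smul_toC_eq_of_mem_range hx σ fun a => ?_⟩
  exact (IntermediateField.mem_fixingSubgroup_iff F σ).mp hσ a a.2

/-- Every smooth `S`-class is fixed by `Gal(Ω/F)` for some finite `F`. -/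
theorem exists_fixed_of_mem_CSsm {c : CS Ω S} (hc : c ∈ CSsm Ω S) :
    ∃ F : IntermediateField ℚ Ω, FiniteDimensional ℚ F ∧ ∀ σ ∈ F.fixingSubgroup, σ • c = c := by
  obtain ⟨x, ⟨F, hF, hx⟩, rfl⟩ := hc
  refine ⟨F, hF, fun σ hσ => ?_⟩
  rw [smul_toCS, smul_eq_of_mem_range hx σ fun a => ?_]
  exact (IntermediateField.mem_fixingSubgroup_iff F σ).mp hσ a a.2

/-- The smooth classes are the union of the images of the `C F`. -/
theorem mem_Csm_iff_exists_map {c : C Ω} :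
    c ∈ Csm Ω ↔ ∃ F : IntermediateField ℚ Ω, FiniteDimensional ℚ F ∧ c ∈ (C.map F.val).range := by
  constructor
  · rintro ⟨x, ⟨F, hF, y, rfl⟩, rfl⟩
    exact ⟨F, hF, toC F y, rfl⟩
  · rintro ⟨F, hF, c', rfl⟩
    obtain ⟨y, rfl⟩ := toC_surjective F c'
    exact ⟨J.map F.val y, ⟨F, hF, y, rfl⟩, rfl⟩

end Csm

end Fermat.Agent.CFT.Idele
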