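import Mathlib
import Fermat.Agent.CFT.Idele.Smooth
import Fermat.Agent.CFT.Idele.SClass

/-!
# PROJECT C, slice C2 (ideles), part 10: smooth ideles relative to a family of fields

Let `Ω/ℚ` be an algebraic extension (e.g. `ℚ̄`) and `P` a predicate on the intermediate fields
which cuts out a directed, Galois-stable, downward closed family of *finite* subextensions
(`IsFieldFilter P`; e.g. `P F = FiniteDimensional ℚ F`, or `P F = F.IsUnramifiedOutside S`, whose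
union is `ℚ_S`).  We define the `P`-smooth parts

* `UP hP : Subgroup Ωˣ` (the units of `Ω_P = ⋃_{P F} F`),
* `LocP hP q : Subgroup (Loc Ω q)ˣ` (`= ⋃_{P F} (F ⊗ ℚ_q)ˣ`),
* `JP hP : Subgroup (J Ω)` (`= ⋃_{P F} J F`),

prove that they are Galois stable and characterise them as the elements fixed by `Gal(Ω/F)` for
some `F` with `P F` (for `Ω/ℚ` Galois).  We also make `Gal(Ω/ℚ)` act on `(Loc Ω q)ˣ`
(`instMulDistribMulActionLocUnits`, `σ • u = autUnits σ q u`).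
-/

set_option autoImplicit false

open scoped TensorProduct

noncomputable section

namespace Fermat.Agent.CFT.Idele

attribute [local instance 2000] IntermediateField.algebra'

/-! ### The Galois action on the local units -/

section LocAction

variable {L : Type*} [Field L] [Algebra ℚ L] (q : Nat.Primes)

/- High priority shortcuts: `Loc L q = L ⊗[ℚ] ℚ_q` carries many Mathlib scalar actions (on the
left factor), through which a default instance search for `σ • u`, `u : (Loc L q)ˣ`, would first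
wander. -/
instance (priority := 2000) instSMulLocUnits : SMul (L ≃ₐ[ℚ] L) (Loc L q)ˣ :=
  ⟨fun σ u => autUnits σ q u⟩

instance (priority := 2000) instMulDistribMulActionLocUnits :
    MulDistribMulAction (L ≃ₐ[ℚ] L) (Loc L q)ˣ where
  smul σ u := autUnits σ q u
  one_smul u := autUnits_one q u
  mul_smul σ τ u := autUnits_mul σ τ q u
  smul_mul σ u v := map_mul (autUnits σ q) u v
  smul_one σ := map_one (autUnits σ q)

variable {q}

theorem locUnits_smul_def (σ : L ≃ₐ[ℚ] L) (u : (Loc L q)ˣ) : σ • u = autUnits σ q u := rfl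

theorem locUnits_smul_val (σ : L ≃ₐ[ℚ] L) (u : (Loc L q)ˣ) :
    ((σ • u : (Loc L q)ˣ) : Loc L q) = Loc.aut L q σ (u : Loc L q) := autUnits_apply σ q u

theorem J.smul_apply' (σ : L ≃ₐ[ℚ] L) (x : J L) (q : Nat.Primes) :
    ((σ • x : J L) : ∀ q : Nat.Primes, (Loc L q)ˣ) q
      = σ • ((x : ∀ q : Nat.Primes, (Loc L q)ˣ) q) := rfl

theorem smul_mem_intUnits_iff (σ : L ≃ₐ[ℚ] L) (u : (Loc L q)ˣ) :
    σ • u ∈ intUnits L q ↔ u ∈ intUnits L q := autUnits_mem_intUnits_iff σ q u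

end LocAction

/-! ### Units of `K ⊗ ℚ_q` inside `L ⊗ ℚ_q` -/

section LocUnits

variable {K L M : Type*} [Field K] [Field L] [Field M] [Algebra ℚ K] [Algebra ℚ L] [Algebra ℚ M]
  (q : Nat.Primes)

/-- The map `(K ⊗ ℚ_q)ˣ → (L ⊗ ℚ_q)ˣ` induced by `f : K → L`. -/
def Loc.unitsMap (f : K →ₐ[ℚ] L) : (Loc K q)ˣ →* (Loc L q)ˣ :=
  Units.map (Loc.map q f : Loc K q →* Loc L q)

theorem Loc.unitsMap_val (f : K →ₐ[ℚ] L) (u : (Loc K q)ˣ) :
    ((Loc.unitsMap q f u : (Loc L q)ˣ) : Loc L q) = Loc.map q f (u : Loc K q) := rfl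

theorem Loc.unitsMap_injective (f : K →ₐ[ℚ] L) : Function.Injective (Loc.unitsMap q f) := by
  intro u v h
  apply Units.ext
  apply Loc.map_injective q f
  exact congrArg (fun w : (Loc L q)ˣ => (w : Loc L q)) h

theorem Loc.unitsMap_comp (g : L →ₐ[ℚ] M) (f : K →ₐ[ℚ] L) (u : (Loc K q)ˣ) :
    Loc.unitsMap q (g.comp f) u = Loc.unitsMap q g (Loc.unitsMap q f u) := by
  apply Units.ext
  rw [Loc.unitsMap_val, Loc.unitsMap_val, Loc.unitsMap_val, Loc.map_comp_apply]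

theorem Loc.unitsMap_id (u : (Loc L q)ˣ) : Loc.unitsMap q (AlgHom.id ℚ L) u = u := by
  apply Units.ext
  rw [Loc.unitsMap_val, Loc.map_id]
  rfl

theorem J.map_apply' (f : K →ₐ[ℚ] L) (x : J K) (q : Nat.Primes) :
    ((J.map f x : J L) : ∀ q : Nat.Primes, (Loc L q)ˣ) q
      = Loc.unitsMap q f ((x : ∀ q : Nat.Primes, (Loc K q)ˣ) q) := rfl

theorem locUnits_smul_eq_unitsMap (σ : L ≃ₐ[ℚ] L) (u : (Loc L q)ˣ) :
    σ • u = Loc.unitsMap q (σ : L →ₐ[ℚ] L) u := rfl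

/-- A unit of `L ⊗ ℚ_q` lying in the image of `K ⊗ ℚ_q`, together with its inverse, comes from a
unit of `K ⊗ ℚ_q`. -/
theorem Loc.mem_range_unitsMap_iff (f : K →ₐ[ℚ] L) (u : (Loc L q)ˣ) :
    u ∈ (Loc.unitsMap q f).range ↔
      (u : Loc L q) ∈ (Loc.map q f).range ∧
        ((u⁻¹ : (Loc L q)ˣ) : Loc L q) ∈ (Loc.map q f).range := by
  constructor
  · rintro ⟨v, rfl⟩
    exact ⟨⟨(v : Loc K q), rfl⟩, ⟨((v⁻¹ : (Loc K q)ˣ) : Loc K q), by
      rw [← map_inv]; rfl⟩⟩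
  · rintro ⟨⟨y, hy⟩, ⟨y', hy'⟩⟩
    have hy1 : Loc.map q f y = (u : Loc L q) := hy
    have hy2 : Loc.map q f y' = ((u⁻¹ : (Loc L q)ˣ) : Loc L q) := hy'
    have h1 : y * y' = 1 := by
      apply Loc.map_injective q f
      rw [map_mul, map_one, hy1, hy2]
      exact Units.mul_inv u
    have h2 : y' * y = 1 := by rw [mul_comm]; exact h1
    exact ⟨⟨y, y', h1, h2⟩, Units.ext hy1⟩

/-- **Galois descent for the local units**. -/
theorem Loc.mem_range_unitsMap_of_fixed (f : K →ₐ[ℚ] L) (G : Set (L ≃ₐ[ℚ] L))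
    (hfix : ∀ a : L, (∀ σ ∈ G, σ a = a) → a ∈ f.range) (u : (Loc L q)ˣ)
    (hu : ∀ σ ∈ G, σ • u = u) : u ∈ (Loc.unitsMap q f).range := by
  rw [Loc.mem_range_unitsMap_iff]
  have hu1 : ∀ σ ∈ G, Loc.aut L q σ (u : Loc L q) = u := fun σ hσ => by
    rw [← locUnits_smul_val, hu σ hσ]
  have hu2 : ∀ σ ∈ G, Loc.aut L q σ ((u⁻¹ : (Loc L q)ˣ) : Loc L q) = (u⁻¹ : (Loc L q)ˣ) := by
    intro σ hσ
    rw [← locUnits_smul_val, smul_inv', hu σ hσ]
  exact ⟨Loc.mem_range_map_of_fixed q f G hfix _ hu1, Loc.mem_range_map_of_fixed q f G hfix _ hu2⟩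

theorem Loc.smul_unitsMap_of_fixes (f : K →ₐ[ℚ] L) (σ : L ≃ₐ[ℚ] L) (hσ : ∀ a : K, σ (f a) = f a)
    (v : (Loc K q)ˣ) : σ • Loc.unitsMap q f v = Loc.unitsMap q f v := by
  apply Units.ext
  rw [locUnits_smul_val, Loc.unitsMap_val, Loc.aut_map_of_fixes q f σ hσ]

theorem Loc.range_unitsMap_mono {Ω : Type*} [Field Ω] [Algebra ℚ Ω]
    {F F' : IntermediateField ℚ Ω} (h : F ≤ F') :
    (Loc.unitsMap q F.val).range ≤ (Loc.unitsMap q F'.val).range := by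
  rintro _ ⟨y, rfl⟩
  refine ⟨Loc.unitsMap q (IntermediateField.inclusion h) y, ?_⟩
  have e : F'.val.comp (IntermediateField.inclusion h) = F.val := by
    ext a
    rfl
  rw [← Loc.unitsMap_comp, e]

theorem Loc.unitsMap_mem_intUnits_iff (f : K →ₐ[ℚ] L) (u : (Loc K q)ˣ) :
    Loc.unitsMap q f u ∈ intUnits L q ↔ u ∈ intUnits K q := by
  rw [mem_intUnits, mem_intUnits]
  have h2 : (((Loc.unitsMap q f u)⁻¹ : (Loc L q)ˣ) : Loc L q)
      = Loc.map q f ((u⁻¹ : (Loc K q)ˣ) : Loc K q) := by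
    rw [← map_inv]; rfl
  rw [h2, Loc.unitsMap_val, Loc.map_mem_intRing_iff, Loc.map_mem_intRing_iff]

end LocUnits

/-- A directed, Galois-stable, downward closed family of finite subextensions of `Ω/ℚ`. -/
structure IsFieldFilter {Ω : Type*} [Field Ω] [Algebra ℚ Ω]
    (P : IntermediateField ℚ Ω → Prop) : Prop where
  bot : P ⊥
  sup : ∀ {F F' : IntermediateField ℚ Ω}, P F → P F' → P (F ⊔ F')
  fin : ∀ {F : IntermediateField ℚ Ω}, P F → FiniteDimensional ℚ F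
  map : ∀ {F : IntermediateField ℚ Ω} (σ : Ω ≃ₐ[ℚ] Ω), P F → P (F.map (σ : Ω →ₐ[ℚ] Ω))
  of_le : ∀ {F F' : IntermediateField ℚ Ω}, F' ≤ F → P F → P F'
  exists_normal : ∀ {F : IntermediateField ℚ Ω}, P F →
    ∃ F' : IntermediateField ℚ Ω, P F' ∧ F ≤ F' ∧ Normal ℚ F'

section Defs

variable {Ω : Type*} [Field Ω] [Algebra ℚ Ω]

/-- The family of all finite subextensions. -/
theorem isFieldFilter_finiteDimensional [Normal ℚ Ω] :
    IsFieldFilter (fun F : IntermediateField ℚ Ω => FiniteDimensional ℚ F) where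
  bot := inferInstance
  sup := fun {F F'} h h' => by
    have := h; have := h'
    exact IntermediateField.finiteDimensional_sup F F'
  fin := fun h => h
  map := fun {F} σ h => by
    have := h
    infer_instance
  of_le := fun {F F'} hle h => by
    have := h
    exact FiniteDimensional.of_injective (IntermediateField.inclusion hle).toLinearMap
      (IntermediateField.inclusion_injective hle)
  exists_normal := fun {F} h => by
    have := h
    exact ⟨IntermediateField.normalClosure ℚ F Ω, normalClosure.is_finiteDimensional ℚ F Ω,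
      IntermediateField.le_normalClosure F, normalClosure.normal ℚ F Ω⟩

variable {P : IntermediateField ℚ Ω → Prop} (hP : IsFieldFilter P)

/-- The units of `Ω` lying in a field of the family. -/
def UP : Subgroup Ωˣ where
  carrier := {a | ∃ F : IntermediateField ℚ Ω, P F ∧ (a : Ω) ∈ F}
  mul_mem' := by
    rintro a b ⟨F₁, h₁, ha⟩ ⟨F₂, h₂, hb⟩
    refine ⟨F₁ ⊔ F₂, hP.sup h₁ h₂, ?_⟩
    rw [Units.val_mul]
    exact (F₁ ⊔ F₂).mul_mem ((le_sup_left : F₁ ≤ F₁ ⊔ F₂) ha) ((le_sup_right : F₂ ≤ F₁ ⊔ F₂) hb)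
  one_mem' := ⟨⊥, hP.bot, by rw [Units.val_one]; exact (⊥ : IntermediateField ℚ Ω).one_mem⟩
  inv_mem' := by
    rintro a ⟨F, h, ha⟩
    refine ⟨F, h, ?_⟩
    rw [Units.val_inv_eq_inv_val]
    exact F.inv_mem ha

/-- The units of `Ω ⊗ ℚ_q` defined over a field of the family. -/
def LocP (q : Nat.Primes) : Subgroup (Loc Ω q)ˣ where
  carrier := {u | ∃ F : IntermediateField ℚ Ω, P F ∧ u ∈ (Loc.unitsMap q F.val).range}
  mul_mem' := by
    rintro a b ⟨F₁, h₁, ha⟩ ⟨F₂, h₂, hb⟩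
    exact ⟨F₁ ⊔ F₂, hP.sup h₁ h₂, Subgroup.mul_mem _ (Loc.range_unitsMap_mono q le_sup_left ha)
      (Loc.range_unitsMap_mono q le_sup_right hb)⟩
  one_mem' := ⟨⊥, hP.bot, Subgroup.one_mem _⟩
  inv_mem' := by
    rintro a ⟨F, h, ha⟩
    exact ⟨F, h, Subgroup.inv_mem _ ha⟩

/-- The ideles of `Ω` defined over a field of the family. -/
def JP : Subgroup (J Ω) where
  carrier := {x | ∃ F : IntermediateField ℚ Ω, P F ∧ x ∈ (J.map F.val).range}
  mul_mem' := by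
    rintro x y ⟨F₁, h₁, hx⟩ ⟨F₂, h₂, hy⟩
    exact ⟨F₁ ⊔ F₂, hP.sup h₁ h₂,
      Subgroup.mul_mem _ (J.range_map_mono Ω le_sup_left hx) (J.range_map_mono Ω le_sup_right hy)⟩
  one_mem' := ⟨⊥, hP.bot, Subgroup.one_mem _⟩
  inv_mem' := by
    rintro x ⟨F, h, hx⟩
    exact ⟨F, h, Subgroup.inv_mem _ hx⟩

variable {hP}

theorem mem_UP {a : Ωˣ} : a ∈ UP hP ↔ ∃ F : IntermediateField ℚ Ω, P F ∧ (a : Ω) ∈ F := Iff.rfl

theorem mem_LocP {q : Nat.Primes} {u : (Loc Ω q)ˣ} :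
    u ∈ LocP hP q ↔ ∃ F : IntermediateField ℚ Ω, P F ∧ u ∈ (Loc.unitsMap q F.val).range := Iff.rfl

theorem mem_JP {x : J Ω} :
    x ∈ JP hP ↔ ∃ F : IntermediateField ℚ Ω, P F ∧ x ∈ (J.map F.val).range := Iff.rfl

theorem JP_le_Jsm : JP hP ≤ Jsm Ω := fun _ ⟨F, hF, hx⟩ => ⟨F, hP.fin hF, hx⟩

theorem J.map_val_mem_JP {F : IntermediateField ℚ Ω} (hF : P F) (y : J F) :
    J.map F.val y ∈ JP hP := ⟨F, hF, y, rfl⟩

theorem Loc.unitsMap_val_mem_LocP {q : Nat.Primes} {F : IntermediateField ℚ Ω} (hF : P F)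
    (v : (Loc F q)ˣ) : Loc.unitsMap q F.val v ∈ LocP hP q := ⟨F, hF, v, rfl⟩

/-! ### Galois stability -/

theorem smul_mem_UP (σ : Ω ≃ₐ[ℚ] Ω) {a : Ωˣ} (ha : a ∈ UP hP) : σ • a ∈ UP hP := by
  obtain ⟨F, hF, ha⟩ := ha
  exact ⟨F.map (σ : Ω →ₐ[ℚ] Ω), hP.map σ hF, ⟨(a : Ω), ha, rfl⟩⟩

theorem smul_mem_LocP (σ : Ω ≃ₐ[ℚ] Ω) {q : Nat.Primes} {u : (Loc Ω q)ˣ} (hu : u ∈ LocP hP q) :
    σ • u ∈ LocP hP q := by
  obtain ⟨F, hF, v, rfl⟩ := hu
  refine ⟨F.map (σ : Ω →ₐ[ℚ] Ω), hP.map σ hF,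
    Loc.unitsMap q (F.equivMap (σ : Ω →ₐ[ℚ] Ω) : F →ₐ[ℚ] _) v, ?_⟩
  rw [locUnits_smul_eq_unitsMap, ← Loc.unitsMap_comp, ← Loc.unitsMap_comp]
  congr 1

theorem smul_mem_JP (σ : Ω ≃ₐ[ℚ] Ω) {x : J Ω} (hx : x ∈ JP hP) : σ • x ∈ JP hP := by
  obtain ⟨F, hF, y, rfl⟩ := hx
  refine ⟨F.map (σ : Ω →ₐ[ℚ] Ω), hP.map σ hF,
    J.map (F.equivMap (σ : Ω →ₐ[ℚ] Ω) : F →ₐ[ℚ] _) y, ?_⟩
  rw [smul_def, ← J.map_comp, ← J.map_comp]
  congr 1

theorem smul_mem_JP_iff (σ : Ω ≃ₐ[ℚ] Ω) (x : J Ω) : σ • x ∈ JP hP ↔ x ∈ JP hP := by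
  constructor
  · intro h
    have := smul_mem_JP σ⁻¹ h
    rwa [inv_smul_smul] at this
  · exact smul_mem_JP σ

/-! ### Components -/

theorem apply_mem_LocP {x : J Ω} (hx : x ∈ JP hP) (q : Nat.Primes) :
    (x : ∀ q : Nat.Primes, (Loc Ω q)ˣ) q ∈ LocP hP q := by
  obtain ⟨F, hF, y, rfl⟩ := hx
  exact ⟨F, hF, (y : ∀ q : Nat.Primes, (Loc F q)ˣ) q, rfl⟩

theorem trunc_mem_JP (S : Set Nat.Primes) {x : J Ω} (hx : x ∈ JP hP) : trunc Ω S x ∈ JP hP := by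
  obtain ⟨F, hF, y, rfl⟩ := hx
  exact ⟨F, hF, trunc F S y, J.map_trunc F.val y⟩

/-- An `S`-idele (`S` finite) all of whose components are `P`-smooth is `P`-smooth. -/
theorem mem_JP_of_forall_mem_LocP {S : Set Nat.Primes} (hS : S.Finite) {x : J Ω} (hx : x ∈ JS Ω S)
    (h : ∀ q ∈ S, (x : ∀ q : Nat.Primes, (Loc Ω q)ˣ) q ∈ LocP hP q) : x ∈ JP hP := by
  classical
  have hex : ∀ q : Nat.Primes, ∃ F : IntermediateField ℚ Ω, P F ∧
      (x : ∀ q : Nat.Primes, (Loc Ω q)ˣ) q ∈ (Loc.unitsMap q F.val).range := by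
    intro q
    by_cases hq : q ∈ S
    · exact h q hq
    · exact ⟨⊥, hP.bot, by rw [hx q hq]; exact Subgroup.one_mem _⟩
  choose F hF hv using hex
  have hfin : ∀ T : Finset Nat.Primes, ∃ E : IntermediateField ℚ Ω, P E ∧ ∀ q ∈ T, F q ≤ E := by
    intro T
    induction T using Finset.induction_on with
    | empty => exact ⟨⊥, hP.bot, by simp⟩
    | insert a T _ ih =>
      obtain ⟨E, hE, hle⟩ := ih
      refine ⟨F a ⊔ E, hP.sup (hF a) hE, fun q hq => ?_⟩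
      rcases Finset.mem_insert.1 hq with rfl | hq
      · exact le_sup_left
      · exact (hle q hq).trans le_sup_right
  obtain ⟨E, hE, hle⟩ := hfin hS.toFinset
  have hcomp : ∀ q : Nat.Primes, ∃ w : (Loc E q)ˣ,
      Loc.unitsMap q E.val w = (x : ∀ q : Nat.Primes, (Loc Ω q)ˣ) q := by
    intro q
    by_cases hq : q ∈ S
    · exact Loc.range_unitsMap_mono q (hle q (hS.mem_toFinset.mpr hq)) (hv q)
    · exact ⟨1, by rw [map_one, hx q hq]⟩
  choose w hw using hcomp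
  have hwx : mapFun E.val w = (x : ∀ q : Nat.Primes, (Loc Ω q)ˣ) := funext hw
  have hwJ : w ∈ J E := by
    rw [← mapFun_mem_J_iff E.val, hwx]
    exact x.2
  exact ⟨E, hE, ⟨w, hwJ⟩, Subtype.ext hwx⟩

/-! ### Characterisation by invariance -/

theorem smul_eq_of_mem_range_unitsMap {q : Nat.Primes} {F : IntermediateField ℚ Ω}
    {u : (Loc Ω q)ˣ} (hu : u ∈ (Loc.unitsMap q F.val).range) (σ : Ω ≃ₐ[ℚ] Ω)
    (hσ : σ ∈ F.fixingSubgroup) : σ • u = u := by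
  obtain ⟨v, rfl⟩ := hu
  exact Loc.smul_unitsMap_of_fixes q F.val σ
    (fun a => (IntermediateField.mem_fixingSubgroup_iff F σ).mp hσ a a.2) v

theorem smul_eq_of_mem_range' {F : IntermediateField ℚ Ω} {x : J Ω}
    (hx : x ∈ (J.map F.val).range) (σ : Ω ≃ₐ[ℚ] Ω) (hσ : σ ∈ F.fixingSubgroup) : σ • x = x :=
  smul_eq_of_mem_range hx σ fun a => (IntermediateField.mem_fixingSubgroup_iff F σ).mp hσ a a.2

/-- For `Ω/ℚ` Galois, the elements of `Ω` fixed by `Gal(Ω/F)` are those of `F`. -/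
theorem mem_of_fixed [IsGalois ℚ Ω] (F : IntermediateField ℚ Ω) [FiniteDimensional ℚ F] {a : Ω}
    (ha : ∀ σ ∈ F.fixingSubgroup, σ a = a) : a ∈ F := by
  have h1 : a ∈ IntermediateField.fixedField F.fixingSubgroup := by
    rw [IntermediateField.mem_fixedField_iff]
    exact ha
  rwa [InfiniteGalois.fixedField_fixingSubgroup] at h1

theorem mem_range_val_of_fixed [IsGalois ℚ Ω] (F : IntermediateField ℚ Ω) [FiniteDimensional ℚ F]
    (a : Ω) (ha : ∀ σ ∈ (F.fixingSubgroup : Set (Ω ≃ₐ[ℚ] Ω)), σ a = a) : a ∈ F.val.range :=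
  ⟨⟨a, mem_of_fixed F ha⟩, rfl⟩

/-- **Level invariants of the ideles**: for `Ω/ℚ` Galois, the ideles of `Ω` fixed by `Gal(Ω/F)`
are those of `F`. -/
theorem J.mem_range_map_val_iff [IsGalois ℚ Ω] (F : IntermediateField ℚ Ω)
    [FiniteDimensional ℚ F] {x : J Ω} :
    x ∈ (J.map F.val).range ↔ ∀ σ ∈ F.fixingSubgroup, σ • x = x :=
  ⟨fun hx σ hσ => smul_eq_of_mem_range' hx σ hσ, fun hx =>
    J.mem_range_map_of_fixed F.val (F.fixingSubgroup : Set (Ω ≃ₐ[ℚ] Ω))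
      (mem_range_val_of_fixed F) x hx⟩

/-- **Level invariants of the local units**. -/
theorem Loc.mem_range_unitsMap_val_iff [IsGalois ℚ Ω] (F : IntermediateField ℚ Ω)
    [FiniteDimensional ℚ F] {q : Nat.Primes} {u : (Loc Ω q)ˣ} :
    u ∈ (Loc.unitsMap q F.val).range ↔ ∀ σ ∈ F.fixingSubgroup, σ • u = u :=
  ⟨fun hu σ hσ => smul_eq_of_mem_range_unitsMap hu σ hσ, fun hu =>
    Loc.mem_range_unitsMap_of_fixed q F.val (F.fixingSubgroup : Set (Ω ≃ₐ[ℚ] Ω))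
      (mem_range_val_of_fixed F) u hu⟩

theorem mem_JP_iff_fixed [IsGalois ℚ Ω] {x : J Ω} :
    x ∈ JP hP ↔ ∃ F : IntermediateField ℚ Ω, P F ∧ ∀ σ ∈ F.fixingSubgroup, σ • x = x := by
  constructor
  · rintro ⟨F, hF, hx⟩
    have := hP.fin hF
    exact ⟨F, hF, (J.mem_range_map_val_iff F).mp hx⟩
  · rintro ⟨F, hF, hx⟩
    have := hP.fin hF
    exact ⟨F, hF, (J.mem_range_map_val_iff F).mpr hx⟩

theorem mem_LocP_iff_fixed [IsGalois ℚ Ω] {q : Nat.Primes} {u : (Loc Ω q)ˣ} :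
    u ∈ LocP hP q ↔ ∃ F : IntermediateField ℚ Ω, P F ∧ ∀ σ ∈ F.fixingSubgroup, σ • u = u := by
  constructor
  · rintro ⟨F, hF, hx⟩
    have := hP.fin hF
    exact ⟨F, hF, (Loc.mem_range_unitsMap_val_iff F).mp hx⟩
  · rintro ⟨F, hF, hx⟩
    have := hP.fin hF
    exact ⟨F, hF, (Loc.mem_range_unitsMap_val_iff F).mpr hx⟩

theorem mem_UP_iff_fixed [IsGalois ℚ Ω] {a : Ωˣ} :
    a ∈ UP hP ↔ ∃ F : IntermediateField ℚ Ω, P F ∧ ∀ σ ∈ F.fixingSubgroup, σ • a = a := by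
  constructor
  · rintro ⟨F, hF, ha⟩
    refine ⟨F, hF, fun σ hσ => Units.ext ?_⟩
    exact (IntermediateField.mem_fixingSubgroup_iff F σ).mp hσ a ha
  · rintro ⟨F, hF, ha⟩
    have := hP.fin hF
    exact ⟨F, hF, mem_of_fixed F fun σ hσ => congrArg (fun v : Ωˣ => (v : Ω)) (ha σ hσ)⟩

/-- A principal idele is `P`-smooth iff its generator lies in a field of the family. -/
theorem diag_mem_JP_iff [IsGalois ℚ Ω] {a : Ωˣ} : diag Ω a ∈ JP hP ↔ a ∈ UP hP := by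
  rw [mem_JP_iff_fixed, mem_UP_iff_fixed]
  refine exists_congr fun F => and_congr_right fun _ => forall₂_congr fun σ _ => ?_
  rw [smul_diag]
  constructor
  · intro h
    exact diag_injective Ω h
  · intro h
    exact congrArg (diag Ω) h

end Defs

end Fermat.Agent.CFT.Idele
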