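import Mathlib
import Fermat.Agent.CFT.Idele.SmoothP

/-!
# PROJECT C, slice C2 (ideles), part 11: the smooth `S`-modules `E_S ≤ J_S → C_S` of `Ω_P`

`Ω/ℚ` algebraic (think `ℚ̄`), `P` a field filter (think `P F = F.IsUnramifiedOutside S`, so that
`Ω_P = ⋃_{P F} F = ℚ_S`), `S` a set of primes.  We define the `Gal(Ω/ℚ)`-modules

* `ED hP S : Subgroup Ωˣ`       — the `S`-units of `Ω_P`             (`E_S = lim E_S(F)`),
* `JD hP S : Subgroup (J Ω)`    — the `S`-ideles of `Ω_P`            (`J_S = lim ∏_{q ∈ S} (F ⊗ ℚ_q)ˣ`),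
* `CD hP S : Subgroup (CS Ω S)` — the `S`-idele classes of `Ω_P`     (`C_S = lim C_S(F)`),
* `LocP hP q`                    — the `q`-component                  (`J_q = lim (F ⊗ ℚ_q)ˣ`),

the equivariant maps `ED.diag : E_S → J_S`, `JD.toCD : J_S → C_S`, `JD.proj q : J_S → J_q`,
`JD.single q : J_q → J_S`, exactness of `1 → E_S → J_S → C_S` and the product decomposition
`JD.prodEquiv : J_S ≃* ∏_{q ∈ S} J_q` (`S` finite).
-/

set_option autoImplicit false
set_option linter.unusedSectionVars false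

open scoped TensorProduct

noncomputable section

namespace Fermat.Agent.CFT.Idele

attribute [local instance 2000] IntermediateField.algebra'

section Defs

variable {Ω : Type*} [Field Ω] [Algebra ℚ Ω] [Algebra.IsAlgebraic ℚ Ω]
  {P : IntermediateField ℚ Ω → Prop} (hP : IsFieldFilter P) (S : Set Nat.Primes)

/-- The `S`-units of `Ω_P`. -/
def ED : Subgroup Ωˣ := UP hP ⊓ TUnits Ω S

/-- The `S`-ideles of `Ω_P`. -/
def JD : Subgroup (J Ω) := JP hP ⊓ JS Ω S

/-- The `S`-idele classes of `Ω_P`: the image of the `P`-smooth ideles in `C_S(Ω)`. -/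
def CD : Subgroup (CS Ω S) := (JP hP).map (toCS Ω S)

variable {hP S}

theorem mem_ED {a : Ωˣ} : a ∈ ED hP S ↔ a ∈ UP hP ∧ a ∈ TUnits Ω S := Iff.rfl

theorem mem_JD {x : J Ω} : x ∈ JD hP S ↔ x ∈ JP hP ∧ x ∈ JS Ω S := Iff.rfl

theorem mem_CD {c : CS Ω S} : c ∈ CD hP S ↔ ∃ x ∈ JP hP, toCS Ω S x = c := Iff.rfl

theorem toCS_mem_CD {x : J Ω} (hx : x ∈ JP hP) : toCS Ω S x ∈ CD hP S := ⟨x, hx, rfl⟩

/-! ### The Galois action -/

theorem smul_mem_ED (σ : Ω ≃ₐ[ℚ] Ω) {a : Ωˣ} (ha : a ∈ ED hP S) : σ • a ∈ ED hP S :=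
  ⟨smul_mem_UP σ ha.1, smul_mem_TUnits σ ha.2⟩

theorem smul_mem_JD (σ : Ω ≃ₐ[ℚ] Ω) {x : J Ω} (hx : x ∈ JD hP S) : σ • x ∈ JD hP S :=
  ⟨smul_mem_JP σ hx.1, (smul_mem_JS_iff σ x).mpr hx.2⟩

theorem smul_mem_CD (σ : Ω ≃ₐ[ℚ] Ω) {c : CS Ω S} (hc : c ∈ CD hP S) : σ • c ∈ CD hP S := by
  obtain ⟨x, hx, rfl⟩ := hc
  exact ⟨σ • x, smul_mem_JP σ hx, (smul_toCS σ x).symm⟩

variable (hP S)

instance instMulDistribMulActionED : MulDistribMulAction (Ω ≃ₐ[ℚ] Ω) (ED hP S) :=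
  subgroupAction (ED hP S) fun σ _ ha => smul_mem_ED σ ha

instance instMulDistribMulActionJD : MulDistribMulAction (Ω ≃ₐ[ℚ] Ω) (JD hP S) :=
  subgroupAction (JD hP S) fun σ _ hx => smul_mem_JD σ hx

instance instMulDistribMulActionCD : MulDistribMulAction (Ω ≃ₐ[ℚ] Ω) (CD hP S) :=
  subgroupAction (CD hP S) fun σ _ hc => smul_mem_CD σ hc

instance instMulDistribMulActionLocP (q : Nat.Primes) :
    MulDistribMulAction (Ω ≃ₐ[ℚ] Ω) (LocP hP q) :=
  subgroupAction (LocP hP q) fun σ _ hu => smul_mem_LocP σ hu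

instance instMulDistribMulActionUP : MulDistribMulAction (Ω ≃ₐ[ℚ] Ω) (UP hP) :=
  subgroupAction (UP hP) fun σ _ ha => smul_mem_UP σ ha

instance instMulDistribMulActionJP : MulDistribMulAction (Ω ≃ₐ[ℚ] Ω) (JP hP) :=
  subgroupAction (JP hP) fun σ _ hx => smul_mem_JP σ hx

variable {hP S}

theorem ED.coe_smul (σ : Ω ≃ₐ[ℚ] Ω) (a : ED hP S) : ((σ • a : ED hP S) : Ωˣ) = σ • (a : Ωˣ) := rfl

theorem JD.coe_smul (σ : Ω ≃ₐ[ℚ] Ω) (x : JD hP S) : ((σ • x : JD hP S) : J Ω) = σ • (x : J Ω) :=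
  rfl

theorem CD.coe_smul (σ : Ω ≃ₐ[ℚ] Ω) (c : CD hP S) :
    ((σ • c : CD hP S) : CS Ω S) = σ • (c : CS Ω S) := rfl

theorem LocP.coe_smul (σ : Ω ≃ₐ[ℚ] Ω) {q : Nat.Primes} (u : LocP hP q) :
    ((σ • u : LocP hP q) : (Loc Ω q)ˣ) = σ • (u : (Loc Ω q)ˣ) := rfl

/-! ### The maps `E_S → J_S → C_S` -/

theorem diagS_mem_JP {a : Ωˣ} (ha : a ∈ ED hP S) :
    (diagS Ω S ⟨a, ha.2⟩ : J Ω) ∈ JP hP := by
  obtain ⟨F, hF, haF⟩ := ha.1
  have := hP.fin hF
  have ha0 : (⟨(a : Ω), haF⟩ : F) ≠ 0 := fun h => a.ne_zero (congrArg Subtype.val h)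
  rw [diagS_val]
  apply trunc_mem_JP
  refine ⟨F, hF, diag F (Units.mk0 _ ha0), ?_⟩
  rw [J.map_diag]
  congr 1
  exact Units.ext rfl

variable (hP S)

/-- The `S`-units of `Ω_P` inside its `S`-ideles. -/
def ED.diag : ED hP S →* JD hP S where
  toFun a := ⟨diagS Ω S ⟨a.1, a.2.2⟩, diagS_mem_JP a.2, (diagS Ω S ⟨a.1, a.2.2⟩).2⟩
  map_one' := by
    apply Subtype.ext
    have : (⟨((1 : ED hP S) : Ωˣ), (1 : ED hP S).2.2⟩ : TUnits Ω S) = 1 := rfl
    show ((diagS Ω S ⟨((1 : ED hP S) : Ωˣ), _⟩ : JS Ω S) : J Ω) = 1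
    rw [this, map_one]
    rfl
  map_mul' a b := by
    apply Subtype.ext
    have : (⟨((a * b : ED hP S) : Ωˣ), (a * b).2.2⟩ : TUnits Ω S)
        = ⟨a.1, a.2.2⟩ * ⟨b.1, b.2.2⟩ := rfl
    show ((diagS Ω S ⟨((a * b : ED hP S) : Ωˣ), _⟩ : JS Ω S) : J Ω) = _
    rw [this, map_mul]
    rfl

/-- The `S`-ideles of `Ω_P` to its `S`-idele classes. -/
def JD.toCD : JD hP S →* CD hP S where
  toFun x := ⟨toCS Ω S x.1, toCS_mem_CD x.2.1⟩
  map_one' := Subtype.ext (map_one (toCS Ω S))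
  map_mul' x y := Subtype.ext (map_mul (toCS Ω S) x.1 y.1)

variable {hP S}

theorem ED.diag_val (a : ED hP S) :
    ((ED.diag hP S a : JD hP S) : J Ω) = trunc Ω S (Idele.diag Ω a.1) := rfl

theorem JD.toCD_val (x : JD hP S) : ((JD.toCD hP S x : CD hP S) : CS Ω S) = toCS Ω S x.1 := rfl

theorem ED.diag_smul (σ : Ω ≃ₐ[ℚ] Ω) (a : ED hP S) :
    ED.diag hP S (σ • a) = σ • ED.diag hP S a := by
  apply Subtype.ext
  rw [JD.coe_smul, ED.diag_val, ED.diag_val, smul_trunc, ED.coe_smul, smul_diag]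
  rfl

theorem JD.toCD_smul (σ : Ω ≃ₐ[ℚ] Ω) (x : JD hP S) :
    JD.toCD hP S (σ • x) = σ • JD.toCD hP S x := by
  apply Subtype.ext
  rw [CD.coe_smul, JD.toCD_val, JD.toCD_val, smul_toCS]
  rfl

theorem JD.toCD_diag (a : ED hP S) : JD.toCD hP S (ED.diag hP S a) = 1 := by
  apply Subtype.ext
  rw [JD.toCD_val]
  exact toCS_diagS (⟨a.1, a.2.2⟩ : TUnits Ω S)

theorem ED.diag_injective (hS : S.Nonempty) : Function.Injective (ED.diag hP S) := by
  intro a b hab
  have h1 : diagS Ω S ⟨a.1, a.2.2⟩ = diagS Ω S ⟨b.1, b.2.2⟩ := by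
    apply Subtype.ext
    exact congrArg (fun x : JD hP S => (x : J Ω)) hab
  have h2 := diagS_injective Ω S hS h1
  apply Subtype.ext
  exact congrArg (fun x : TUnits Ω S => (x : Ωˣ)) h2

/-- **Exactness at `J_S`**: an `S`-idele of `Ω_P` with trivial class is an `S`-unit of `Ω_P`. -/
theorem JD.toCD_eq_one_iff [IsGalois ℚ Ω] (hS : S.Nonempty) (x : JD hP S) :
    JD.toCD hP S x = 1 ↔ ∃ a : ED hP S, ED.diag hP S a = x := by
  constructor
  · intro h
    have h1 : toCS Ω S x.1 = 1 := congrArg (fun c : CD hP S => (c : CS Ω S)) h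
    obtain ⟨a, ha⟩ := (toCS_eq_one_iff_of_mem_JS x.2.2).mp h1
    have haP : (a : Ωˣ) ∈ UP hP := by
      obtain ⟨F, hF, hxF⟩ := mem_JP_iff_fixed.mp x.2.1
      refine mem_UP_iff_fixed.mpr ⟨F, hF, fun σ hσ => ?_⟩
      have h2 : diagS Ω S (σ • a) = diagS Ω S a := by
        apply Subtype.ext
        rw [diagS_smul, JS.coe_smul, ha, hxF σ hσ]
      exact congrArg (fun b : TUnits Ω S => (b : Ωˣ)) (diagS_injective Ω S hS h2)
    exact ⟨⟨a.1, haP, a.2⟩, Subtype.ext ha⟩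
  · rintro ⟨a, rfl⟩
    exact JD.toCD_diag a

/-! ### The image of `J_S` in `C_S` -/

variable (hP S)

/-- The classes of the `S`-ideles of `Ω_P`: the image of `J_S` in `C_S` (`= J_S / E_S`).  The
quotient `CD / CD0` is the direct limit of the `S`-class groups of the fields of the family. -/
def CD0 : Subgroup (CS Ω S) := (JD hP S).map (toCS Ω S)

variable {hP S}

theorem mem_CD0 {c : CS Ω S} : c ∈ CD0 hP S ↔ ∃ x ∈ JD hP S, toCS Ω S x = c := Iff.rfl

theorem CD0_le_CD : CD0 hP S ≤ CD hP S := by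
  rintro _ ⟨x, hx, rfl⟩
  exact ⟨x, hx.1, rfl⟩

theorem smul_mem_CD0 (σ : Ω ≃ₐ[ℚ] Ω) {c : CS Ω S} (hc : c ∈ CD0 hP S) : σ • c ∈ CD0 hP S := by
  obtain ⟨x, hx, rfl⟩ := hc
  exact ⟨σ • x, smul_mem_JD σ hx, (smul_toCS σ x).symm⟩

variable (hP S)

instance instMulDistribMulActionCD0 : MulDistribMulAction (Ω ≃ₐ[ℚ] Ω) (CD0 hP S) :=
  subgroupAction (CD0 hP S) fun σ _ hc => smul_mem_CD0 σ hc

/-- `J_S → J_S / E_S`. -/
def JD.toCD0 : JD hP S →* CD0 hP S where
  toFun x := ⟨toCS Ω S x.1, x.1, x.2, rfl⟩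
  map_one' := Subtype.ext (map_one (toCS Ω S))
  map_mul' x y := Subtype.ext (map_mul (toCS Ω S) x.1 y.1)

/-- The inclusion `J_S / E_S → C_S`. -/
def CD0.incl : CD0 hP S →* CD hP S := Subgroup.inclusion CD0_le_CD

variable {hP S}

theorem CD0.coe_smul (σ : Ω ≃ₐ[ℚ] Ω) (c : CD0 hP S) :
    ((σ • c : CD0 hP S) : CS Ω S) = σ • (c : CS Ω S) := rfl

theorem JD.toCD0_val (x : JD hP S) : ((JD.toCD0 hP S x : CD0 hP S) : CS Ω S) = toCS Ω S x.1 := rfl

theorem JD.toCD0_surjective : Function.Surjective (JD.toCD0 hP S) := by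
  rintro ⟨_, x, hx, rfl⟩
  exact ⟨⟨x, hx⟩, rfl⟩

theorem JD.toCD0_smul (σ : Ω ≃ₐ[ℚ] Ω) (x : JD hP S) :
    JD.toCD0 hP S (σ • x) = σ • JD.toCD0 hP S x := by
  apply Subtype.ext
  rw [CD0.coe_smul, JD.toCD0_val, JD.toCD0_val, smul_toCS]
  rfl

theorem CD0.incl_toCD0 (x : JD hP S) : CD0.incl hP S (JD.toCD0 hP S x) = JD.toCD hP S x := rfl

theorem CD0.incl_injective : Function.Injective (CD0.incl hP S) :=
  Subgroup.inclusion_injective CD0_le_CD

theorem CD0.incl_smul (σ : Ω ≃ₐ[ℚ] Ω) (c : CD0 hP S) :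
    CD0.incl hP S (σ • c) = σ • CD0.incl hP S c := rfl

theorem JD.toCD0_diag (a : ED hP S) : JD.toCD0 hP S (ED.diag hP S a) = 1 := by
  apply Subtype.ext
  rw [JD.toCD0_val]
  exact toCS_diagS (⟨a.1, a.2.2⟩ : TUnits Ω S)

theorem JD.toCD0_eq_one_iff [IsGalois ℚ Ω] (hS : S.Nonempty) (x : JD hP S) :
    JD.toCD0 hP S x = 1 ↔ ∃ a : ED hP S, ED.diag hP S a = x := by
  rw [← JD.toCD_eq_one_iff hS x, ← CD0.incl_toCD0]
  constructor
  · intro h
    rw [h, map_one]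
  · intro h
    apply CD0.incl_injective
    rw [h, map_one]

/-! ### Components -/

variable (hP S)

/-- The `q`-component of an `S`-idele of `Ω_P`. -/
def JD.proj (q : Nat.Primes) : JD hP S →* LocP hP q where
  toFun x := ⟨(x.1 : ∀ q : Nat.Primes, (Loc Ω q)ˣ) q, apply_mem_LocP x.2.1 q⟩
  map_one' := rfl
  map_mul' _ _ := rfl

variable {hP S}

theorem JD.proj_val (q : Nat.Primes) (x : JD hP S) :
    ((JD.proj hP S q x : LocP hP q) : (Loc Ω q)ˣ) = (x.1 : ∀ q : Nat.Primes, (Loc Ω q)ˣ) q := rfl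

theorem JD.proj_smul (σ : Ω ≃ₐ[ℚ] Ω) (q : Nat.Primes) (x : JD hP S) :
    JD.proj hP S q (σ • x) = σ • JD.proj hP S q x := rfl

theorem JD.proj_eq_one_of_notMem {q : Nat.Primes} (hq : q ∉ S) (x : JD hP S) :
    JD.proj hP S q x = 1 := Subtype.ext (x.2.2 q hq)

theorem JD.ext {x y : JD hP S} (h : ∀ q ∈ S, JD.proj hP S q x = JD.proj hP S q y) : x = y := by
  apply Subtype.ext
  apply J.ext'
  intro q
  by_cases hq : q ∈ S
  · exact congrArg (fun u : LocP hP q => (u : (Loc Ω q)ˣ)) (h q hq)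
  · rw [x.2.2 q hq, y.2.2 q hq]

end Defs

/-! ### Ideles concentrated at one prime -/

section Single

variable {K L : Type*} [Field K] [Field L] [Algebra ℚ K] [Algebra ℚ L]

/-- The idele with component `u` at `q` and `1` elsewhere. -/
def J.single (q : Nat.Primes) : (Loc L q)ˣ →* J L where
  toFun u := ⟨Pi.mulSingle (M := fun q : Nat.Primes => (Loc L q)ˣ) q u, by
    refine (Set.finite_singleton q).subset ?_
    intro q' hq'
    by_contra h
    apply hq'
    have h' : q' ≠ q := h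
    show Pi.mulSingle (M := fun q : Nat.Primes => (Loc L q)ˣ) q u q' ∈ intUnits L q'
    rw [Pi.mulSingle_eq_of_ne h']
    exact (intUnits L q').one_mem⟩
  map_one' := Subtype.ext (Pi.mulSingle_one (M := fun q : Nat.Primes => (Loc L q)ˣ) q)
  map_mul' u v := Subtype.ext (Pi.mulSingle_mul (f := fun q : Nat.Primes => (Loc L q)ˣ) q u v)

theorem J.single_apply_same (q : Nat.Primes) (u : (Loc L q)ˣ) :
    ((J.single q u : J L) : ∀ q : Nat.Primes, (Loc L q)ˣ) q = u := by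
  show Pi.mulSingle (M := fun q : Nat.Primes => (Loc L q)ˣ) q u q = u
  exact Pi.mulSingle_eq_same (M := fun q : Nat.Primes => (Loc L q)ˣ) q u

theorem J.single_apply_of_ne {q q' : Nat.Primes} (h : q' ≠ q) (u : (Loc L q)ˣ) :
    ((J.single q u : J L) : ∀ q : Nat.Primes, (Loc L q)ˣ) q' = 1 := by
  show Pi.mulSingle (M := fun q : Nat.Primes => (Loc L q)ˣ) q u q' = 1
  exact Pi.mulSingle_eq_of_ne (M := fun q : Nat.Primes => (Loc L q)ˣ) h u

theorem J.single_injective (q : Nat.Primes) : Function.Injective (J.single (L := L) q) := by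
  intro u v h
  rw [← J.single_apply_same q u, ← J.single_apply_same q v, h]

theorem J.map_single (f : K →ₐ[ℚ] L) (q : Nat.Primes) (u : (Loc K q)ˣ) :
    J.map f (J.single q u) = J.single q (Loc.unitsMap q f u) := by
  apply J.ext'
  intro q'
  rw [J.map_apply']
  by_cases h : q' = q
  · subst h
    rw [J.single_apply_same, J.single_apply_same]
  · rw [J.single_apply_of_ne h, J.single_apply_of_ne h, map_one]

theorem J.smul_single (σ : L ≃ₐ[ℚ] L) (q : Nat.Primes) (u : (Loc L q)ˣ) :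
    σ • J.single q u = J.single q (σ • u) := J.map_single (σ : L →ₐ[ℚ] L) q u

theorem J.single_mem_JS {S : Set Nat.Primes} {q : Nat.Primes} (hq : q ∈ S) (u : (Loc L q)ˣ) :
    J.single q u ∈ JS L S := by
  intro q' hq'
  have h : q' ≠ q := fun h => hq' (h ▸ hq)
  exact J.single_apply_of_ne h u

/-- A finitely supported idele is the product of its components. -/
theorem J.prod_single {S : Finset Nat.Primes} {x : J L} (hx : x ∈ JS L (S : Set Nat.Primes)) :
    ∏ q ∈ S, J.single q ((x : ∀ q : Nat.Primes, (Loc L q)ˣ) q) = x := by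
  classical
  apply J.ext'
  intro q'
  have h1 : ((∏ q ∈ S, J.single q ((x : ∀ q : Nat.Primes, (Loc L q)ˣ) q) : J L) :
      ∀ q : Nat.Primes, (Loc L q)ˣ) q'
      = ∏ q ∈ S, ((J.single q ((x : ∀ q : Nat.Primes, (Loc L q)ˣ) q) : J L) :
          ∀ q : Nat.Primes, (Loc L q)ˣ) q' := by
    have h2 : ((∏ q ∈ S, J.single q ((x : ∀ q : Nat.Primes, (Loc L q)ˣ) q) : J L) :
        ∀ q : Nat.Primes, (Loc L q)ˣ)
        = ∏ q ∈ S, ((J.single q ((x : ∀ q : Nat.Primes, (Loc L q)ˣ) q) : J L) :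
            ∀ q : Nat.Primes, (Loc L q)ˣ) := map_prod (J L).subtype _ S
    rw [h2, Finset.prod_apply]
  rw [h1]
  by_cases hq' : q' ∈ S
  · rw [Finset.prod_eq_single q']
    · exact J.single_apply_same q' _
    · intro q _ hne
      exact J.single_apply_of_ne hne.symm _
    · intro h
      exact absurd hq' h
  · rw [Finset.prod_eq_one]
    · exact (hx q' hq').symm
    · intro q hq
      have hne : q' ≠ q := fun h => hq' (h ▸ hq)
      exact J.single_apply_of_ne hne _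

end Single

section Prod

variable {Ω : Type*} [Field Ω] [Algebra ℚ Ω] [Algebra.IsAlgebraic ℚ Ω]
  {P : IntermediateField ℚ Ω → Prop} {hP : IsFieldFilter P} {S : Set Nat.Primes}

theorem single_mem_JP {q : Nat.Primes} {u : (Loc Ω q)ˣ} (hu : u ∈ LocP hP q) :
    J.single q u ∈ JP hP := by
  obtain ⟨F, hF, v, rfl⟩ := hu
  exact ⟨F, hF, J.single q v, J.map_single F.val q v⟩

variable (hP S)

/-- The inclusion of the `q`-component (`q ∈ S`) into the `S`-ideles of `Ω_P`. -/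
def JD.single (q : Nat.Primes) (hq : q ∈ S) : LocP hP q →* JD hP S where
  toFun u := ⟨J.single q u.1, single_mem_JP u.2, J.single_mem_JS hq u.1⟩
  map_one' := Subtype.ext (map_one (J.single q))
  map_mul' u v := Subtype.ext (map_mul (J.single q) u.1 v.1)

variable {hP S}

theorem JD.single_val {q : Nat.Primes} (hq : q ∈ S) (u : LocP hP q) :
    ((JD.single hP S q hq u : JD hP S) : J Ω) = J.single q u.1 := rfl

theorem JD.single_smul (σ : Ω ≃ₐ[ℚ] Ω) {q : Nat.Primes} (hq : q ∈ S) (u : LocP hP q) :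
    JD.single hP S q hq (σ • u) = σ • JD.single hP S q hq u := by
  apply Subtype.ext
  rw [JD.coe_smul, JD.single_val, JD.single_val, J.smul_single]
  rfl

theorem JD.proj_single_same {q : Nat.Primes} (hq : q ∈ S) (u : LocP hP q) :
    JD.proj hP S q (JD.single hP S q hq u) = u :=
  Subtype.ext (J.single_apply_same q u.1)

theorem JD.proj_single_of_ne {q q' : Nat.Primes} (hq : q ∈ S) (h : q' ≠ q) (u : LocP hP q) :
    JD.proj hP S q' (JD.single hP S q hq u) = 1 :=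
  Subtype.ext (J.single_apply_of_ne h u.1)

theorem JD.single_injective {q : Nat.Primes} (hq : q ∈ S) :
    Function.Injective (JD.single hP S q hq) := by
  intro u v h
  rw [← JD.proj_single_same hq u, ← JD.proj_single_same hq v, h]

/-- An `S`-idele of `Ω_P` (`S` a finset) is the product of its components. -/
theorem JD.prod_single_proj {T : Finset Nat.Primes} (x : JD hP (T : Set Nat.Primes)) :
    ∏ q ∈ T.attach, JD.single hP (T : Set Nat.Primes) q.1 (Finset.mem_coe.mpr q.2)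
      (JD.proj hP (T : Set Nat.Primes) q.1 x) = x := by
  apply Subtype.ext
  rw [← Subgroup.subtype_apply, map_prod]
  have h := J.prod_single (x := x.1) x.2.2
  rw [← Finset.prod_attach] at h
  exact h

variable (hP S)

open Classical in
/-- **`J_S = ∏_{q ∈ S} J_q`** for the `S`-ideles of `Ω_P` (`S` finite). -/
def JD.prodEquiv (hS : S.Finite) : JD hP S ≃* (∀ q : S, LocP hP q.1) where
  toFun x q := JD.proj hP S q.1 x
  invFun y := ⟨(JSprod Ω S hS).symm fun q => (y q).1, by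
    refine mem_JP_of_forall_mem_LocP hS ((JSprod Ω S hS).symm fun q => (y q).1).2 fun q hq => ?_
    have h1 : ((((JSprod Ω S hS).symm fun q => (y q).1 : JS Ω S) : J Ω) :
        ∀ q : Nat.Primes, (Loc Ω q)ˣ) q = (y ⟨q, hq⟩).1 := by
      have h2 := JSprod_apply Ω S hS ((JSprod Ω S hS).symm fun q => (y q).1) ⟨q, hq⟩
      rw [MulEquiv.apply_symm_apply] at h2
      exact h2.symm
    rw [h1]
    exact (y ⟨q, hq⟩).2, ((JSprod Ω S hS).symm fun q => (y q).1).2⟩
  left_inv x := by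
    apply Subtype.ext
    have h1 : (fun q : S => ((JD.proj hP S q.1 x : LocP hP q.1) : (Loc Ω q.1)ˣ))
        = JSprod Ω S hS ⟨x.1, x.2.2⟩ := rfl
    show (((JSprod Ω S hS).symm fun q : S =>
      ((JD.proj hP S q.1 x : LocP hP q.1) : (Loc Ω q.1)ˣ) : JS Ω S) : J Ω) = x.1
    rw [h1, MulEquiv.symm_apply_apply]
  right_inv y := by
    funext q
    apply Subtype.ext
    have h2 := JSprod_apply Ω S hS ((JSprod Ω S hS).symm fun q => (y q).1) q
    rw [MulEquiv.apply_symm_apply] at h2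
    exact h2.symm
  map_mul' x y := rfl

variable {hP S}

theorem JD.prodEquiv_apply (hS : S.Finite) (x : JD hP S) (q : S) :
    JD.prodEquiv hP S hS x q = JD.proj hP S q.1 x := rfl

theorem JD.prodEquiv_smul (hS : S.Finite) (σ : Ω ≃ₐ[ℚ] Ω) (x : JD hP S) (q : S) :
    JD.prodEquiv hP S hS (σ • x) q = σ • JD.prodEquiv hP S hS x q := rfl

end Prod

end Fermat.Agent.CFT.Idele
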