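import Mathlib
import Fermat.Agent.CFT.Idele.SmoothS

/-!
# PROJECT C, slice C2 (ideles), part 15: finite levels of the smooth `S`-modules

`Ω/ℚ` Galois, `hP : IsFieldFilter P`, `F` a field of the family (`hF : P F`).  We compare the
`Gal(Ω/F)`-invariants of the modules of `SmoothS.lean` with the corresponding modules of `F`:

* `LocP.ofLevel hP q hF : (Loc F q)ˣ →* LocP hP q`, `JD.ofLevel hP S hF : JS F S →* JD hP S`,
  `ED.ofLevel hP S hF : TUnits F S →* ED hP S`, `CD.ofLevel hP S hF : CS F S →* CD hP S`;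
* they are injective (`S ≠ ∅` for `CD`), compatible with `diagS`/`ED.diag`, `toCS`/`JD.toCD`,
  components/`JD.proj`, and equivariant for `Gal(Ω/ℚ) → Gal(F/ℚ)` when `F/ℚ` is normal;
* their ranges are the `Gal(Ω/F)`-invariants: `LocP.mem_range_ofLevel_iff`,
  `JD.mem_range_ofLevel_iff`, `ED.mem_range_ofLevel_iff` (unconditional) and
  `CD.mem_range_ofLevel_iff` (given `H¹(Gal(F'/F), U^S(F')) = 1` for the normal `F' ⊇ F` of the
  family, hypothesis `H1USVanishes`).
-/

set_option autoImplicit false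
set_option linter.unusedSectionVars false
set_option linter.style.haveILetI false

noncomputable section

namespace Fermat.Agent.CFT.Idele

attribute [local instance 2000] IntermediateField.algebra'

/-! ### Complements on `CS.map` -/

section CSmap

variable {K L M : Type*} [Field K] [Field L] [Field M] [Algebra ℚ K] [Algebra ℚ L] [Algebra ℚ M]
  [Algebra.IsAlgebraic ℚ K] [Algebra.IsAlgebraic ℚ L] [Algebra.IsAlgebraic ℚ M]
  {S : Set Nat.Primes}

theorem CS.map_comp (g : L →ₐ[ℚ] M) (f : K →ₐ[ℚ] L) (x : CS K S) :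
    CS.map (S := S) (g.comp f) x = CS.map g (CS.map f x) := by
  obtain ⟨y, rfl⟩ := toCS_surjective K S x
  rw [CS.map_toCS, CS.map_toCS, CS.map_toCS, J.map_comp]

theorem CS.smul_eq_map (σ : L ≃ₐ[ℚ] L) (x : CS L S) : σ • x = CS.map (σ : L →ₐ[ℚ] L) x := by
  obtain ⟨y, rfl⟩ := toCS_surjective L S x
  rfl

/-- `CS.map` is equivariant for compatible automorphisms. -/
theorem CS.map_smul (f : K →ₐ[ℚ] L) (σ : K ≃ₐ[ℚ] K) (τ : L ≃ₐ[ℚ] L)
    (h : ∀ a : K, τ (f a) = f (σ a)) (y : CS K S) : CS.map f (σ • y) = τ • CS.map f y := by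
  have e : f.comp (σ : K →ₐ[ℚ] K) = (τ : L →ₐ[ℚ] L).comp f := AlgHom.ext fun a => (h a).symm
  rw [CS.smul_eq_map, CS.smul_eq_map, ← CS.map_comp, ← CS.map_comp, e]

/-- Classes coming from `K` are fixed by the automorphisms of `L` over `K`. -/
theorem CS.smul_map_of_fixes (f : K →ₐ[ℚ] L) (σ : L ≃ₐ[ℚ] L) (hσ : ∀ a : K, σ (f a) = f a)
    (y : CS K S) : σ • CS.map f y = CS.map f y := by
  obtain ⟨x, rfl⟩ := toCS_surjective K S y
  rw [CS.map_toCS, smul_toCS, J.smul_map_of_fixes f σ hσ]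

/-- `C_S(K) → C_S(L)` is injective when `K` is the fixed field of a set of automorphisms of `L`
(and `S ≠ ∅`). -/
theorem CS.map_injective_of_fixed (hS : S.Nonempty) (f : K →ₐ[ℚ] L) (G : Set (L ≃ₐ[ℚ] L))
    (hG : ∀ σ ∈ G, ∀ a : K, σ (f a) = f a)
    (hfix : ∀ a : L, (∀ σ ∈ G, σ a = a) → a ∈ f.range) :
    Function.Injective (CS.map (S := S) f) := by
  rw [injective_iff_map_eq_one]
  intro c hc
  obtain ⟨x, rfl⟩ := toCS_surjective K S c
  rw [CS.map_toCS] at hc
  obtain ⟨b, u, hu, hbu⟩ := toCS_eq_one_iff.mp hc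
  have hinv : ∀ σ ∈ G, (σ • b = b) ∧ σ • u = u := by
    intro σ hσ
    have h1 : σ • J.map f x = J.map f x := J.smul_map_of_fixes f σ (hG σ hσ) x
    rw [hbu, smul_mul', smul_diag] at h1
    exact diag_mul_unique hS (smul_mem_US _ hu) hu h1
  obtain ⟨u', hu'⟩ := J.mem_range_map_of_fixed f G hfix u (fun σ hσ => (hinv σ hσ).2)
  have hb : (b : L) ∈ f.range :=
    hfix (b : L) (fun σ hσ => congrArg (fun v : Lˣ => (v : L)) (hinv σ hσ).1)
  obtain ⟨b', hb'⟩ := (AlgHom.mem_range f).mp hb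
  have hb0 : b' ≠ 0 := by
    rintro rfl
    rw [map_zero] at hb'
    exact b.ne_zero hb'.symm
  have hx : x = diag K (Units.mk0 b' hb0) * u' := by
    apply J.map_injective f
    rw [map_mul, J.map_diag, hu', hbu]
    congr 2
    apply Units.ext
    exact hb'.symm
  rw [hx]
  refine toCS_eq_one_iff.mpr ⟨_, u', ?_, rfl⟩
  rw [← J.map_mem_US_iff f, hu']
  exact hu

end CSmap

section Level

variable {Ω : Type*} [Field Ω] [Algebra ℚ Ω] [Algebra.IsAlgebraic ℚ Ω]
  {P : IntermediateField ℚ Ω → Prop} (hP : IsFieldFilter P) (S : Set Nat.Primes)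
  {F : IntermediateField ℚ Ω} (hF : P F)

/- Shortcut instances: the default search for the action of `Gal(F/ℚ)` on `Fˣ` is very slow for
an intermediate field `F`. -/
local instance (priority := 3000) unitsActionIF (F : IntermediateField ℚ Ω) :
    MulDistribMulAction (F ≃ₐ[ℚ] F) (↥F)ˣ := AlgEquiv.instMulDistribMulActionUnits

local instance (priority := 3000) unitsSMulIF (F : IntermediateField ℚ Ω) :
    SMul (F ≃ₐ[ℚ] F) (↥F)ˣ := (unitsActionIF F).toSMul

/-! ### The maps from level `F` -/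

/-- `(F ⊗ ℚ_q)ˣ → J_q`. -/
def LocP.ofLevel (q : Nat.Primes) : (Loc F q)ˣ →* LocP hP q where
  toFun u := ⟨Loc.unitsMap q F.val u, Loc.unitsMap_val_mem_LocP hF u⟩
  map_one' := Subtype.ext (map_one _)
  map_mul' u v := Subtype.ext (map_mul _ u v)

/-- `J_S(F) → J_S`. -/
def JD.ofLevel : JS F S →* JD hP S where
  toFun y := ⟨J.map F.val y.1, J.map_val_mem_JP hF y.1, (J.map_mem_JS_iff F.val y.1).mpr y.2⟩
  map_one' := Subtype.ext (map_one _)
  map_mul' y z := Subtype.ext (map_mul _ y.1 z.1)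

/-- `E_S(F) → E_S`. -/
def ED.ofLevel : TUnits F S →* ED hP S where
  toFun a := ⟨Units.map (F.val : F →* Ω) a.1, ⟨F, hF, (a.1 : F).2⟩,
    (map_mem_TUnits_iff F.val a.1).mpr a.2⟩
  map_one' := Subtype.ext (map_one _)
  map_mul' a b := Subtype.ext (map_mul _ a.1 b.1)

/-- `C_S(F) → C_S`. -/
def CD.ofLevel : CS F S →* CD hP S where
  toFun c := ⟨CS.map F.val c, by
    obtain ⟨y, rfl⟩ := toCS_surjective F S c
    exact ⟨J.map F.val y, J.map_val_mem_JP hF y, rfl⟩⟩
  map_one' := Subtype.ext (map_one _)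
  map_mul' c d := Subtype.ext (map_mul _ c d)

variable {hP S}

theorem LocP.ofLevel_val (q : Nat.Primes) (u : (Loc F q)ˣ) :
    ((LocP.ofLevel hP hF q u : LocP hP q) : (Loc Ω q)ˣ) = Loc.unitsMap q F.val u := rfl

theorem JD.ofLevel_val (y : JS F S) :
    ((JD.ofLevel hP S hF y : JD hP S) : J Ω) = J.map F.val y.1 := rfl

theorem ED.ofLevel_val (a : TUnits F S) :
    ((ED.ofLevel hP S hF a : ED hP S) : Ωˣ) = Units.map (F.val : F →* Ω) a.1 := rfl

theorem CD.ofLevel_val (c : CS F S) :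
    ((CD.ofLevel hP S hF c : CD hP S) : CS Ω S) = CS.map F.val c := rfl

theorem LocP.ofLevel_injective (q : Nat.Primes) : Function.Injective (LocP.ofLevel hP hF q) := by
  intro u v h
  exact Loc.unitsMap_injective q F.val (congrArg (fun w : LocP hP q => (w : (Loc Ω q)ˣ)) h)

theorem JD.ofLevel_injective : Function.Injective (JD.ofLevel hP S hF) := by
  intro y z h
  apply Subtype.ext
  exact J.map_injective F.val (congrArg (fun w : JD hP S => (w : J Ω)) h)

theorem ED.ofLevel_injective : Function.Injective (ED.ofLevel hP S hF) := by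
  intro a b h
  apply Subtype.ext
  apply Units.ext
  apply Subtype.ext
  exact congrArg (fun w : ED hP S => ((w : Ωˣ) : Ω)) h

/-! ### Compatibilities -/

theorem JD.ofLevel_diagS (a : TUnits F S) :
    JD.ofLevel hP S hF (diagS F S a) = ED.diag hP S (ED.ofLevel hP S hF a) := by
  apply Subtype.ext
  rw [JD.ofLevel_val, ED.diag_val, diagS_val, J.map_trunc, J.map_diag]
  rfl

theorem CD.ofLevel_toCS (y : JS F S) :
    CD.ofLevel hP S hF (toCS F S y.1) = JD.toCD hP S (JD.ofLevel hP S hF y) := rfl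

theorem JD.proj_ofLevel (q : Nat.Primes) (y : JS F S) :
    JD.proj hP S q (JD.ofLevel hP S hF y)
      = LocP.ofLevel hP hF q ((y.1 : ∀ q : Nat.Primes, (Loc F q)ˣ) q) := rfl

/-! ### Equivariance -/

section Equivariance

variable [Normal ℚ F]

theorem val_restrictNormalHom (σ : Ω ≃ₐ[ℚ] Ω) (a : F) :
    σ (F.val a) = F.val (AlgEquiv.restrictNormalHom F σ a) :=
  (AlgEquiv.restrictNormalHom_apply F σ a).symm

theorem LocP.ofLevel_smul (q : Nat.Primes) (σ : Ω ≃ₐ[ℚ] Ω) (u : (Loc F q)ˣ) :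
    LocP.ofLevel hP hF q (AlgEquiv.restrictNormalHom F σ • u) = σ • LocP.ofLevel hP hF q u := by
  have e : F.val.comp ((AlgEquiv.restrictNormalHom F σ : F ≃ₐ[ℚ] F) : F →ₐ[ℚ] F)
      = (σ : Ω →ₐ[ℚ] Ω).comp F.val := AlgHom.ext fun a => (val_restrictNormalHom σ a).symm
  apply Subtype.ext
  rw [LocP.coe_smul, LocP.ofLevel_val, LocP.ofLevel_val, locUnits_smul_eq_unitsMap,
    locUnits_smul_eq_unitsMap, ← Loc.unitsMap_comp, ← Loc.unitsMap_comp, e]

theorem JD.ofLevel_smul (σ : Ω ≃ₐ[ℚ] Ω) (y : JS F S) :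
    JD.ofLevel hP S hF (AlgEquiv.restrictNormalHom F σ • y) = σ • JD.ofLevel hP S hF y := by
  apply Subtype.ext
  rw [JD.coe_smul, JD.ofLevel_val, JD.ofLevel_val, JS.coe_smul]
  exact J.map_smul F.val _ σ (val_restrictNormalHom σ) y.1

theorem ED.ofLevel_smul (σ : Ω ≃ₐ[ℚ] Ω) (a : TUnits F S) :
    ED.ofLevel hP S hF (AlgEquiv.restrictNormalHom F σ • a) = σ • ED.ofLevel hP S hF a := by
  apply Subtype.ext
  apply Units.ext
  exact (val_restrictNormalHom σ (a.1 : F)).symm

theorem CD.ofLevel_smul (σ : Ω ≃ₐ[ℚ] Ω) (c : CS F S) :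
    CD.ofLevel hP S hF (AlgEquiv.restrictNormalHom F σ • c) = σ • CD.ofLevel hP S hF c := by
  apply Subtype.ext
  rw [CD.coe_smul, CD.ofLevel_val, CD.ofLevel_val]
  exact CS.map_smul F.val _ σ (val_restrictNormalHom σ) c

end Equivariance

/-! ### Ranges = invariants -/

section Invariants

variable [IsGalois ℚ Ω]

theorem LocP.mem_range_ofLevel_iff (q : Nat.Primes) (u : LocP hP q) :
    u ∈ (LocP.ofLevel hP hF q).range ↔ ∀ σ ∈ F.fixingSubgroup, σ • u = u := by
  have := hP.fin hF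
  constructor
  · rintro ⟨v, rfl⟩ σ hσ
    apply Subtype.ext
    exact smul_eq_of_mem_range_unitsMap ⟨v, rfl⟩ σ hσ
  · intro h
    obtain ⟨v, hv⟩ := (Loc.mem_range_unitsMap_val_iff F).mpr
      (fun σ hσ => congrArg (fun w : LocP hP q => (w : (Loc Ω q)ˣ)) (h σ hσ))
    exact ⟨v, Subtype.ext hv⟩

theorem JD.mem_range_ofLevel_iff (x : JD hP S) :
    x ∈ (JD.ofLevel hP S hF).range ↔ ∀ σ ∈ F.fixingSubgroup, σ • x = x := by
  have := hP.fin hF
  constructor
  · rintro ⟨y, rfl⟩ σ hσ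
    apply Subtype.ext
    exact smul_eq_of_mem_range' ⟨y.1, rfl⟩ σ hσ
  · intro h
    obtain ⟨y, hy⟩ := (J.mem_range_map_val_iff F).mpr
      (fun σ hσ => congrArg (fun w : JD hP S => (w : J Ω)) (h σ hσ))
    have hyS : y ∈ JS F S := by
      rw [← J.map_mem_JS_iff F.val, hy]
      exact x.2.2
    exact ⟨⟨y, hyS⟩, Subtype.ext hy⟩

theorem ED.mem_range_ofLevel_iff (a : ED hP S) :
    a ∈ (ED.ofLevel hP S hF).range ↔ ∀ σ ∈ F.fixingSubgroup, σ • a = a := by
  have := hP.fin hF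
  constructor
  · rintro ⟨b, rfl⟩ σ hσ
    apply Subtype.ext
    apply Units.ext
    exact (IntermediateField.mem_fixingSubgroup_iff F σ).mp hσ _ (b.1 : F).2
  · intro h
    have haF : ((a : Ωˣ) : Ω) ∈ F := mem_of_fixed F fun σ hσ =>
      congrArg (fun w : ED hP S => ((w : Ωˣ) : Ω)) (h σ hσ)
    have ha0 : (⟨((a : Ωˣ) : Ω), haF⟩ : F) ≠ 0 := fun h0 =>
      (a : Ωˣ).ne_zero (congrArg Subtype.val h0)
    have hb : Units.map (F.val : F →* Ω) (Units.mk0 _ ha0) = (a : Ωˣ) := Units.ext rfl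
    refine ⟨⟨Units.mk0 _ ha0, ?_⟩, ?_⟩
    · rw [← map_mem_TUnits_iff F.val, hb]
      exact a.2.2
    · exact Subtype.ext hb

theorem CD.ofLevel_injective (hS : S.Nonempty) : Function.Injective (CD.ofLevel hP S hF) := by
  have := hP.fin hF
  intro c d h
  refine CS.map_injective_of_fixed hS F.val (F.fixingSubgroup : Set (Ω ≃ₐ[ℚ] Ω)) ?_
    (mem_range_val_of_fixed F) (congrArg (fun w : CD hP S => (w : CS Ω S)) h)
  intro σ hσ a
  exact (IntermediateField.mem_fixingSubgroup_iff F σ).mp hσ a a.2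

/-- For intermediate fields `F ≤ F'` of `Ω/ℚ`: the `F`-algebra structure of `F'`.  (Not an
instance; use `letI := relAlgebra hle; haveI := relTower hle`.) -/
@[reducible] def relAlgebra {F F' : IntermediateField ℚ Ω} (hle : F ≤ F') : Algebra F F' :=
  (IntermediateField.inclusion hle).toRingHom.toAlgebra

/-- The tower `ℚ ⊆ F ⊆ F'`, for the `ℚ`-algebra structures `IntermediateField.algebra'` (those in
the type of `F.val`) and `relAlgebra hle`. -/
theorem relTower {F F' : IntermediateField ℚ Ω} (hle : F ≤ F') :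
    @IsScalarTower ℚ F F' (Algebra.toSMul (self := F.algebra'))
      (relAlgebra hle).toSMul (Algebra.toSMul (self := F'.algebra')) :=
  @IsScalarTower.of_algebraMap_eq ℚ F F' _ _ _ F.algebra' (relAlgebra hle) F'.algebra'
    (fun _ => rfl)

/-- `H¹(Gal(F'/F), U^S(F')) = 1`, elementwise, for intermediate fields `F ≤ F'` of `Ω/ℚ` (the
hypothesis of `CS.mem_range_map_inclHom` for the extension `F'/F`). -/
def H1USVanishes (S : Set Nat.Primes) (F F' : IntermediateField ℚ Ω) (hle : F ≤ F') : Prop :=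
  letI : Algebra F F' := relAlgebra hle
  haveI := relTower hle
  ∀ u : (F' ≃ₐ[F] F') → J F', (∀ σ, u σ ∈ US F' S) →
    (∀ σ τ, u (σ * τ) = galHom F F' σ • u τ * u σ) →
    ∃ v ∈ US F' S, ∀ σ, u σ = galHom F F' σ • v / v

/-- **Level invariants of `C_S`**: `C_S^{Gal(Ω/F)} = C_S(F)`, provided
`H¹(Gal(F'/F), U^S(F')) = 1` for the normal fields `F' ⊇ F` of the family. -/
theorem CD.mem_range_ofLevel_iff (hS : S.Nonempty)
    (hU : ∀ F' : IntermediateField ℚ Ω, P F' → Normal ℚ F' → ∀ hle : F ≤ F',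
      H1USVanishes S F F' hle) (c : CD hP S) :
    c ∈ (CD.ofLevel hP S hF).range ↔ ∀ σ ∈ F.fixingSubgroup, σ • c = c := by
  have hFfin := hP.fin hF
  constructor
  · rintro ⟨d, rfl⟩ σ hσ
    apply Subtype.ext
    rw [CD.coe_smul, CD.ofLevel_val]
    exact CS.smul_map_of_fixes F.val σ
      (fun a => (IntermediateField.mem_fixingSubgroup_iff F σ).mp hσ a a.2) d
  · intro hc
    obtain ⟨x, ⟨F₁, hF₁, y₁, rfl⟩, hxc⟩ := c.2
    obtain ⟨F', hF', hle', hnorm⟩ := hP.exists_normal (hP.sup hF₁ hF)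
    have hF'fin := hP.fin hF'
    have hle₁ : F₁ ≤ F' := le_sup_left.trans hle'
    have hle : F ≤ F' := le_sup_right.trans hle'
    -- the class at level `F'`
    set c' : CS F' S := toCS F' S (J.map (IntermediateField.inclusion hle₁) y₁) with hc'
    have hc'c : CS.map F'.val c' = (c : CS Ω S) := by
      rw [hc', CS.map_toCS, ← J.map_comp, ← hxc]
      rfl
    have hinj : Function.Injective (CS.map (S := S) F'.val) :=
      CS.map_injective_of_fixed hS F'.val (F'.fixingSubgroup : Set (Ω ≃ₐ[ℚ] Ω))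
        (fun σ hσ a => (IntermediateField.mem_fixingSubgroup_iff F' σ).mp hσ a a.2)
        (mem_range_val_of_fixed F')
    letI : Algebra F F' := relAlgebra hle
    haveI := relTower hle
    haveI : IsGalois ℚ F' := ⟨⟩
    haveI : IsGalois F F' := IsGalois.tower_top_of_isGalois ℚ F F'
    haveI : FiniteDimensional F F' := FiniteDimensional.right ℚ F F'
    have hfix : ∀ σ : F' ≃ₐ[F] F', galHom F F' σ • c' = c' := by
      intro σ
      apply hinj
      set τ : Ω ≃ₐ[ℚ] Ω := (galHom F F' σ).liftNormal Ω with hτ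
      have hτF' : ∀ a : F', τ (F'.val a) = F'.val (galHom F F' σ a) := fun a =>
        (galHom F F' σ).liftNormal_commutes Ω a
      have hτmem : τ ∈ F.fixingSubgroup := by
        rw [IntermediateField.mem_fixingSubgroup_iff]
        intro a ha
        have h1 := hτF' (IntermediateField.inclusion hle ⟨a, ha⟩)
        have h2 : galHom F F' σ (IntermediateField.inclusion hle ⟨a, ha⟩)
            = IntermediateField.inclusion hle ⟨a, ha⟩ := σ.commutes ⟨a, ha⟩
        rw [h2] at h1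
        exact h1
      rw [CS.map_smul F'.val (galHom F F' σ) τ hτF' c', hc'c]
      exact congrArg (fun w : CD hP S => (w : CS Ω S)) (hc τ hτmem)
    obtain ⟨c₀, hc₀⟩ := CS.mem_range_map_inclHom F F' hS (hU F' hF' hnorm hle) c' hfix
    refine ⟨c₀, Subtype.ext ?_⟩
    rw [CD.ofLevel_val, ← hc'c, ← hc₀, ← CS.map_comp]
    rfl

end Invariants

end Level

end Fermat.Agent.CFT.Idele
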