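import Mathlib
import Fermat.Agent.CFT.Idele.SmoothS
import Fermat.Agent.CFT.Idele.SRep

/-!
# PROJECT C, slice C2 (ideles), part 12: the smooth `S`-modules of `Ω_P` in `Rep ℤ Gal(Ω/ℚ)`

`Ω : Type` algebraic over `ℚ`, `hP : IsFieldFilter P`, `S` a set of primes.  Objects of
`Rep ℤ (Ω ≃ₐ[ℚ] Ω)`:

* `repED hP S` (`E_S`), `repJD hP S` (`J_S`), `repCD0 hP S` (`J_S / E_S`), `repCD hP S` (`C_S`),
  `repLocP hP q` (`J_q`), `repUP hP` (`Ω_Pˣ`), `repJP hP`;
* `edSC hP S` : `0 → E_S → J_S → J_S/E_S → 0` with `edSC_shortExact` (`S ≠ ∅`, `Ω/ℚ` Galois);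
* `cd0Incl hP S : J_S/E_S ⟶ C_S` (injective; an isomorphism after `⊗ ℤ_(p)` once the `p`-part of
  the `S`-class groups capitulates), `jdToCD hP S : J_S ⟶ C_S`;
* `projHom hP S q : J_S ⟶ J_q`, `singleHom hP S q hq : J_q ⟶ J_S`;
* `exists_fixed_*` : every vector is fixed by `Gal(Ω/F)` for some `F` with `P F` (smoothness).
-/

set_option autoImplicit false
set_option linter.unusedSectionVars false

noncomputable section

open CategoryTheory

namespace Fermat.Agent.CFT.Idele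

attribute [local instance 2000] IntermediateField.algebra'

variable {Ω : Type} [Field Ω] [Algebra ℚ Ω] [Algebra.IsAlgebraic ℚ Ω]
  {P : IntermediateField ℚ Ω → Prop} (hP : IsFieldFilter P) (S : Set Nat.Primes)

/-- `E_S`: the `S`-units of `Ω_P` as a representation of `Gal(Ω/ℚ)`. -/
abbrev repED : Rep.{0} ℤ (Ω ≃ₐ[ℚ] Ω) := Rep.ofMulDistribMulAction (Ω ≃ₐ[ℚ] Ω) (ED hP S)

/-- `J_S`: the `S`-ideles of `Ω_P` as a representation of `Gal(Ω/ℚ)`. -/
abbrev repJD : Rep.{0} ℤ (Ω ≃ₐ[ℚ] Ω) := Rep.ofMulDistribMulAction (Ω ≃ₐ[ℚ] Ω) (JD hP S)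

/-- `J_S / E_S` as a representation of `Gal(Ω/ℚ)`. -/
abbrev repCD0 : Rep.{0} ℤ (Ω ≃ₐ[ℚ] Ω) := Rep.ofMulDistribMulAction (Ω ≃ₐ[ℚ] Ω) (CD0 hP S)

/-- `C_S = lim C_S(F)` as a representation of `Gal(Ω/ℚ)`. -/
abbrev repCD : Rep.{0} ℤ (Ω ≃ₐ[ℚ] Ω) := Rep.ofMulDistribMulAction (Ω ≃ₐ[ℚ] Ω) (CD hP S)

/-- `J_q = lim (F ⊗ ℚ_q)ˣ` as a representation of `Gal(Ω/ℚ)`. -/
abbrev repLocP (q : Nat.Primes) : Rep.{0} ℤ (Ω ≃ₐ[ℚ] Ω) :=
  Rep.ofMulDistribMulAction (Ω ≃ₐ[ℚ] Ω) (LocP hP q)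

/-- `Ω_Pˣ` as a representation of `Gal(Ω/ℚ)`. -/
abbrev repUP : Rep.{0} ℤ (Ω ≃ₐ[ℚ] Ω) := Rep.ofMulDistribMulAction (Ω ≃ₐ[ℚ] Ω) (UP hP)

/-- The `P`-smooth ideles as a representation of `Gal(Ω/ℚ)`. -/
abbrev repJP : Rep.{0} ℤ (Ω ≃ₐ[ℚ] Ω) := Rep.ofMulDistribMulAction (Ω ≃ₐ[ℚ] Ω) (JP hP)

/-! ### The sequence `0 → E_S → J_S → J_S/E_S → 0` -/

/-- `0 → E_S → J_S → J_S/E_S → 0`. -/
def edSC : ShortComplex (Rep.{0} ℤ (Ω ≃ₐ[ℚ] Ω)) :=
  repSC (ED.diag hP S) (fun σ a => ED.diag_smul σ a) (JD.toCD0 hP S)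
    (fun σ x => JD.toCD0_smul σ x) (fun a => JD.toCD0_diag a)

theorem edSC_X₁ : (edSC hP S).X₁ = repED hP S := rfl
theorem edSC_X₂ : (edSC hP S).X₂ = repJD hP S := rfl
theorem edSC_X₃ : (edSC hP S).X₃ = repCD0 hP S := rfl

theorem edSC_f_apply (a : Additive (ED hP S)) :
    (edSC hP S).f.hom a = Additive.ofMul (ED.diag hP S a.toMul) := rfl

theorem edSC_g_apply (x : Additive (JD hP S)) :
    (edSC hP S).g.hom x = Additive.ofMul (JD.toCD0 hP S x.toMul) := rfl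

variable {S}

theorem edSC_shortExact [IsGalois ℚ Ω] (hS : S.Nonempty) : (edSC hP S).ShortExact :=
  repSC_shortExact _ _ _ _ _ (ED.diag_injective hS) JD.toCD0_surjective
    (fun x hx => (JD.toCD0_eq_one_iff hS x).mp hx)

variable (S)

/-- The inclusion `J_S/E_S ⟶ C_S`. -/
def cd0Incl : repCD0 hP S ⟶ repCD hP S :=
  repOfHom (CD0.incl hP S) (fun σ c => CD0.incl_smul σ c)

/-- `J_S ⟶ C_S`. -/
def jdToCD : repJD hP S ⟶ repCD hP S :=
  repOfHom (JD.toCD hP S) (fun σ x => JD.toCD_smul σ x)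

theorem cd0Incl_apply (c : Additive (CD0 hP S)) :
    (cd0Incl hP S).hom c = Additive.ofMul (CD0.incl hP S c.toMul) := rfl

theorem jdToCD_apply (x : Additive (JD hP S)) :
    (jdToCD hP S).hom x = Additive.ofMul (JD.toCD hP S x.toMul) := rfl

theorem cd0Incl_injective : Function.Injective (cd0Incl hP S).hom := by
  intro c c' h
  exact congrArg Additive.ofMul
    (CD0.incl_injective (congrArg Additive.toMul h) : c.toMul = c'.toMul)

theorem edSC_g_comp_cd0Incl : (edSC hP S).g ≫ cd0Incl hP S = jdToCD hP S := rfl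

/-! ### The components -/

/-- The projection `J_S ⟶ J_q`. -/
def projHom (q : Nat.Primes) : repJD hP S ⟶ repLocP hP q :=
  repOfHom (JD.proj hP S q) (fun σ x => JD.proj_smul σ q x)

/-- The inclusion `J_q ⟶ J_S` for `q ∈ S`. -/
def singleHom (q : Nat.Primes) (hq : q ∈ S) : repLocP hP q ⟶ repJD hP S :=
  repOfHom (JD.single hP S q hq) (fun σ u => JD.single_smul σ hq u)

theorem projHom_apply (q : Nat.Primes) (x : Additive (JD hP S)) :
    (projHom hP S q).hom x = Additive.ofMul (JD.proj hP S q x.toMul) := rfl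

theorem singleHom_apply (q : Nat.Primes) (hq : q ∈ S) (u : Additive (LocP hP q)) :
    (singleHom hP S q hq).hom u = Additive.ofMul (JD.single hP S q hq u.toMul) := rfl

theorem singleHom_comp_projHom (q : Nat.Primes) (hq : q ∈ S) :
    singleHom hP S q hq ≫ projHom hP S q = 𝟙 _ := by
  ext u
  exact congrArg Additive.ofMul (JD.proj_single_same hq (Additive.toMul u))

theorem singleHom_comp_projHom_of_ne {q q' : Nat.Primes} (hq : q ∈ S) (h : q' ≠ q) :
    singleHom hP S q hq ≫ projHom hP S q' = 0 := by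
  ext u
  exact congrArg Additive.ofMul (JD.proj_single_of_ne hq h (Additive.toMul u))

/-- `J_S = ⊕_{q ∈ S} J_q`: the identity of `J_S` is the sum of the component idempotents. -/
theorem sum_projHom_comp_singleHom (T : Finset Nat.Primes) :
    ∑ q ∈ T.attach, projHom hP (T : Set Nat.Primes) q.1 ≫
      singleHom hP (T : Set Nat.Primes) q.1 (Finset.mem_coe.mpr q.2) = 𝟙 (repJD hP (T : Set Nat.Primes)) := by
  ext x
  rw [Rep.sum_hom, Representation.IntertwiningMap.toLinearMap_apply,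
    Representation.IntertwiningMap.sum_apply]
  have h1 : ∀ (s : Finset {q // q ∈ T}) (y : Additive (JD hP (T : Set Nat.Primes))),
      (∑ q ∈ s, Additive.ofMul (JD.single hP (T : Set Nat.Primes) q.1 (Finset.mem_coe.mpr q.2)
          (JD.proj hP (T : Set Nat.Primes) q.1 (Additive.toMul y))))
      = Additive.ofMul (∏ q ∈ s, JD.single hP (T : Set Nat.Primes) q.1 (Finset.mem_coe.mpr q.2)
          (JD.proj hP (T : Set Nat.Primes) q.1 (Additive.toMul y))) := by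
    intro s y
    exact (ofMul_prod s _).symm
  exact (h1 T.attach x).trans (congrArg Additive.ofMul (JD.prod_single_proj (Additive.toMul x)))

/-! ### Smoothness -/

theorem exists_fixed_repJD (x : repJD hP S) :
    ∃ F : IntermediateField ℚ Ω, P F ∧ ∀ σ ∈ F.fixingSubgroup, (repJD hP S).ρ σ x = x := by
  obtain ⟨F, hF, hx⟩ := (Additive.toMul x : JD hP S).2.1
  refine ⟨F, hF, fun σ hσ => ?_⟩
  apply congrArg Additive.ofMul
  apply Subtype.ext
  exact smul_eq_of_mem_range' hx σ hσ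

theorem exists_fixed_repED (a : repED hP S) :
    ∃ F : IntermediateField ℚ Ω, P F ∧ ∀ σ ∈ F.fixingSubgroup, (repED hP S).ρ σ a = a := by
  obtain ⟨F, hF, ha⟩ := (Additive.toMul a : ED hP S).2.1
  refine ⟨F, hF, fun σ hσ => ?_⟩
  apply congrArg Additive.ofMul
  apply Subtype.ext
  apply Units.ext
  exact (IntermediateField.mem_fixingSubgroup_iff F σ).mp hσ _ ha

theorem exists_fixed_repUP (a : repUP hP) :
    ∃ F : IntermediateField ℚ Ω, P F ∧ ∀ σ ∈ F.fixingSubgroup, (repUP hP).ρ σ a = a := by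
  obtain ⟨F, hF, ha⟩ := (Additive.toMul a : UP hP).2
  refine ⟨F, hF, fun σ hσ => ?_⟩
  apply congrArg Additive.ofMul
  apply Subtype.ext
  apply Units.ext
  exact (IntermediateField.mem_fixingSubgroup_iff F σ).mp hσ _ ha

theorem exists_fixed_repJP (x : repJP hP) :
    ∃ F : IntermediateField ℚ Ω, P F ∧ ∀ σ ∈ F.fixingSubgroup, (repJP hP).ρ σ x = x := by
  obtain ⟨F, hF, hx⟩ := (Additive.toMul x : JP hP).2
  refine ⟨F, hF, fun σ hσ => ?_⟩
  apply congrArg Additive.ofMul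
  apply Subtype.ext
  exact smul_eq_of_mem_range' hx σ hσ

theorem exists_fixed_repLocP (q : Nat.Primes) (u : repLocP hP q) :
    ∃ F : IntermediateField ℚ Ω, P F ∧ ∀ σ ∈ F.fixingSubgroup, (repLocP hP q).ρ σ u = u := by
  obtain ⟨F, hF, hu⟩ := (Additive.toMul u : LocP hP q).2
  refine ⟨F, hF, fun σ hσ => ?_⟩
  apply congrArg Additive.ofMul
  apply Subtype.ext
  exact smul_eq_of_mem_range_unitsMap hu σ hσ

theorem exists_fixed_repCD (c : repCD hP S) :
    ∃ F : IntermediateField ℚ Ω, P F ∧ ∀ σ ∈ F.fixingSubgroup, (repCD hP S).ρ σ c = c := by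
  obtain ⟨x, ⟨F, hF, hx⟩, hxc⟩ := (Additive.toMul c : CD hP S).2
  refine ⟨F, hF, fun σ hσ => ?_⟩
  apply congrArg Additive.ofMul
  apply Subtype.ext
  show σ • ((Additive.toMul c : CD hP S) : CS Ω S) = _
  rw [← hxc, smul_toCS, smul_eq_of_mem_range' hx σ hσ]
  exact hxc

theorem exists_fixed_repCD0 (c : repCD0 hP S) :
    ∃ F : IntermediateField ℚ Ω, P F ∧ ∀ σ ∈ F.fixingSubgroup, (repCD0 hP S).ρ σ c = c := by
  obtain ⟨x, ⟨⟨F, hF, hx⟩, _⟩, hxc⟩ := (Additive.toMul c : CD0 hP S).2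
  refine ⟨F, hF, fun σ hσ => ?_⟩
  apply congrArg Additive.ofMul
  apply Subtype.ext
  show σ • ((Additive.toMul c : CD0 hP S) : CS Ω S) = _
  rw [← hxc, smul_toCS, smul_eq_of_mem_range' hx σ hσ]
  exact hxc

end Fermat.Agent.CFT.Idele
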