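import Mathlib
import Fermat.Agent.CFT.Idele.SmoothRep
import Fermat.Agent.CFT.LocalBridge.Levels

/-!
# PROJECT C, slice C2 (ideles), part 13: the Layer-D modules of `G_S = Gal(ℚ_S/ℚ)`

The instantiation of `SmoothP` / `SmoothS` / `SmoothRep` at `Ω = ℚ̄` (`Bridge.Qbar`),
`P F = F.IsUnramifiedOutside S` (`S : Finset Nat.Primes`): smooth representations of
`GQ = Gal(ℚ̄/ℚ)` for the level family `Bridge.levelsS S`,

* `QS.E S` (`E_S`, the `S`-units of `ℚ_S`), `QS.J S` (`J_S = lim ∏_{q ∈ S} (F ⊗ ℚ_q)ˣ`),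
  `QS.C0 S` (`J_S/E_S`), `QS.C S` (`C_S = lim C_S(F)`), `QS.Jq S q` (`J_q = lim (F ⊗ ℚ_q)ˣ`),
  `QS.U S` (`ℚ_Sˣ`);
* `QS.seq S : 0 → E_S → J_S → J_S/E_S → 0` (`QS.seq_shortExact`, `S ≠ ∅`), `QS.incl S : J_S/E_S ⟶ C_S`;
* `QS.proj S q : J_S ⟶ J_q`, `QS.single S q hq : J_q ⟶ J_S`, `QS.sum_proj_comp_single`;
* `QS.isSmooth_*` : smoothness for `Bridge.levelsS S`.
-/

set_option autoImplicit false

noncomputable section

open CategoryTheory

namespace Fermat.Agent.CFT.Idele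

open Fermat.Agent.CFT.Bridge Fermat.Agent.CFT.LC

/- Scoped instances (`open scoped Fermat.Agent.CFT.Idele`): `ℚ̄/ℚ` is algebraic, normal, Galois. -/
scoped instance isAlgebraicQbar_id : Algebra.IsAlgebraic ℚ Qbar := AlgebraicClosure.isAlgebraic ℚ

scoped instance isAlgClosureQbar_id : IsAlgClosure ℚ Qbar := ⟨inferInstance, inferInstance⟩

scoped instance normalQbar_id : Normal ℚ Qbar := IsAlgClosure.normal ℚ Qbar

scoped instance isGaloisQbar_id : IsGalois ℚ Qbar := ⟨⟩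

/-- The finite extensions of `ℚ` inside `ℚ̄` unramified outside `S` form a field filter. -/
theorem isFieldFilter_unram (S : Finset Nat.Primes) :
    IsFieldFilter (fun F : IntermediateField ℚ Qbar => F.IsUnramifiedOutside S) where
  bot := IntermediateField.isUnramifiedOutside_bot S
  sup := fun h h' => h.sup h'
  fin := fun h => h.1
  map := fun {F} σ h =>
    IntermediateField.IsUnramifiedOutside.of_le
      (le_iSup (fun σ : GQ => F.map (σ : Qbar →ₐ[ℚ] Qbar)) σ) (isUnramifiedOutside_nc h)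
  of_le := fun hle h => h.of_le hle
  exists_normal := fun {F} h => by
    have h1 := isUnramifiedOutside_nc h
    have := h1.1
    exact ⟨nc F, h1, le_nc F,
      Fermat.Agent.CFT.LocalBridge.normal_of_normal_fixingSubgroup (nc F)
        (normal_fixingSubgroup_nc F)⟩

namespace QS

variable (S : Finset Nat.Primes)

/-- `E_S`: the `S`-units of `ℚ_S`, as a `Gal(ℚ̄/ℚ)`-module. -/
abbrev E : Rep.{0} ℤ GQ := repED (isFieldFilter_unram S) (S : Set Nat.Primes)

/-- `J_S`: the `S`-ideles of `ℚ_S`. -/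
abbrev J : Rep.{0} ℤ GQ := repJD (isFieldFilter_unram S) (S : Set Nat.Primes)

/-- `J_S / E_S`. -/
abbrev C0 : Rep.{0} ℤ GQ := repCD0 (isFieldFilter_unram S) (S : Set Nat.Primes)

/-- `C_S = lim C_S(F)`: the `S`-idele classes of `ℚ_S`. -/
abbrev C : Rep.{0} ℤ GQ := repCD (isFieldFilter_unram S) (S : Set Nat.Primes)

/-- `J_q = lim (F ⊗ ℚ_q)ˣ`: the `q`-component of `J_S`. -/
abbrev Jq (q : Nat.Primes) : Rep.{0} ℤ GQ := repLocP (isFieldFilter_unram S) q

/-- `ℚ_Sˣ`. -/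
abbrev U : Rep.{0} ℤ GQ := repUP (isFieldFilter_unram S)

/-- `0 → E_S → J_S → J_S/E_S → 0`. -/
abbrev seq : ShortComplex (Rep.{0} ℤ GQ) := edSC (isFieldFilter_unram S) (S : Set Nat.Primes)

theorem seq_shortExact (hS : S.Nonempty) : (seq S).ShortExact :=
  edSC_shortExact (isFieldFilter_unram S) (Finset.coe_nonempty.mpr hS)

/-- `J_S/E_S ⟶ C_S` (injective, cokernel `lim Cl_S(F)`). -/
abbrev incl : C0 S ⟶ C S := cd0Incl (isFieldFilter_unram S) (S : Set Nat.Primes)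

/-- `J_S ⟶ C_S`. -/
abbrev toC : J S ⟶ C S := jdToCD (isFieldFilter_unram S) (S : Set Nat.Primes)

/-- `J_S ⟶ J_q`. -/
abbrev proj (q : Nat.Primes) : J S ⟶ Jq S q := projHom (isFieldFilter_unram S) (S : Set Nat.Primes) q

/-- `J_q ⟶ J_S` for `q ∈ S`. -/
abbrev single (q : Nat.Primes) (hq : q ∈ S) : Jq S q ⟶ J S :=
  singleHom (isFieldFilter_unram S) (S : Set Nat.Primes) q (Finset.mem_coe.mpr hq)

theorem single_comp_proj (q : Nat.Primes) (hq : q ∈ S) : single S q hq ≫ proj S q = 𝟙 _ :=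
  singleHom_comp_projHom _ _ q _

theorem single_comp_proj_of_ne {q q' : Nat.Primes} (hq : q ∈ S) (h : q' ≠ q) :
    single S q hq ≫ proj S q' = 0 :=
  singleHom_comp_projHom_of_ne _ _ _ h

theorem sum_proj_comp_single :
    ∑ q ∈ S.attach, proj S q.1 ≫ single S q.1 q.2 = 𝟙 (J S) :=
  sum_projHom_comp_singleHom (isFieldFilter_unram S) S

/-! ### Smoothness for `Bridge.levelsS S` -/

theorem isSmooth_of_exists_fixed {A : Rep.{0} ℤ GQ}
    (h : ∀ a : A, ∃ F : IntermediateField ℚ Qbar, F.IsUnramifiedOutside S ∧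
      ∀ σ ∈ F.fixingSubgroup, A.ρ σ a = a) : IsSmooth (levelsS S) A := by
  intro a
  obtain ⟨F, hF, hfix⟩ := h a
  obtain ⟨U, hU, hle⟩ := exists_level_le hF
  exact ⟨U, hU, fun s hs => hfix s (hle hs)⟩

theorem isSmooth_E : IsSmooth (levelsS S) (E S) :=
  isSmooth_of_exists_fixed S (exists_fixed_repED _ _)

theorem isSmooth_J : IsSmooth (levelsS S) (J S) :=
  isSmooth_of_exists_fixed S (exists_fixed_repJD _ _)

theorem isSmooth_C0 : IsSmooth (levelsS S) (C0 S) :=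
  isSmooth_of_exists_fixed S (exists_fixed_repCD0 _ _)

theorem isSmooth_C : IsSmooth (levelsS S) (C S) :=
  isSmooth_of_exists_fixed S (exists_fixed_repCD _ _)

theorem isSmooth_Jq (q : Nat.Primes) : IsSmooth (levelsS S) (Jq S q) :=
  isSmooth_of_exists_fixed S (exists_fixed_repLocP _ q)

theorem isSmooth_U : IsSmooth (levelsS S) (U S) :=
  isSmooth_of_exists_fixed S (exists_fixed_repUP _)

end QS

end Fermat.Agent.CFT.Idele
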