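import Mathlib
import Fermat.Agent.CFT.Idele.LevelD
import Fermat.Agent.CFT.Idele.QS
import Fermat.Agent.CFT.C7.USCohTrivial
import Fermat.Agent.CFT.C7.TrivialInertia

/-!
# PROJECT C, slice C2 (ideles), part 18: level invariants of `C_S`, unconditionally

For `Ω = ℚ̄` and the family of fields unramified outside `S`, the hypothesis `H1USVanishes` of
`Idele/LevelD.lean` holds (helper22's `C7/USCohTrivial` + helper1's `C7/TrivialInertia`):

* `hU_of_forall_eq_one` : instance-generic form of `USCohTrivial.hU_of_trivialInertiaAt`;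
* `h1USVanishes_unram` : `H¹(Gal(F'/F), U^S(F')) = 1` for `F ≤ F'` with `F'` unramified outside `S`;
* `QS.mem_range_ofLevel_iff` : **`C_S^{Gal(ℚ̄/F)} = C_S(F)`** for `F` unramified outside `S ≠ ∅`.
-/

set_option autoImplicit false
set_option linter.style.haveILetI false

open scoped NumberField

noncomputable section

namespace Fermat.Agent.CFT.Idele

open Fermat.Agent.CFT.Bridge Fermat.Agent.CFT.C7.USCohTrivial

/-- helper1's `TrivialInertia.eq_one_of_forall_sub_mem` for an arbitrary `ℚ`-algebra instance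
on `↥F`. -/
theorem eq_one_of_forall_sub_mem_inst {S : Finset Nat.Primes} (F : IntermediateField ℚ Qbar)
    [NumberField F] [inst : Algebra ℚ F] (hF : F.IsUnramifiedOutside S) (q : Nat.Primes)
    (hq : q ∉ S) (w : Ideal (𝓞 F)) [hw : w.IsPrime] (hqw : (((q : ℕ) : 𝓞 F)) ∈ w)
    (σ : F ≃ₐ[ℚ] F) (hσ : ∀ x : 𝓞 F, ∃ y ∈ w, σ (x : F) - (x : F) = (y : F)) : σ = 1 := by
  obtain rfl : inst = DivisionRing.toRatAlgebra := Subsingleton.elim _ _
  exact Fermat.Agent.CFT.C7.TrivialInertia.eq_one_of_forall_sub_mem F hF q hq w hqw σ hσ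

attribute [local instance 2000] IntermediateField.algebra'

/-- `USCohTrivial.hU_of_trivialInertiaAt` for an arbitrary `ℚ`-algebra instance on `L`, with the
trivial-inertia hypothesis in element form. -/
theorem hU_of_forall_eq_one {K L : Type*} [Field K] [Field L] [NumberField L] [Algebra ℚ K]
    [instL : Algebra ℚ L] [Algebra K L] [IsScalarTower ℚ K L] [FiniteDimensional K L]
    (S : Set Nat.Primes)
    (h : ∀ q : Nat.Primes, q ∉ S → ∀ w : Ideal (𝓞 L), w.IsPrime → ((q : ℕ) : 𝓞 L) ∈ w →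
      ∀ σ : L ≃ₐ[ℚ] L, (∀ x : 𝓞 L, ∃ y ∈ w, σ (x : L) - (x : L) = (y : L)) → σ = 1) :
    ∀ u : (L ≃ₐ[K] L) → J L, (∀ σ, u σ ∈ US L S) →
      (∀ σ τ, u (σ * τ) = galHom K L σ • u τ * u σ) →
      ∃ v ∈ US L S, ∀ σ, u σ = galHom K L σ • v / v := by
  obtain rfl : instL = DivisionRing.toRatAlgebra := Subsingleton.elim _ _
  exact hU_of_trivialInertiaAt K L S
    (fun q hq => trivialInertiaAt_of_injective (galHom_injective K L) (h q hq))

/-- `H¹(Gal(F'/F), U^S(F')) = 1` for `F ≤ F' ⊂ ℚ̄` with `F'` unramified outside `S`. -/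
theorem h1USVanishes_unram (S : Finset Nat.Primes) {F F' : IntermediateField ℚ Qbar}
    (hF' : F'.IsUnramifiedOutside S) (hle : F ≤ F') :
    H1USVanishes (S : Set Nat.Primes) F F' hle := by
  have hfin : FiniteDimensional ℚ F' := hF'.1
  haveI : NumberField F' := ⟨⟩
  letI : Algebra F F' := relAlgebra hle
  haveI := relTower hle
  haveI : FiniteDimensional F F' := FiniteDimensional.right ℚ F F'
  refine hU_of_forall_eq_one (K := F) (L := F') (S : Set Nat.Primes) ?_
  intro q hq w hw hqw σ hσ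
  exact eq_one_of_forall_sub_mem_inst F' hF' q hq w hqw σ hσ

namespace QS

/-- **`C_S^{Gal(ℚ̄/F)} = C_S(F)`** for `F` unramified outside `S ≠ ∅`. -/
theorem mem_range_ofLevel_iff (S : Finset Nat.Primes) (hS : S.Nonempty)
    {F : IntermediateField ℚ Qbar} (hF : F.IsUnramifiedOutside S)
    (c : CD (isFieldFilter_unram S) (S : Set Nat.Primes)) :
    c ∈ (CD.ofLevel (isFieldFilter_unram S) (S : Set Nat.Primes) hF).range ↔
      ∀ σ ∈ F.fixingSubgroup, σ • c = c :=
  CD.mem_range_ofLevel_iff hF (Finset.coe_nonempty.mpr hS)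
    (fun _ hF' _ hle => h1USVanishes_unram S hF' hle) c

end QS

end Fermat.Agent.CFT.Idele
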