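import Mathlib
import Fermat.Agent.CFT.Idele.LevelQS
import Fermat.Agent.CFT.GaloisDict.Infinite
import Fermat.Agent.CFT.D.RealizeField

/-!
# PROJECT C, slice C2 (ideles), part 19: the layer dictionary over `ℤ` (LD-Z)

For a level field `F` (finite normal over `ℚ` inside `ℚ̄`, unramified outside `S`) and
`U = F.fixingSubgroup` (given as `h : F.fixingSubgroup = U`):

* group half: helper21's `GaloisDict.Infinite.layerQuotEquiv F U h : GQ ⧸ U ≃* (F ≃ₐ[ℚ] F)`;
* module half: `eC`, `eJ`, `eE`, `eJq` : `((QS.X S).quotientToInvariants U).V ≃ₗ[ℤ] (finite level).V`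
  with `eX_compat` (the hypothesis `he` of `A7.IsClassModule.of_equiv` / `D.Realize.N3.of_equiv`)
  and `eX_symm_apply` (the underlying element is the image under `XD.ofLevel`);
* subgroup half: `map_layerSub` : the image of `U₀/U'` in `Gal(F'/ℚ)` is `Gal(F'/F)`.
-/

set_option autoImplicit false
set_option linter.unusedSectionVars false
set_option linter.style.haveILetI false

noncomputable section

namespace Fermat.Agent.CFT.Idele.LevelIso

open Fermat.Agent.CFT.Bridge Fermat.Agent.CFT.GaloisDict.Infinite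

attribute [local instance 2000] IntermediateField.algebra'

/-! ### The generic dictionary -/

section Generic

variable {G : Type} (Γ : Type) [Group G] [Group Γ] (U : Subgroup G) [U.Normal] (e : G ⧸ U ≃* Γ)
  {M N : Type} [CommGroup M] [CommGroup N] [MulDistribMulAction G M] [MulDistribMulAction Γ N]
  (ι : N →* M) (hinj : Function.Injective ι)
  (hequiv : ∀ (g : G) (n : N), ι (e (g : G ⧸ U) • n) = g • ι n)
  (hrange : ∀ m : M, m ∈ ι.range ↔ ∀ u ∈ U, u • m = m)

include hrange in
/-- The map `N → M^U`. -/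
def toInv : (Rep.ofMulDistribMulAction Γ N).V →ₗ[ℤ]
    ((Rep.ofMulDistribMulAction G M).quotientToInvariants U).V where
  toFun n := ⟨Additive.ofMul (ι (Additive.toMul n)), fun u =>
    congrArg Additive.ofMul (((hrange _).mp ⟨_, rfl⟩) u.1 u.2)⟩
  map_add' _ _ := Subtype.ext (congrArg Additive.ofMul (map_mul ι _ _))
  map_smul' n _ := Subtype.ext (congrArg Additive.ofMul (map_zpow ι _ n))

theorem toInv_apply (n : (Rep.ofMulDistribMulAction Γ N).V) :
    ((toInv Γ U ι hrange n).1 : Additive M) = Additive.ofMul (ι (Additive.toMul n)) := rfl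

include hinj in
theorem toInv_bijective : Function.Bijective (toInv Γ U ι hrange) := by
  constructor
  · intro x y hxy
    have h1 : Additive.ofMul (ι (Additive.toMul x)) = Additive.ofMul (ι (Additive.toMul y)) :=
      congrArg Subtype.val hxy
    exact congrArg Additive.ofMul (hinj (congrArg Additive.toMul h1) :
      Additive.toMul x = Additive.toMul y)
  · rintro ⟨a, ha⟩
    have h1 : (Additive.toMul (a : Additive M) : M) ∈ ι.range :=
      (hrange _).mpr fun u hu => congrArg Additive.toMul (ha ⟨u, hu⟩)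
    obtain ⟨n, hn⟩ := h1
    exact ⟨Additive.ofMul n, Subtype.ext (congrArg Additive.ofMul hn)⟩

/-- **The layer dictionary**, module half: `M^U ≃ N`. -/
def layerEquiv : ((Rep.ofMulDistribMulAction G M).quotientToInvariants U).V ≃ₗ[ℤ]
    (Rep.ofMulDistribMulAction Γ N).V :=
  (LinearEquiv.ofBijective (toInv Γ U ι hrange) (toInv_bijective Γ U ι hinj hrange)).symm

theorem layerEquiv_symm_apply (n : (Rep.ofMulDistribMulAction Γ N).V) :
    (((layerEquiv Γ U ι hinj hrange).symm n).1 : Additive M) =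
      Additive.ofMul (ι (Additive.toMul n)) := rfl

theorem layerEquiv_symm_ofMul (n : N) :
    (((layerEquiv Γ U ι hinj hrange).symm (Additive.ofMul n :
      (Rep.ofMulDistribMulAction Γ N).V)).1 : Additive M) = Additive.ofMul (ι n) := rfl

/-- The element of `N` corresponding to an invariant is characterised by its image under `ι`. -/
theorem ι_layerEquiv (x : ((Rep.ofMulDistribMulAction G M).quotientToInvariants U).V) :
    ι (Additive.toMul (layerEquiv Γ U ι hinj hrange x)) = Additive.toMul (x.1 : Additive M) := by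
  have h := layerEquiv_symm_apply Γ U ι hinj hrange (layerEquiv Γ U ι hinj hrange x)
  rw [LinearEquiv.symm_apply_apply] at h
  exact (congrArg Additive.toMul h).symm

include hequiv in
/-- Equivariance of the layer dictionary (`he` of `IsClassModule.of_equiv` / `N3.of_equiv`). -/
theorem layerEquiv_compat (g : G ⧸ U) :
    (layerEquiv Γ U ι hinj hrange).toLinearMap ∘ₗ
        ((Rep.ofMulDistribMulAction G M).quotientToInvariants U).ρ g =
      (Rep.ofMulDistribMulAction Γ N).ρ (e g) ∘ₗ (layerEquiv Γ U ι hinj hrange).toLinearMap := by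
  obtain ⟨σ, rfl⟩ := QuotientGroup.mk_surjective g
  apply LinearMap.ext
  intro x
  show layerEquiv Γ U ι hinj hrange
      (((Rep.ofMulDistribMulAction G M).quotientToInvariants U).ρ (σ : G ⧸ U) x) =
    (Rep.ofMulDistribMulAction Γ N).ρ (e (σ : G ⧸ U)) (layerEquiv Γ U ι hinj hrange x)
  have h1 : ι (Additive.toMul ((Rep.ofMulDistribMulAction Γ N).ρ (e (σ : G ⧸ U))
      (layerEquiv Γ U ι hinj hrange x))) =
      σ • ι (Additive.toMul (layerEquiv Γ U ι hinj hrange x)) := hequiv σ _
  have h2 : ι (Additive.toMul (layerEquiv Γ U ι hinj hrange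
      (((Rep.ofMulDistribMulAction G M).quotientToInvariants U).ρ (σ : G ⧸ U) x))) =
      σ • ι (Additive.toMul (layerEquiv Γ U ι hinj hrange x)) := by
    rw [ι_layerEquiv, ι_layerEquiv]
    rfl
  exact congrArg Additive.ofMul (hinj (h2.trans h1.symm))

end Generic

/-! ### The concrete dictionaries for `C_S`, `J_S`, `E_S`, `J_q` -/

section Concrete

variable (S : Finset Nat.Primes) (F : IntermediateField ℚ Qbar) [Normal ℚ F]
  (hF : F.IsUnramifiedOutside S) (U : Subgroup GQ) [U.Normal] (h : F.fixingSubgroup = U)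

/-- The finite-level model of `J_q`: the units of `F ⊗ ℚ_q` as a `Gal(F/ℚ)`-module. -/
abbrev repLocU (K : Type) [Field K] [Algebra ℚ K] (q : Nat.Primes) : Rep.{0} ℤ (K ≃ₐ[ℚ] K) :=
  Rep.ofMulDistribMulAction (K ≃ₐ[ℚ] K) (Loc K q)ˣ

include h in
theorem mem_range_CD_iff (hS : S.Nonempty) (c : CD (isFieldFilter_unram S) (S : Set Nat.Primes)) :
    c ∈ (CD.ofLevel (isFieldFilter_unram S) (S : Set Nat.Primes) hF).range ↔
      ∀ u ∈ U, u • c = c := by
  subst h
  exact QS.mem_range_ofLevel_iff S hS hF c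

include h in
theorem mem_range_JD_iff (x : JD (isFieldFilter_unram S) (S : Set Nat.Primes)) :
    x ∈ (JD.ofLevel (isFieldFilter_unram S) (S : Set Nat.Primes) hF).range ↔
      ∀ u ∈ U, u • x = x := by
  subst h
  exact JD.mem_range_ofLevel_iff hF x

include h in
theorem mem_range_ED_iff (a : ED (isFieldFilter_unram S) (S : Set Nat.Primes)) :
    a ∈ (ED.ofLevel (isFieldFilter_unram S) (S : Set Nat.Primes) hF).range ↔
      ∀ u ∈ U, u • a = a := by
  subst h
  exact ED.mem_range_ofLevel_iff hF a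

include h in
theorem mem_range_LocP_iff (q : Nat.Primes) (u' : LocP (isFieldFilter_unram S) q) :
    u' ∈ (LocP.ofLevel (isFieldFilter_unram S) hF q).range ↔ ∀ u ∈ U, u • u' = u' := by
  subst h
  exact LocP.mem_range_ofLevel_iff hF q u'

/-- **(LD-Z) for `C_S`**: `(C_S)^U ≃ C_S(F)`. -/
def eC (hS : S.Nonempty) :
    ((QS.C S).quotientToInvariants U).V ≃ₗ[ℤ] (repCS F (S : Set Nat.Primes)).V :=
  layerEquiv (F ≃ₐ[ℚ] F) U (CD.ofLevel (isFieldFilter_unram S) (S : Set Nat.Primes) hF)
    (CD.ofLevel_injective hF (Finset.coe_nonempty.mpr hS)) (mem_range_CD_iff S F hF U h hS)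

/-- **(LD-Z) for `J_S`**: `(J_S)^U ≃ J_S(F)`. -/
def eJ : ((QS.J S).quotientToInvariants U).V ≃ₗ[ℤ] (repJS F (S : Set Nat.Primes)).V :=
  layerEquiv (F ≃ₐ[ℚ] F) U (JD.ofLevel (isFieldFilter_unram S) (S : Set Nat.Primes) hF)
    (JD.ofLevel_injective hF) (mem_range_JD_iff S F hF U h)

/-- **(LD-Z) for `E_S`**: `(E_S)^U ≃ E_S(F)`. -/
def eE : ((QS.E S).quotientToInvariants U).V ≃ₗ[ℤ] (repES F (S : Set Nat.Primes)).V :=
  layerEquiv (F ≃ₐ[ℚ] F) U (ED.ofLevel (isFieldFilter_unram S) (S : Set Nat.Primes) hF)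
    (ED.ofLevel_injective hF) (mem_range_ED_iff S F hF U h)

/-- **(LD-Z) for `J_q`**: `(J_q)^U ≃ (F ⊗ ℚ_q)ˣ`. -/
def eJq (q : Nat.Primes) : ((QS.Jq S q).quotientToInvariants U).V ≃ₗ[ℤ] (repLocU F q).V :=
  layerEquiv (F ≃ₐ[ℚ] F) U (LocP.ofLevel (isFieldFilter_unram S) hF q)
    (LocP.ofLevel_injective hF q) (mem_range_LocP_iff S F hF U h q)

/-! #### evaluation -/

theorem eC_symm_apply (hS : S.Nonempty) (c : CS F (S : Set Nat.Primes)) :
    (((eC S F hF U h hS).symm (Additive.ofMul c)).1 : (QS.C S).V) =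
      Additive.ofMul (CD.ofLevel (isFieldFilter_unram S) (S : Set Nat.Primes) hF c) := rfl

theorem eJ_symm_apply (y : JS F (S : Set Nat.Primes)) :
    (((eJ S F hF U h).symm (Additive.ofMul y)).1 : (QS.J S).V) =
      Additive.ofMul (JD.ofLevel (isFieldFilter_unram S) (S : Set Nat.Primes) hF y) := rfl

theorem eE_symm_apply (a : TUnits F (S : Set Nat.Primes)) :
    (((eE S F hF U h).symm (Additive.ofMul a)).1 : (QS.E S).V) =
      Additive.ofMul (ED.ofLevel (isFieldFilter_unram S) (S : Set Nat.Primes) hF a) := rfl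

theorem eJq_symm_apply (q : Nat.Primes) (u : (Loc F q)ˣ) :
    (((eJq S F hF U h q).symm (Additive.ofMul u)).1 : (QS.Jq S q).V) =
      Additive.ofMul (LocP.ofLevel (isFieldFilter_unram S) hF q u) := rfl

/-- The class in `C_S(ℚ̄)` underlying an invariant is the image of the corresponding class of
`C_S(F)`. -/
theorem ofLevel_eC (hS : S.Nonempty) (x : ((QS.C S).quotientToInvariants U).V) :
    CD.ofLevel (isFieldFilter_unram S) (S : Set Nat.Primes) hF
      (Additive.toMul (eC S F hF U h hS x)) = Additive.toMul (x.1 : (QS.C S).V) :=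
  ι_layerEquiv _ _ _ _ _ x

theorem ofLevel_eJ (x : ((QS.J S).quotientToInvariants U).V) :
    JD.ofLevel (isFieldFilter_unram S) (S : Set Nat.Primes) hF
      (Additive.toMul (eJ S F hF U h x)) = Additive.toMul (x.1 : (QS.J S).V) :=
  ι_layerEquiv _ _ _ _ _ x

theorem ofLevel_eE (x : ((QS.E S).quotientToInvariants U).V) :
    ED.ofLevel (isFieldFilter_unram S) (S : Set Nat.Primes) hF
      (Additive.toMul (eE S F hF U h x)) = Additive.toMul (x.1 : (QS.E S).V) :=
  ι_layerEquiv _ _ _ _ _ x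

theorem ofLevel_eJq (q : Nat.Primes) (x : ((QS.Jq S q).quotientToInvariants U).V) :
    LocP.ofLevel (isFieldFilter_unram S) hF q
      (Additive.toMul (eJq S F hF U h q x)) = Additive.toMul (x.1 : (QS.Jq S q).V) :=
  ι_layerEquiv _ _ _ _ _ x

/-! #### equivariance -/

theorem eC_compat (hS : S.Nonempty) (g : GQ ⧸ U) :
    (eC S F hF U h hS).toLinearMap ∘ₗ ((QS.C S).quotientToInvariants U).ρ g =
      (repCS F (S : Set Nat.Primes)).ρ (layerQuotEquiv F U h g) ∘ₗ
        (eC S F hF U h hS).toLinearMap :=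
  layerEquiv_compat (F ≃ₐ[ℚ] F) U (layerQuotEquiv F U h) _ _
    (fun σ c => CD.ofLevel_smul hF σ c) _ g

theorem eJ_compat (g : GQ ⧸ U) :
    (eJ S F hF U h).toLinearMap ∘ₗ ((QS.J S).quotientToInvariants U).ρ g =
      (repJS F (S : Set Nat.Primes)).ρ (layerQuotEquiv F U h g) ∘ₗ
        (eJ S F hF U h).toLinearMap :=
  layerEquiv_compat (F ≃ₐ[ℚ] F) U (layerQuotEquiv F U h) _ _
    (fun σ y => JD.ofLevel_smul hF σ y) _ g

theorem eE_compat (g : GQ ⧸ U) :
    (eE S F hF U h).toLinearMap ∘ₗ ((QS.E S).quotientToInvariants U).ρ g =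
      (repES F (S : Set Nat.Primes)).ρ (layerQuotEquiv F U h g) ∘ₗ
        (eE S F hF U h).toLinearMap :=
  layerEquiv_compat (F ≃ₐ[ℚ] F) U (layerQuotEquiv F U h) _ _
    (fun σ a => ED.ofLevel_smul hF σ a) _ g

theorem eJq_compat (q : Nat.Primes) (g : GQ ⧸ U) :
    (eJq S F hF U h q).toLinearMap ∘ₗ ((QS.Jq S q).quotientToInvariants U).ρ g =
      (repLocU F q).ρ (layerQuotEquiv F U h g) ∘ₗ (eJq S F hF U h q).toLinearMap :=
  layerEquiv_compat (F ≃ₐ[ℚ] F) U (layerQuotEquiv F U h) _ _
    (fun σ u => LocP.ofLevel_smul hF q σ u) _ g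

end Concrete

/-! ### The maps between the modules, on the layers -/

section Maps

variable (S : Finset Nat.Primes) (F : IntermediateField ℚ Qbar) [Normal ℚ F]
  (hF : F.IsUnramifiedOutside S) (U : Subgroup GQ) [U.Normal] (h : F.fixingSubgroup = U)

/-- `J_S → C_S` on the layer is `J_S(F) → C_S(F)`. -/
theorem eC_toC (hS : S.Nonempty) (x : ((QS.J S).quotientToInvariants U).V)
    (c : ((QS.C S).quotientToInvariants U).V) (hc : (c.1 : (QS.C S).V) = (QS.toC S).hom x.1) :
    Additive.toMul (eC S F hF U h hS c) =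
      JS.toCS F (S : Set Nat.Primes) (Additive.toMul (eJ S F hF U h x)) := by
  apply CD.ofLevel_injective (hP := isFieldFilter_unram S) hF (Finset.coe_nonempty.mpr hS)
  refine (ofLevel_eC S F hF U h hS c).trans ?_
  have h2 := ofLevel_eJ S F hF U h x
  rw [hc]
  exact congrArg (JD.toCD (isFieldFilter_unram S) (S : Set Nat.Primes)) h2.symm

/-- `E_S → J_S` on the layer is the diagonal `E_S(F) → J_S(F)`. -/
theorem eJ_diag (a : ((QS.E S).quotientToInvariants U).V)
    (x : ((QS.J S).quotientToInvariants U).V) (hx : (x.1 : (QS.J S).V) = (QS.seq S).f.hom a.1) :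
    Additive.toMul (eJ S F hF U h x) =
      diagS F (S : Set Nat.Primes) (Additive.toMul (eE S F hF U h a)) := by
  apply JD.ofLevel_injective (hP := isFieldFilter_unram S) hF
  refine (ofLevel_eJ S F hF U h x).trans ?_
  have h2 := ofLevel_eE S F hF U h a
  rw [JD.ofLevel_diagS, h2, hx]
  rfl

/-- `J_S → J_q` on the layer is the `q`-component. -/
theorem eJq_proj (q : Nat.Primes) (x : ((QS.J S).quotientToInvariants U).V)
    (u : ((QS.Jq S q).quotientToInvariants U).V)
    (hu : (u.1 : (QS.Jq S q).V) = (QS.proj S q).hom x.1) :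
    Additive.toMul (eJq S F hF U h q u) =
      ((Additive.toMul (eJ S F hF U h x) : JS F (S : Set Nat.Primes)).1 :
        ∀ q : Nat.Primes, (Loc F q)ˣ) q := by
  apply LocP.ofLevel_injective (hP := isFieldFilter_unram S) hF q
  refine (ofLevel_eJq S F hF U h q u).trans ?_
  have h2 := ofLevel_eJ S F hF U h x
  rw [← JD.proj_ofLevel (S := (S : Set Nat.Primes)), h2, hu]
  rfl

/-- `J_q → J_S` (`q ∈ S`) on the layer is the idele with the single component at `q`. -/
theorem eJ_single (q : Nat.Primes) (hq : q ∈ S) (u : ((QS.Jq S q).quotientToInvariants U).V)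
    (x : ((QS.J S).quotientToInvariants U).V)
    (hx : (x.1 : (QS.J S).V) = (QS.single S q hq).hom u.1) :
    ((Additive.toMul (eJ S F hF U h x) : JS F (S : Set Nat.Primes)) : J F) =
      J.single q (Additive.toMul (eJq S F hF U h q u)) := by
  have h1 : (⟨J.single q (Additive.toMul (eJq S F hF U h q u)),
      J.single_mem_JS (Finset.mem_coe.mpr hq) _⟩ : JS F (S : Set Nat.Primes)) =
      Additive.toMul (eJ S F hF U h x) := by
    apply JD.ofLevel_injective (hP := isFieldFilter_unram S) hF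
    refine Eq.trans ?_ (ofLevel_eJ S F hF U h x).symm
    rw [hx]
    apply Subtype.ext
    rw [JD.ofLevel_val, J.map_single]
    have h2 := ofLevel_eJq S F hF U h q u
    have h3 := congrArg (fun w : LocP (isFieldFilter_unram S) q => (w : (Loc Qbar q)ˣ)) h2
    simp only [LocP.ofLevel_val] at h3
    rw [h3]
    rfl
  exact (congrArg (fun w : JS F (S : Set Nat.Primes) => (w : J F)) h1).symm

end Maps

/-! ### Transition maps: `F ≤ F'` -/

section Transition

variable (S : Finset Nat.Primes) {F F' : IntermediateField ℚ Qbar} (hle : F ≤ F')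
  (hF : F.IsUnramifiedOutside S) (hF' : F'.IsUnramifiedOutside S)

theorem CD_ofLevel_map_inclusion (c : CS F (S : Set Nat.Primes)) :
    CD.ofLevel (isFieldFilter_unram S) (S : Set Nat.Primes) hF'
        (CS.map (IntermediateField.inclusion hle) c) =
      CD.ofLevel (isFieldFilter_unram S) (S : Set Nat.Primes) hF c := by
  apply Subtype.ext
  rw [CD.ofLevel_val, CD.ofLevel_val, ← CS.map_comp]
  rfl

theorem LocP_ofLevel_map_inclusion (q : Nat.Primes) (u : (Loc F q)ˣ) :
    LocP.ofLevel (isFieldFilter_unram S) hF' q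
        (Loc.unitsMap q (IntermediateField.inclusion hle) u) =
      LocP.ofLevel (isFieldFilter_unram S) hF q u := by
  apply Subtype.ext
  rw [LocP.ofLevel_val, LocP.ofLevel_val, ← Loc.unitsMap_comp]
  rfl

variable [Normal ℚ F] [Normal ℚ F'] (U U' : Subgroup GQ) [U.Normal] [U'.Normal]
  (h : F.fixingSubgroup = U) (h' : F'.fixingSubgroup = U')

/-- The inclusion `(C_S)^U ⊆ (C_S)^{U'}` is `C_S(F) → C_S(F')`. -/
theorem eC_transition (hS : S.Nonempty) (x : ((QS.C S).quotientToInvariants U).V)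
    (x' : ((QS.C S).quotientToInvariants U').V) (hx : (x'.1 : (QS.C S).V) = x.1) :
    Additive.toMul (eC S F' hF' U' h' hS x') =
      CS.map (IntermediateField.inclusion hle) (Additive.toMul (eC S F hF U h hS x)) := by
  apply CD.ofLevel_injective (hP := isFieldFilter_unram S) hF' (Finset.coe_nonempty.mpr hS)
  refine (ofLevel_eC S F' hF' U' h' hS x').trans ?_
  rw [CD_ofLevel_map_inclusion S hle hF hF']
  refine Eq.trans ?_ (ofLevel_eC S F hF U h hS x).symm
  rw [hx]

/-- The inclusion `(J_q)^U ⊆ (J_q)^{U'}` is `(F ⊗ ℚ_q)ˣ → (F' ⊗ ℚ_q)ˣ`. -/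
theorem eJq_transition (q : Nat.Primes) (x : ((QS.Jq S q).quotientToInvariants U).V)
    (x' : ((QS.Jq S q).quotientToInvariants U').V) (hx : (x'.1 : (QS.Jq S q).V) = x.1) :
    Additive.toMul (eJq S F' hF' U' h' q x') =
      Loc.unitsMap q (IntermediateField.inclusion hle) (Additive.toMul (eJq S F hF U h q x)) := by
  apply LocP.ofLevel_injective (hP := isFieldFilter_unram S) hF' q
  refine (ofLevel_eJq S F' hF' U' h' q x').trans ?_
  rw [LocP_ofLevel_map_inclusion S hle hF hF']
  refine Eq.trans ?_ (ofLevel_eJq S F hF U h q x).symm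
  rw [hx]

end Transition

/-! ### The subgroup half: `U₀/U' ↔ Gal(F'/F)` -/

section Subgroup

variable {F F' : IntermediateField ℚ Qbar} [Normal ℚ F'] (hle : F ≤ F')
  (U₀ U' : Subgroup GQ) [U'.Normal] (h₀ : F.fixingSubgroup = U₀) (h' : F'.fixingSubgroup = U')

include h₀ in
/-- The image of `U₀/U'` under `GQ ⧸ U' ≃* Gal(F'/ℚ)` is `Gal(F'/F)` (the hypothesis `hH` of
`D.Realize.N3.of_equiv`). -/
theorem map_layerSub :
    letI := relAlgebra hle
    haveI := relTower hle
    (D.Realize.layerSub U₀ U').map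
        ((layerQuotEquiv F' U' h' : GQ ⧸ U' ≃* (F' ≃ₐ[ℚ] F')) : GQ ⧸ U' →* (F' ≃ₐ[ℚ] F')) =
      (galHom F F').range := by
  letI := relAlgebra hle
  haveI := relTower hle
  subst h₀
  ext τ
  constructor
  · rintro ⟨_, ⟨σ, hσ, rfl⟩, rfl⟩
    have hfix : ∀ a : F, (AlgEquiv.restrictNormalHom F' σ) (algebraMap F F' a) =
        algebraMap F F' a := by
      intro a
      apply Subtype.ext
      have h1 := AlgEquiv.restrictNormal_commutes σ F' (algebraMap F F' a)
      have h2 : σ (a : Qbar) = a := (IntermediateField.mem_fixingSubgroup_iff F σ).mp hσ a a.2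
      exact h1.trans h2
    refine ⟨AlgEquiv.ofRingEquiv (f := (AlgEquiv.restrictNormalHom F' σ).toRingEquiv) hfix, ?_⟩
    ext x
    rfl
  · rintro ⟨τ', rfl⟩
    set σ : GQ := AlgEquiv.liftNormal (galHom F F' τ') Qbar with hσdef
    have hσ : σ ∈ F.fixingSubgroup := by
      rw [IntermediateField.mem_fixingSubgroup_iff]
      intro a ha
      have h1 := AlgEquiv.liftNormal_commutes (galHom F F' τ') Qbar
        (algebraMap F F' ⟨a, ha⟩)
      have h2 : galHom F F' τ' (algebraMap F F' ⟨a, ha⟩) = algebraMap F F' ⟨a, ha⟩ :=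
        τ'.commutes ⟨a, ha⟩
      rw [h2] at h1
      exact h1
    refine ⟨(σ : GQ ⧸ U'), ⟨σ, hσ, rfl⟩, ?_⟩
    exact AlgEquiv.restrict_liftNormal Qbar (galHom F F' τ')

end Subgroup

end Fermat.Agent.CFT.Idele.LevelIso
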