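import Mathlib
import Fermat.Agent.CFT.Idele.LevelIso

/-!
# PROJECT C, slice C2 (ideles), part 21: the layer dictionary for fields given as types

The dictionary of `Idele/LevelIso.lean` for a field `K : Type` with an ARBITRARY `[Algebra ℚ K]`
instance and an embedding `ι : K →ₐ[ℚ] ℚ̄` (so `K := ↥F` with `DivisionRing.toRatAlgebra`, or any
number field produced as a type by Layers C5/C6/C7, fits): `K/ℚ` normal,
`ι.fieldRange` unramified outside `S`, `U = ι.fieldRange.fixingSubgroup`.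

* `toRange ι : K ≃ₐ[ℚ] ι.fieldRange`;
* `eK ι U h : GQ ⧸ U ≃* (K ≃ₐ[ℚ] K)` with `ι_eK : ι (eK ι U h ↑σ x) = σ (ι x)`;
* `CDι`, `LocPι`, `JDι`, `EDι` : the maps `C_S(K) → C_S`, `(K ⊗ ℚ_q)ˣ → J_q`, ... induced by `ι`;
* `eCK`, `eJqK`, `eJK`, `eEK` with `e*K_compat` (shape of `IsClassModule.of_equiv` / `N3.of_equiv`)
  and `e*K_symm_apply`;
* `map_layerSubK` : for a tower `K → L` the image of `U_K/U_L` in `Gal(L/ℚ)` is `Gal(L/K)`.
-/

set_option autoImplicit false
set_option linter.unusedSectionVars false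
set_option linter.style.haveILetI false
set_option linter.overlappingInstances false

noncomputable section

namespace Fermat.Agent.CFT.Idele.LevelIsoK

open Fermat.Agent.CFT.Bridge Fermat.Agent.CFT.GaloisDict.Infinite Fermat.Agent.CFT.Idele.LevelIso

attribute [local instance 2000] IntermediateField.algebra'

/-! ### Transport of the generic dictionary along an isomorphism of finite-level pairs -/

section Transport

variable {G : Type} (Γ₀ Γ : Type) [Group G] [Group Γ₀] [Group Γ] (U : Subgroup G) [U.Normal]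
  (e₀ : G ⧸ U ≃* Γ₀) (a : Γ₀ ≃* Γ)
  {M N₀ N : Type} [CommGroup M] [CommGroup N₀] [CommGroup N] [MulDistribMulAction G M]
  [MulDistribMulAction Γ₀ N₀] [MulDistribMulAction Γ N]
  (ι₀ : N₀ →* M) (b : N ≃* N₀)

theorem comp_injective (hinj : Function.Injective ι₀) :
    Function.Injective (ι₀.comp (b : N →* N₀)) := hinj.comp b.injective

theorem comp_range (hrange : ∀ m : M, m ∈ ι₀.range ↔ ∀ u ∈ U, u • m = m) (m : M) :
    m ∈ (ι₀.comp (b : N →* N₀)).range ↔ ∀ u ∈ U, u • m = m := by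
  rw [← hrange]
  constructor
  · rintro ⟨n, rfl⟩
    exact ⟨b n, rfl⟩
  · rintro ⟨n₀, rfl⟩
    exact ⟨b.symm n₀, by simp⟩

theorem comp_equivariant (hequiv : ∀ (g : G) (n : N₀), ι₀ (e₀ (g : G ⧸ U) • n) = g • ι₀ n)
    (hb : ∀ (γ : Γ₀) (n : N), b (a γ • n) = γ • b n) (g : G) (n : N) :
    (ι₀.comp (b : N →* N₀)) ((e₀.trans a) (g : G ⧸ U) • n) = g • (ι₀.comp (b : N →* N₀)) n := by
  show ι₀ (b (a (e₀ (g : G ⧸ U)) • n)) = g • ι₀ (b n)
  rw [hb, hequiv]

end Transport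

/-! ### The field `K` and its image in `ℚ̄` -/

section Field

variable {K : Type} [Field K] [Algebra ℚ K] (ι : K →ₐ[ℚ] Qbar)

/-- `K → ι(K)`. -/
def toRangeHom : K →ₐ[ℚ] ι.fieldRange where
  toFun x := ⟨ι x, x, rfl⟩
  map_one' := Subtype.ext (map_one ι)
  map_mul' x y := Subtype.ext (map_mul ι x y)
  map_zero' := Subtype.ext (map_zero ι)
  map_add' x y := Subtype.ext (map_add ι x y)
  commutes' r := Subtype.ext (ι.commutes r)

/-- `K ≃ ι(K)`. -/
def toRange : K ≃ₐ[ℚ] ι.fieldRange :=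
  AlgEquiv.ofBijective (toRangeHom ι)
    ⟨fun _ _ h => ι.injective (congrArg Subtype.val h), fun ⟨_, x, hx⟩ => ⟨x, Subtype.ext hx⟩⟩

theorem coe_toRange (x : K) : ((toRange ι x : ι.fieldRange) : Qbar) = ι x := rfl

theorem val_comp_toRange : ι.fieldRange.val.comp (toRange ι : K →ₐ[ℚ] ι.fieldRange) = ι :=
  AlgHom.ext fun _ => rfl

theorem ι_toRange_symm (y : ι.fieldRange) : ι ((toRange ι).symm y) = (y : Qbar) := by
  have h := coe_toRange ι ((toRange ι).symm y)
  rw [AlgEquiv.apply_symm_apply] at h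
  exact h.symm

theorem normal_fieldRange [Normal ℚ K] : Normal ℚ ι.fieldRange := Normal.of_algEquiv (toRange ι)

variable [Normal ℚ K] (U : Subgroup GQ) [U.Normal] (h : ι.fieldRange.fixingSubgroup = U)

/-- **Group half**: `GQ ⧸ U ≃* Gal(K/ℚ)` for `U` the subgroup fixing `ι(K)`. -/
def eK : GQ ⧸ U ≃* (K ≃ₐ[ℚ] K) :=
  haveI := normal_fieldRange ι
  (layerQuotEquiv ι.fieldRange U h).trans (AlgEquiv.autCongr (toRange ι).symm)

theorem eK_mk (σ : GQ) :
    haveI := normal_fieldRange ι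
    eK ι U h (σ : GQ ⧸ U) =
      AlgEquiv.autCongr (toRange ι).symm (AlgEquiv.restrictNormalHom ι.fieldRange σ) := rfl

/-- The defining property of `eK`: `ι ∘ eK(σ) = σ ∘ ι`. -/
theorem ι_eK (σ : GQ) (x : K) : ι (eK ι U h (σ : GQ ⧸ U) x) = σ (ι x) := by
  haveI := normal_fieldRange ι
  rw [eK_mk]
  show ι ((toRange ι).symm ((AlgEquiv.restrictNormalHom ι.fieldRange σ) (toRange ι x))) = _
  rw [ι_toRange_symm]
  exact AlgEquiv.restrictNormal_commutes σ ι.fieldRange (toRange ι x)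

theorem toRange_eK (σ : GQ) (x : K) :
    haveI := normal_fieldRange ι
    toRange ι (eK ι U h (σ : GQ ⧸ U) x) =
      AlgEquiv.restrictNormalHom ι.fieldRange σ (toRange ι x) := by
  haveI := normal_fieldRange ι
  rw [eK_mk]
  show toRange ι ((toRange ι).symm _) = _
  rw [AlgEquiv.apply_symm_apply]
  rfl

end Field

/-! ### The case `K = ↥F` with an arbitrary `ℚ`-algebra instance -/

section ValRat

/-- The inclusion `↥F → ℚ̄` as a `ℚ`-algebra map for an ARBITRARY `ℚ`-algebra instance on `↥F`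
(e.g. `DivisionRing.toRatAlgebra`, the one found by `[NumberField ↥F]`-style statements). -/
def valRat (F : IntermediateField ℚ Qbar) [Algebra ℚ F] : F →ₐ[ℚ] Qbar :=
  (F.val : F →+* Qbar).toRatAlgHom

theorem valRat_apply (F : IntermediateField ℚ Qbar) [Algebra ℚ F] (x : F) :
    valRat F x = (x : Qbar) := rfl

theorem fieldRange_valRat (F : IntermediateField ℚ Qbar) [Algebra ℚ F] :
    (valRat F).fieldRange = F := by
  ext x
  constructor
  · rintro ⟨y, rfl⟩
    exact y.2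
  · intro hx
    exact ⟨⟨x, hx⟩, rfl⟩

end ValRat

/-! ### Functoriality under isomorphisms -/

section Equivs

variable {K L : Type} [Field K] [Field L] [Algebra ℚ K] [Algebra ℚ L]
  [Algebra.IsAlgebraic ℚ K] [Algebra.IsAlgebraic ℚ L] (S : Set Nat.Primes)

theorem CS_map_id (x : CS K S) : CS.map (S := S) (AlgHom.id ℚ K) x = x := by
  obtain ⟨y, rfl⟩ := toCS_surjective K S x
  rw [CS.map_toCS, J.map_id]

/-- `C_S` of isomorphic fields. -/
def csEquiv (e : K ≃ₐ[ℚ] L) : CS K S ≃* CS L S where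
  toFun := CS.map (e : K →ₐ[ℚ] L)
  invFun := CS.map (e.symm : L →ₐ[ℚ] K)
  left_inv x := by
    rw [← CS.map_comp]
    have : (e.symm : L →ₐ[ℚ] K).comp (e : K →ₐ[ℚ] L) = AlgHom.id ℚ K :=
      AlgHom.ext fun a => e.symm_apply_apply a
    rw [this, CS_map_id]
  right_inv x := by
    rw [← CS.map_comp]
    have : (e : K →ₐ[ℚ] L).comp (e.symm : L →ₐ[ℚ] K) = AlgHom.id ℚ L :=
      AlgHom.ext fun a => e.apply_symm_apply a
    rw [this, CS_map_id]
  map_mul' := map_mul _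

theorem csEquiv_apply (e : K ≃ₐ[ℚ] L) (x : CS K S) :
    csEquiv S e x = CS.map (e : K →ₐ[ℚ] L) x := rfl

/-- `(K ⊗ ℚ_q)ˣ` of isomorphic fields. -/
def locEquiv (q : Nat.Primes) (e : K ≃ₐ[ℚ] L) : (Loc K q)ˣ ≃* (Loc L q)ˣ where
  toFun := Loc.unitsMap q (e : K →ₐ[ℚ] L)
  invFun := Loc.unitsMap q (e.symm : L →ₐ[ℚ] K)
  left_inv x := by
    rw [← Loc.unitsMap_comp]
    have : (e.symm : L →ₐ[ℚ] K).comp (e : K →ₐ[ℚ] L) = AlgHom.id ℚ K :=
      AlgHom.ext fun a => e.symm_apply_apply a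
    rw [this, Loc.unitsMap_id]
  right_inv x := by
    rw [← Loc.unitsMap_comp]
    have : (e : K →ₐ[ℚ] L).comp (e.symm : L →ₐ[ℚ] K) = AlgHom.id ℚ L :=
      AlgHom.ext fun a => e.apply_symm_apply a
    rw [this, Loc.unitsMap_id]
  map_mul' := map_mul _

theorem locEquiv_apply (q : Nat.Primes) (e : K ≃ₐ[ℚ] L) (u : (Loc K q)ˣ) :
    locEquiv q e u = Loc.unitsMap q (e : K →ₐ[ℚ] L) u := rfl

theorem Loc_unitsMap_smul (q : Nat.Primes) (f : K →ₐ[ℚ] L) (σ : K ≃ₐ[ℚ] K) (τ : L ≃ₐ[ℚ] L)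
    (h : ∀ a : K, τ (f a) = f (σ a)) (u : (Loc K q)ˣ) :
    Loc.unitsMap q f (σ • u) = τ • Loc.unitsMap q f u := by
  have e : f.comp (σ : K →ₐ[ℚ] K) = (τ : L →ₐ[ℚ] L).comp f := AlgHom.ext fun a => (h a).symm
  rw [locUnits_smul_eq_unitsMap, locUnits_smul_eq_unitsMap, ← Loc.unitsMap_comp,
    ← Loc.unitsMap_comp, e]

end Equivs

/-! ### The dictionaries -/

section Modules

variable (S : Finset Nat.Primes) {K : Type} [Field K] [Algebra ℚ K] [Algebra.IsAlgebraic ℚ K]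
  (ι : K →ₐ[ℚ] Qbar) (hι : ι.fieldRange.IsUnramifiedOutside S)

/-- `C_S(K) → C_S` induced by `ι`. -/
def CDι : CS K (S : Set Nat.Primes) →* CD (isFieldFilter_unram S) (S : Set Nat.Primes) :=
  (CD.ofLevel (isFieldFilter_unram S) (S : Set Nat.Primes) hι).comp
    (csEquiv (S : Set Nat.Primes) (toRange ι) : CS K (S : Set Nat.Primes) →* _)

theorem CDι_val (c : CS K (S : Set Nat.Primes)) :
    ((CDι S ι hι c : CD (isFieldFilter_unram S) (S : Set Nat.Primes)) :
      CS Qbar (S : Set Nat.Primes)) = CS.map ι c := by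
  show CS.map ι.fieldRange.val (CS.map (toRange ι : K →ₐ[ℚ] ι.fieldRange) c) = _
  rw [← CS.map_comp, val_comp_toRange]

/-- `(K ⊗ ℚ_q)ˣ → J_q` induced by `ι`. -/
def LocPι (q : Nat.Primes) : (Loc K q)ˣ →* LocP (isFieldFilter_unram S) q :=
  (LocP.ofLevel (isFieldFilter_unram S) hι q).comp
    (locEquiv q (toRange ι) : (Loc K q)ˣ →* _)

theorem LocPι_val (q : Nat.Primes) (u : (Loc K q)ˣ) :
    ((LocPι S ι hι q u : LocP (isFieldFilter_unram S) q) : (Loc Qbar q)ˣ) =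
      Loc.unitsMap q ι u := by
  show Loc.unitsMap q ι.fieldRange.val (Loc.unitsMap q (toRange ι : K →ₐ[ℚ] ι.fieldRange) u) = _
  rw [← Loc.unitsMap_comp, val_comp_toRange]

variable [Normal ℚ K] (U : Subgroup GQ) [U.Normal] (h : ι.fieldRange.fixingSubgroup = U)

theorem csEquiv_smul (ρ : ι.fieldRange ≃ₐ[ℚ] ι.fieldRange) (c : CS K (S : Set Nat.Primes)) :
    csEquiv (S : Set Nat.Primes) (toRange ι) (AlgEquiv.autCongr (toRange ι).symm ρ • c) =
      ρ • csEquiv (S : Set Nat.Primes) (toRange ι) c :=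
  CS.map_smul _ _ _ (fun _ => ((toRange ι).apply_symm_apply _).symm) c

theorem locEquiv_smul (q : Nat.Primes) (ρ : ι.fieldRange ≃ₐ[ℚ] ι.fieldRange) (u : (Loc K q)ˣ) :
    locEquiv q (toRange ι) (AlgEquiv.autCongr (toRange ι).symm ρ • u) =
      ρ • locEquiv q (toRange ι) u :=
  Loc_unitsMap_smul q _ _ _ (fun _ => ((toRange ι).apply_symm_apply _).symm) u

/-- **(LD-Z) for `C_S`, type-level form**: `(C_S)^U ≃ C_S(K)`. -/
def eCK (hS : S.Nonempty) :
    ((QS.C S).quotientToInvariants U).V ≃ₗ[ℤ] (repCS K (S : Set Nat.Primes)).V :=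
  haveI := normal_fieldRange ι
  layerEquiv (K ≃ₐ[ℚ] K) U (CDι S ι hι)
    (comp_injective _ _ (CD.ofLevel_injective hι (Finset.coe_nonempty.mpr hS)))
    (comp_range U _ _ (mem_range_CD_iff S ι.fieldRange hι U h hS))

/-- **(LD-Z) for `J_q`, type-level form**: `(J_q)^U ≃ (K ⊗ ℚ_q)ˣ`. -/
def eJqK (q : Nat.Primes) : ((QS.Jq S q).quotientToInvariants U).V ≃ₗ[ℤ] (repLocU K q).V :=
  haveI := normal_fieldRange ι
  layerEquiv (K ≃ₐ[ℚ] K) U (LocPι S ι hι q)
    (comp_injective _ _ (LocP.ofLevel_injective hι q))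
    (comp_range U _ _ (mem_range_LocP_iff S ι.fieldRange hι U h q))

theorem eCK_symm_apply (hS : S.Nonempty) (c : CS K (S : Set Nat.Primes)) :
    (((eCK S ι hι U h hS).symm (Additive.ofMul c)).1 : (QS.C S).V) =
      Additive.ofMul (CDι S ι hι c) := rfl

theorem eJqK_symm_apply (q : Nat.Primes) (u : (Loc K q)ˣ) :
    (((eJqK S ι hι U h q).symm (Additive.ofMul u)).1 : (QS.Jq S q).V) =
      Additive.ofMul (LocPι S ι hι q u) := rfl

theorem CDι_eCK (hS : S.Nonempty) (x : ((QS.C S).quotientToInvariants U).V) :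
    CDι S ι hι (Additive.toMul (eCK S ι hι U h hS x)) = Additive.toMul (x.1 : (QS.C S).V) :=
  ι_layerEquiv _ _ _ _ _ x

theorem LocPι_eJqK (q : Nat.Primes) (x : ((QS.Jq S q).quotientToInvariants U).V) :
    LocPι S ι hι q (Additive.toMul (eJqK S ι hι U h q x)) =
      Additive.toMul (x.1 : (QS.Jq S q).V) :=
  ι_layerEquiv _ _ _ _ _ x

theorem eCK_compat (hS : S.Nonempty) (g : GQ ⧸ U) :
    (eCK S ι hι U h hS).toLinearMap ∘ₗ ((QS.C S).quotientToInvariants U).ρ g =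
      (repCS K (S : Set Nat.Primes)).ρ (eK ι U h g) ∘ₗ (eCK S ι hι U h hS).toLinearMap := by
  haveI := normal_fieldRange ι
  exact layerEquiv_compat (K ≃ₐ[ℚ] K) U (eK ι U h) _ _
    (comp_equivariant _ _ U (layerQuotEquiv ι.fieldRange U h)
      (AlgEquiv.autCongr (toRange ι).symm) _ _
      (fun σ c => CD.ofLevel_smul hι σ c) (fun ρ c => csEquiv_smul S ι ρ c)) _ g

theorem eJqK_compat (q : Nat.Primes) (g : GQ ⧸ U) :
    (eJqK S ι hι U h q).toLinearMap ∘ₗ ((QS.Jq S q).quotientToInvariants U).ρ g =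
      (repLocU K q).ρ (eK ι U h g) ∘ₗ (eJqK S ι hι U h q).toLinearMap := by
  haveI := normal_fieldRange ι
  exact layerEquiv_compat (K ≃ₐ[ℚ] K) U (eK ι U h) _ _
    (comp_equivariant _ _ U (layerQuotEquiv ι.fieldRange U h)
      (AlgEquiv.autCongr (toRange ι).symm) _ _
      (fun σ u => LocP.ofLevel_smul hι q σ u) (fun ρ u => locEquiv_smul ι q ρ u)) _ g

/-! #### `J_q → C_S` on the layer -/

theorem CDι_toCS_single (q : Nat.Primes) (hq : q ∈ S) (u : (Loc K q)ˣ) :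
    CDι S ι hι (toCS K (S : Set Nat.Primes) (J.single q u)) =
      JD.toCD (isFieldFilter_unram S) (S : Set Nat.Primes)
        (JD.single (isFieldFilter_unram S) (S : Set Nat.Primes) q (Finset.mem_coe.mpr hq)
          (LocPι S ι hι q u)) := by
  apply Subtype.ext
  rw [CDι_val, CS.map_toCS, J.map_single, JD.toCD_val, JD.single_val, LocPι_val]

/-- `J_q → J_S → C_S` on the layer is `u ↦ [idele with the single component u at q]`. -/
theorem eCK_single_toC (hS : S.Nonempty) (q : Nat.Primes) (hq : q ∈ S)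
    (u : ((QS.Jq S q).quotientToInvariants U).V) (c : ((QS.C S).quotientToInvariants U).V)
    (hc : (c.1 : (QS.C S).V) = (QS.toC S).hom ((QS.single S q hq).hom u.1)) :
    Additive.toMul (eCK S ι hι U h hS c) =
      toCS K (S : Set Nat.Primes) (J.single q (Additive.toMul (eJqK S ι hι U h q u))) := by
  haveI := normal_fieldRange ι
  apply comp_injective _ (csEquiv (S : Set Nat.Primes) (toRange ι))
    (CD.ofLevel_injective (hP := isFieldFilter_unram S) hι (Finset.coe_nonempty.mpr hS))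
  refine (CDι_eCK S ι hι U h hS c).trans ?_
  refine Eq.trans ?_ (CDι_toCS_single S ι hι q hq _).symm
  rw [LocPι_eJqK, hc]
  rfl

end Modules

/-! ### The subgroup half for a tower `K → L` of types -/

section Subgroup

variable {K L : Type} [Field K] [Field L] [Algebra ℚ K] [Algebra ℚ L] [Algebra K L]
  [IsScalarTower ℚ K L] (ιL : L →ₐ[ℚ] Qbar) [Normal ℚ L]
  (U₀ U' : Subgroup GQ) [U'.Normal]
  (h₀ : (ιL.comp (IsScalarTower.toAlgHom ℚ K L)).fieldRange.fixingSubgroup = U₀)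
  (h' : ιL.fieldRange.fixingSubgroup = U')

include h₀ in
/-- The image of `U₀/U'` under `GQ ⧸ U' ≃* Gal(L/ℚ)` is `Gal(L/K)` (the hypothesis `hH` of
`D.Realize.N3.of_equiv`), for `U₀`, `U'` the subgroups fixing the images of `K`, `L`. -/
theorem map_layerSubK :
    (D.Realize.layerSub U₀ U').map
        ((eK ιL U' h' : GQ ⧸ U' ≃* (L ≃ₐ[ℚ] L)) : GQ ⧸ U' →* (L ≃ₐ[ℚ] L)) =
      (galHom K L).range := by
  subst h₀
  ext τ
  constructor
  · rintro ⟨_, ⟨σ, hσ, rfl⟩, rfl⟩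
    have hfix : ∀ a : K, (eK ιL U' h' (σ : GQ ⧸ U')) (algebraMap K L a) = algebraMap K L a := by
      intro a
      exact ιL.injective ((ι_eK ιL U' h' σ _).trans
        ((IntermediateField.mem_fixingSubgroup_iff _ σ).mp hσ _ ⟨a, rfl⟩))
    refine ⟨AlgEquiv.ofRingEquiv (f := (eK ιL U' h' (σ : GQ ⧸ U')).toRingEquiv) hfix, ?_⟩
    ext x
    rfl
  · rintro ⟨τ', rfl⟩
    obtain ⟨g, hg⟩ := (eK ιL U' h').surjective (galHom K L τ')
    obtain ⟨σ, rfl⟩ := QuotientGroup.mk_surjective g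
    refine ⟨(σ : GQ ⧸ U'), ⟨σ, ?_, rfl⟩, hg⟩
    rw [SetLike.mem_coe, IntermediateField.mem_fixingSubgroup_iff]
    rintro _ ⟨a, rfl⟩
    have h1 := ι_eK ιL U' h' σ (algebraMap K L a)
    rw [hg] at h1
    have h2 : galHom K L τ' (algebraMap K L a) = algebraMap K L a := τ'.commutes a
    rw [h2] at h1
    exact h1.symm

end Subgroup

end Fermat.Agent.CFT.Idele.LevelIsoK
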