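import Mathlib
import Fermat.Agent.CFT.Idele.LevelD
import Fermat.Agent.CFT.Idele.SmoothRep
import Fermat.Agent.CFT.D.RealizeField

/-!
# PROJECT C, slice (LD-norm): layers of `Gal(Ω/ℚ)` versus relative Galois groups, and the norm

`Ω/ℚ` Galois.  `K ⊆ L` fields (types, `[Algebra K L]`) with embeddings `ιK : K →ₐ[ℚ] Ω`,
`ι : L →ₐ[ℚ] Ω` extending each other (`hι`), `L/ℚ` normal, and subgroups `UK`, `U` of
`Gal(Ω/ℚ)` which are the fixing subgroups of the images (`hUK`, `hU`, in elementwise form, so that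
intermediate fields of `Ω` and abstract fields with embeddings are both covered).
-/

set_option autoImplicit false
set_option linter.unusedSectionVars false
set_option linter.style.haveILetI false
set_option linter.overlappingInstances false

noncomputable section

namespace Fermat.Agent.CFT.Idele.LevelNorm

open Fermat.Agent.CFT.D.Realize Fermat.Agent.CFT.C6.IdeleNorm

attribute [local instance 2000] IntermediateField.algebra'

/-! ### Restriction to an embedded normal field -/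

section Res

variable {Ω : Type*} [Field Ω] [Algebra ℚ Ω] {L : Type*} [Field L] [Algebra ℚ L] [Normal ℚ L]
  (ι : L →ₐ[ℚ] Ω)

/-- Restriction of the automorphisms of `Ω` to the normal field `L` embedded by `ι`. -/
def resHom : (Ω ≃ₐ[ℚ] Ω) →* (L ≃ₐ[ℚ] L) :=
  letI : Algebra L Ω := ι.toRingHom.toAlgebra
  haveI : IsScalarTower ℚ L Ω := IsScalarTower.of_algebraMap_eq' ι.comp_algebraMap.symm
  AlgEquiv.restrictNormalHom L

theorem resHom_commutes (σ : Ω ≃ₐ[ℚ] Ω) (a : L) : ι (resHom ι σ a) = σ (ι a) := by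
  letI : Algebra L Ω := ι.toRingHom.toAlgebra
  haveI : IsScalarTower ℚ L Ω := IsScalarTower.of_algebraMap_eq' ι.comp_algebraMap.symm
  exact AlgEquiv.restrictNormal_commutes σ L a

theorem resHom_surjective [Normal ℚ Ω] : Function.Surjective (resHom ι) := by
  letI : Algebra L Ω := ι.toRingHom.toAlgebra
  haveI : IsScalarTower ℚ L Ω := IsScalarTower.of_algebraMap_eq' ι.comp_algebraMap.symm
  exact AlgEquiv.restrictNormalHom_surjective Ω

theorem resHom_eq_iff (σ : Ω ≃ₐ[ℚ] Ω) (τ : L ≃ₐ[ℚ] L) :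
    resHom ι σ = τ ↔ ∀ a : L, σ (ι a) = ι (τ a) := by
  constructor
  · rintro rfl a
    exact (resHom_commutes ι σ a).symm
  · intro h
    ext a
    apply ι.toRingHom.injective
    change ι (resHom ι σ a) = ι (τ a)
    rw [resHom_commutes, h]

variable (U : Subgroup (Ω ≃ₐ[ℚ] Ω)) (hU : ∀ σ, σ ∈ U ↔ ∀ a : L, σ (ι a) = ι a)

include hU in
theorem ker_resHom : U = (resHom ι).ker := by
  ext σ
  rw [hU, MonoidHom.mem_ker, resHom_eq_iff]
  rfl

/-- `Gal(Ω/ℚ) ⧸ U ≃* Gal(L/ℚ)` for `U` the fixing subgroup of the image of `L`. -/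
def quotEquiv [U.Normal] [Normal ℚ Ω] : (Ω ≃ₐ[ℚ] Ω) ⧸ U ≃* (L ≃ₐ[ℚ] L) :=
  QuotientGroup.liftEquiv U (φ := resHom ι) (resHom_surjective ι) (ker_resHom ι U hU)

theorem quotEquiv_mk [U.Normal] [Normal ℚ Ω] (σ : Ω ≃ₐ[ℚ] Ω) :
    quotEquiv ι U hU (QuotientGroup.mk σ) = resHom ι σ := rfl

theorem quotEquiv_mk_apply [U.Normal] [Normal ℚ Ω] (σ : Ω ≃ₐ[ℚ] Ω) (a : L) :
    ι (quotEquiv ι U hU (QuotientGroup.mk σ) a) = σ (ι a) :=
  resHom_commutes ι σ a

end Res

/-! ### (d3): the layer `UK / U` is the relative Galois group -/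

section Layer

variable {Ω : Type} [Field Ω] [Algebra ℚ Ω] [Normal ℚ Ω]
  {K L : Type*} [Field K] [Field L] [Algebra ℚ K] [Algebra ℚ L] [Algebra K L]
  [IsScalarTower ℚ K L] [Normal ℚ L]
  (ιK : K →ₐ[ℚ] Ω) (ι : L →ₐ[ℚ] Ω) (hι : ∀ a : K, ι (algebraMap K L a) = ιK a)
  (UK U : Subgroup (Ω ≃ₐ[ℚ] Ω)) [U.Normal]
  (hUK : ∀ σ, σ ∈ UK ↔ ∀ a : K, σ (ιK a) = ιK a) (hU : ∀ σ, σ ∈ U ↔ ∀ a : L, σ (ι a) = ι a)

include hι hUK hU in
/-- The image in `Gal(L/ℚ)` of an element of the layer `UK / U` fixes `K`. -/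
theorem quotEquiv_commutes (h : layerSub UK U) (a : K) :
    quotEquiv ι U hU (h : (Ω ≃ₐ[ℚ] Ω) ⧸ U) (algebraMap K L a) = algebraMap K L a := by
  obtain ⟨_, σ, hσ, rfl⟩ := h
  apply ι.toRingHom.injective
  change ι (quotEquiv ι U hU (QuotientGroup.mk σ) (algebraMap K L a)) = ι (algebraMap K L a)
  rw [quotEquiv_mk_apply, hι]
  exact (hUK σ).mp hσ a

/-- `UK / U → Gal(L/K)`. -/
def layerToGal : layerSub UK U →* (L ≃ₐ[K] L) where
  toFun h :=
    { (quotEquiv ι U hU (h : (Ω ≃ₐ[ℚ] Ω) ⧸ U)).toRingEquiv with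
      commutes' := quotEquiv_commutes ιK ι hι UK U hUK hU h }
  map_one' := by
    ext a
    change quotEquiv ι U hU ((1 : layerSub UK U) : (Ω ≃ₐ[ℚ] Ω) ⧸ U) a = a
    rw [Subgroup.coe_one, map_one]
    rfl
  map_mul' h h' := by
    ext a
    change quotEquiv ι U hU ((h * h' : layerSub UK U) : (Ω ≃ₐ[ℚ] Ω) ⧸ U) a = _
    rw [Subgroup.coe_mul, map_mul]
    rfl

theorem galHom_layerToGal (h : layerSub UK U) :
    galHom K L (layerToGal ιK ι hι UK U hUK hU h) = quotEquiv ι U hU (h : (Ω ≃ₐ[ℚ] Ω) ⧸ U) := by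
  ext a
  rfl

theorem layerToGal_injective : Function.Injective (layerToGal ιK ι hι UK U hUK hU) := by
  intro h h' hh
  apply Subtype.ext
  apply (quotEquiv ι U hU).injective
  rw [← galHom_layerToGal ιK ι hι UK U hUK hU, ← galHom_layerToGal ιK ι hι UK U hUK hU, hh]

include hι hUK in
/-- An automorphism of `Ω` inducing a `K`-automorphism of `L` lies in `UK`. -/
theorem mem_UK_of_resHom_eq (σ : Ω ≃ₐ[ℚ] Ω) (τ : L ≃ₐ[K] L) (h : resHom ι σ = galHom K L τ) :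
    σ ∈ UK := by
  rw [hUK]
  intro a
  rw [← hι, (resHom_eq_iff ι σ _).mp h, galHom_apply, τ.commutes]

theorem layerToGal_surjective : Function.Surjective (layerToGal ιK ι hι UK U hUK hU) := by
  intro τ
  obtain ⟨σ, hσ⟩ := resHom_surjective ι (galHom K L τ)
  refine ⟨⟨QuotientGroup.mk σ, σ, mem_UK_of_resHom_eq ιK ι hι UK hUK σ τ hσ, rfl⟩, ?_⟩
  apply galHom_injective K L
  rw [galHom_layerToGal]
  exact hσ

/-- **(d3)** `UK / U ≃* Gal(L/K)`. -/
def layerGalEquiv : layerSub UK U ≃* (L ≃ₐ[K] L) :=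
  MulEquiv.ofBijective (layerToGal ιK ι hι UK U hUK hU)
    ⟨layerToGal_injective ιK ι hι UK U hUK hU, layerToGal_surjective ιK ι hι UK U hUK hU⟩

theorem galHom_layerGalEquiv (h : layerSub UK U) :
    galHom K L (layerGalEquiv ιK ι hι UK U hUK hU h) =
      quotEquiv ι U hU (h : (Ω ≃ₐ[ℚ] Ω) ⧸ U) :=
  galHom_layerToGal ιK ι hι UK U hUK hU h

/-- The characterisation of `layerGalEquiv`: it is induced by restriction to `L`. -/
theorem layerGalEquiv_mk_apply (σ : Ω ≃ₐ[ℚ] Ω) (hσ : σ ∈ UK) (a : L) :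
    ι (layerGalEquiv ιK ι hι UK U hUK hU ⟨QuotientGroup.mk σ, σ, hσ, rfl⟩ a) = σ (ι a) :=
  quotEquiv_mk_apply ι U hU σ a

include hι hUK in
theorem map_layerSub_quotEquiv :
    (layerSub UK U).map ((quotEquiv ι U hU : (Ω ≃ₐ[ℚ] Ω) ⧸ U ≃* (L ≃ₐ[ℚ] L)) :
      (Ω ≃ₐ[ℚ] Ω) ⧸ U →* (L ≃ₐ[ℚ] L)) = (galHom K L).range := by
  ext τ
  constructor
  · rintro ⟨h, hh, rfl⟩
    exact ⟨layerGalEquiv ιK ι hι UK U hUK hU ⟨h, hh⟩,
      galHom_layerGalEquiv ιK ι hι UK U hUK hU ⟨h, hh⟩⟩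
  · rintro ⟨τ, rfl⟩
    obtain ⟨h, rfl⟩ := (layerGalEquiv ιK ι hι UK U hUK hU).surjective τ
    exact ⟨h, h.2, (galHom_layerGalEquiv ιK ι hι UK U hUK hU h).symm⟩

include hι hUK hU in
theorem card_layerSub [FiniteDimensional K L] [IsGalois K L] :
    Nat.card (layerSub UK U) = Module.finrank K L := by
  rw [Nat.card_congr (layerGalEquiv ιK ι hι UK U hUK hU).toEquiv, IsGalois.card_aut_eq_finrank]

/-! ### A transversal of `UK / U` indexed by `Gal(L/K)` -/

/-- A lift to `Ω` of a `K`-automorphism of `L`. -/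
def lift (τ : L ≃ₐ[K] L) : Ω ≃ₐ[ℚ] Ω :=
  Classical.choose (resHom_surjective ι (galHom K L τ))

theorem resHom_lift (τ : L ≃ₐ[K] L) : resHom ι (lift ι τ) = galHom K L τ :=
  Classical.choose_spec (resHom_surjective ι (galHom K L τ))

theorem lift_apply (τ : L ≃ₐ[K] L) (a : L) : lift ι τ (ι a) = ι (τ a) :=
  (resHom_eq_iff ι _ _).mp (resHom_lift ι τ) a

include hι hUK in
theorem lift_mem (τ : L ≃ₐ[K] L) : lift ι τ ∈ UK :=
  mem_UK_of_resHom_eq ιK ι hι UK hUK _ τ (resHom_lift ι τ)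

theorem layerGalEquiv_mk_lift (τ : L ≃ₐ[K] L) :
    layerGalEquiv ιK ι hι UK U hUK hU
      ⟨QuotientGroup.mk (lift ι τ), lift ι τ, lift_mem ιK ι hι UK hUK τ, rfl⟩ = τ := by
  apply galHom_injective K L
  rw [galHom_layerGalEquiv]
  exact resHom_lift ι τ

theorem layerGalEquiv_symm_apply (τ : L ≃ₐ[K] L) :
    (layerGalEquiv ιK ι hι UK U hUK hU).symm τ =
      ⟨QuotientGroup.mk (lift ι τ), lift ι τ, lift_mem ιK ι hι UK hUK τ, rfl⟩ := by
  rw [MulEquiv.symm_apply_eq, layerGalEquiv_mk_lift]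

include hU in
/-- The lifts form a transversal of `UK / U` (the hypothesis `hbij` of `N3.of_transversal`). -/
theorem bijective_lift :
    Function.Bijective (fun τ : L ≃ₐ[K] L =>
      (⟨((lift ι τ : Ω ≃ₐ[ℚ] Ω) : (Ω ≃ₐ[ℚ] Ω) ⧸ U), lift ι τ, lift_mem ιK ι hι UK hUK τ, rfl⟩ :
        layerSub UK U)) := by
  have h : (fun τ : L ≃ₐ[K] L =>
      (⟨((lift ι τ : Ω ≃ₐ[ℚ] Ω) : (Ω ≃ₐ[ℚ] Ω) ⧸ U), lift ι τ, lift_mem ιK ι hι UK hUK τ, rfl⟩ :
        layerSub UK U)) = (layerGalEquiv ιK ι hι UK U hUK hU).symm := by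
    funext τ
    exact (layerGalEquiv_symm_apply ιK ι hι UK U hUK hU τ).symm
  rw [h]
  exact (layerGalEquiv ιK ι hι UK U hUK hU).symm.bijective

end Layer

/-! ### (d2): the norm of the layer is the idele norm -/

section Norm

variable {Ω : Type} [Field Ω] [Algebra ℚ Ω] [Algebra.IsAlgebraic ℚ Ω]
  {K L : Type} [Field K] [Field L] [Algebra ℚ K] [Algebra ℚ L] [Algebra K L]
  [IsScalarTower ℚ K L] [Algebra.IsAlgebraic ℚ K] [Algebra.IsAlgebraic ℚ L]
  [FiniteDimensional K L] [IsGalois K L]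
  (ιK : K →ₐ[ℚ] Ω) (ι : L →ₐ[ℚ] Ω) (hι : ∀ a : K, ι (algebraMap K L a) = ιK a)
  (S : Set Nat.Primes)

include hι in
/-- **Norm compatibility, multiplicative core**: for automorphisms `t τ` of `Ω` inducing the
`K`-automorphisms `τ` of `L`, the product of the `t τ`-conjugates of the image of an `S`-idele
class of `L` is the image of its norm. -/
theorem prod_smul_map_toCS (t : (L ≃ₐ[K] L) → (Ω ≃ₐ[ℚ] Ω))
    (ht : ∀ τ a, t τ (ι a) = ι (τ a)) (x : J L) :
    ∏ τ : L ≃ₐ[K] L, t τ • CS.map ι (toCS L S x) = CS.map ιK (toCS K S (normJ K L x)) := by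
  have e : ιK = ι.comp (inclHom K L) := AlgHom.ext fun a => (hι a).symm
  rw [e, CS.map_comp, ← prod_smul_toCS, map_prod]
  refine Finset.prod_congr rfl fun τ _ => ?_
  exact (CS.map_smul ι (galHom K L τ) (t τ) (fun a => ht τ a) _).symm

end Norm

/-! ### The map `C_S(L) → C_S` of an embedded field, and the layer -/

section Emb

variable {Ω : Type} [Field Ω] [Algebra ℚ Ω] [Algebra.IsAlgebraic ℚ Ω]
  {P : IntermediateField ℚ Ω → Prop} (hP : IsFieldFilter P) (S : Set Nat.Primes)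
  {L : Type} [Field L] [Algebra ℚ L] [Algebra.IsAlgebraic ℚ L] (ι : L →ₐ[ℚ] Ω)
  (hJ : ∀ y : J L, J.map ι y ∈ JP hP)

/-- The ideles of a field embedded in `Ω` with image in the family are `P`-smooth. -/
theorem map_mem_JP_of_fieldRange [IsGalois ℚ Ω] (hL : P ι.fieldRange) (y : J L) :
    J.map ι y ∈ JP hP := by
  rw [mem_JP_iff_fixed]
  refine ⟨ι.fieldRange, hL, fun σ hσ => ?_⟩
  exact J.smul_map_of_fixes ι σ
    (fun a => (IntermediateField.mem_fixingSubgroup_iff _ σ).mp hσ (ι a) ⟨a, rfl⟩) y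

/-- `C_S(L) → C_S` for a field `L` embedded in `Ω` whose ideles are `P`-smooth. -/
def ofEmb : CS L S →* CD hP S where
  toFun c := ⟨CS.map ι c, by
    obtain ⟨y, rfl⟩ := toCS_surjective L S c
    exact ⟨J.map ι y, hJ y, rfl⟩⟩
  map_one' := Subtype.ext (map_one _)
  map_mul' c d := Subtype.ext (map_mul _ c d)

theorem ofEmb_val (c : CS L S) : ((ofEmb hP S ι hJ c : CD hP S) : CS Ω S) = CS.map ι c := rfl

/-- For an intermediate field of the family, `ofEmb` is `CD.ofLevel`. -/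
theorem ofLevel_eq_ofEmb {F : IntermediateField ℚ Ω} (hF : P F) :
    CD.ofLevel hP S hF = ofEmb hP S F.val (J.map_val_mem_JP hF) := rfl

theorem smul_ofEmb_of_fixes (σ : Ω ≃ₐ[ℚ] Ω) (hσ : ∀ a : L, σ (ι a) = ι a) (c : CS L S) :
    σ • ofEmb hP S ι hJ c = ofEmb hP S ι hJ c := by
  apply Subtype.ext
  rw [CD.coe_smul, ofEmb_val]
  exact CS.smul_map_of_fixes ι σ hσ c

theorem smul_ofEmb [Normal ℚ L] (σ : Ω ≃ₐ[ℚ] Ω) (c : CS L S) :
    σ • ofEmb hP S ι hJ c = ofEmb hP S ι hJ (resHom ι σ • c) := by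
  apply Subtype.ext
  rw [CD.coe_smul, ofEmb_val, ofEmb_val]
  exact (CS.map_smul ι (resHom ι σ) σ (fun a => (resHom_commutes ι σ a).symm) c).symm

variable (U : Subgroup (Ω ≃ₐ[ℚ] Ω)) [U.Normal] (hU : ∀ σ, σ ∈ U ↔ ∀ a : L, σ (ι a) = ι a)

/-- `C_S(L) → (C_S)^U`, the map to the layer of `U = Gal(Ω/L)`. -/
def toLayer : Additive (CS L S) →+ ((repCD hP S).quotientToInvariants U).V where
  toFun c := ⟨Additive.ofMul (ofEmb hP S ι hJ c.toMul), fun u =>
    congrArg Additive.ofMul (smul_ofEmb_of_fixes hP S ι hJ u.1 ((hU u.1).mp u.2) c.toMul)⟩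
  map_zero' := Subtype.ext (by simp only [toMul_zero, map_one]; rfl)
  map_add' c d := Subtype.ext (by simp only [toMul_add, map_mul]; rfl)

theorem toLayer_coe (c : Additive (CS L S)) :
    ((toLayer hP S ι hJ U hU c).1 : Additive (CD hP S)) =
      Additive.ofMul (ofEmb hP S ι hJ c.toMul) := rfl

/-- Equivariance of `toLayer`, for a representative. -/
theorem ρ_mk_toLayer [Normal ℚ L] (σ : Ω ≃ₐ[ℚ] Ω) (c : Additive (CS L S)) :
    ((repCD hP S).quotientToInvariants U).ρ (QuotientGroup.mk σ) (toLayer hP S ι hJ U hU c) =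
      toLayer hP S ι hJ U hU ((repCS L S).ρ (resHom ι σ) c) := by
  apply Subtype.ext
  exact congrArg Additive.ofMul (smul_ofEmb hP S ι hJ σ c.toMul)

/-- Equivariance of `toLayer` through `Gal(Ω/ℚ) ⧸ U ≃* Gal(L/ℚ)`. -/
theorem ρ_toLayer [Normal ℚ L] [Normal ℚ Ω] (g : (Ω ≃ₐ[ℚ] Ω) ⧸ U) (c : Additive (CS L S)) :
    ((repCD hP S).quotientToInvariants U).ρ g (toLayer hP S ι hJ U hU c) =
      toLayer hP S ι hJ U hU ((repCS L S).ρ (quotEquiv ι U hU g) c) := by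
  induction g using QuotientGroup.induction_on with | H σ =>
  exact ρ_mk_toLayer hP S ι hJ U hU σ c

end Emb

/-! ### (d2) at the level of the layer -/

section LayerNorm

variable {Ω : Type} [Field Ω] [Algebra ℚ Ω] [Algebra.IsAlgebraic ℚ Ω] [Normal ℚ Ω]
  {P : IntermediateField ℚ Ω → Prop} (hP : IsFieldFilter P) (S : Set Nat.Primes)
  {K L : Type} [Field K] [Field L] [Algebra ℚ K] [Algebra ℚ L] [Algebra K L]
  [IsScalarTower ℚ K L] [Algebra.IsAlgebraic ℚ K] [Algebra.IsAlgebraic ℚ L] [Normal ℚ L]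
  [FiniteDimensional K L] [IsGalois K L]
  (ιK : K →ₐ[ℚ] Ω) (ι : L →ₐ[ℚ] Ω) (hι : ∀ a : K, ι (algebraMap K L a) = ιK a)
  (hJK : ∀ y : J K, J.map ιK y ∈ JP hP) (hJ : ∀ y : J L, J.map ι y ∈ JP hP)
  (UK U : Subgroup (Ω ≃ₐ[ℚ] Ω)) [U.Normal]
  (hUK : ∀ σ, σ ∈ UK ↔ ∀ a : K, σ (ιK a) = ιK a) (hU : ∀ σ, σ ∈ U ↔ ∀ a : L, σ (ι a) = ι a)

include hι hUK in
/-- **(d2)** The norm of the layer `(C_S)^U` for the group `UK / U ≃ Gal(L/K)` is the idele norm:
`∑_{h ∈ UK/U} h • [x] = [N_{L/K} x]` in `C_S`, for `x` an idele of `L`. -/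
theorem sum_ρ_toLayer [Fintype (layerSub UK U)] (x : J L) :
    ((∑ h : layerSub UK U, ((repCD hP S).quotientToInvariants U).ρ (h : (Ω ≃ₐ[ℚ] Ω) ⧸ U)
        (toLayer hP S ι hJ U hU (Additive.ofMul (toCS L S x))) :
          ((repCD hP S).quotientToInvariants U).V) : (repCD hP S).V) =
      Additive.ofMul (ofEmb hP S ιK hJK (toCS K S (normJ K L x))) := by
  classical
  rw [Submodule.coe_sum]
  refine ((Fintype.sum_equiv (layerGalEquiv ιK ι hι UK U hUK hU).symm.toEquiv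
    (fun τ : L ≃ₐ[K] L => (Additive.ofMul (lift ι τ • ofEmb hP S ι hJ (toCS L S x)) :
      Additive (CD hP S)))
    (fun h : layerSub UK U => ((((repCD hP S).quotientToInvariants U).ρ (h : (Ω ≃ₐ[ℚ] Ω) ⧸ U)
        (toLayer hP S ι hJ U hU (Additive.ofMul (toCS L S x)))).1 : (repCD hP S).V))
    (fun τ => by
      rw [MulEquiv.toEquiv_eq_coe, MulEquiv.coe_toEquiv, layerGalEquiv_symm_apply]
      rfl)).symm).trans ?_
  rw [← ofMul_prod]
  congr 1
  apply Subtype.ext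
  rw [Subgroup.val_finsetProd, ofEmb_val]
  rw [← prod_smul_map_toCS ιK ι hι S (lift ι) (fun τ a => lift_apply ι τ a) x]
  rfl

end LayerNorm

/-! ### The two standard instances of the hypotheses -/

section Instances

variable {Ω : Type*} [Field Ω] [Algebra ℚ Ω]

/-- Membership in the fixing subgroup of the image of an embedding. -/
theorem mem_fixingSubgroup_fieldRange_iff {L : Type*} [Field L] [Algebra ℚ L] (ι : L →ₐ[ℚ] Ω)
    (σ : Ω ≃ₐ[ℚ] Ω) : σ ∈ ι.fieldRange.fixingSubgroup ↔ ∀ a : L, σ (ι a) = ι a := by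
  rw [IntermediateField.mem_fixingSubgroup_iff]
  constructor
  · intro h a
    exact h (ι a) ⟨a, rfl⟩
  · rintro h _ ⟨a, rfl⟩
    exact h a

/-- Membership in the fixing subgroup of an intermediate field, in terms of `F.val`. -/
theorem mem_fixingSubgroup_val_iff (F : IntermediateField ℚ Ω) (σ : Ω ≃ₐ[ℚ] Ω) :
    σ ∈ F.fixingSubgroup ↔ ∀ a : F, σ (F.val a) = F.val a := by
  rw [IntermediateField.mem_fixingSubgroup_iff]
  constructor
  · intro h a
    exact h a a.2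
  · intro h a ha
    exact h ⟨a, ha⟩

theorem mem_iff_of_fieldRange_eq {L : Type*} [Field L] [Algebra ℚ L] (ι : L →ₐ[ℚ] Ω)
    (U : Subgroup (Ω ≃ₐ[ℚ] Ω)) (h : ι.fieldRange.fixingSubgroup = U) (σ : Ω ≃ₐ[ℚ] Ω) :
    σ ∈ U ↔ ∀ a : L, σ (ι a) = ι a := by
  rw [← h]
  exact mem_fixingSubgroup_fieldRange_iff ι σ

theorem mem_iff_of_eq (F : IntermediateField ℚ Ω) (U : Subgroup (Ω ≃ₐ[ℚ] Ω))
    (h : F.fixingSubgroup = U) (σ : Ω ≃ₐ[ℚ] Ω) :
    σ ∈ U ↔ ∀ a : F, σ (F.val a) = F.val a := by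
  rw [← h]
  exact mem_fixingSubgroup_val_iff F σ

/-- The fixing subgroup of the image of a normal field is normal. -/
theorem normal_of_mem_iff {L : Type*} [Field L] [Algebra ℚ L] [Normal ℚ L] (ι : L →ₐ[ℚ] Ω)
    (U : Subgroup (Ω ≃ₐ[ℚ] Ω)) (hU : ∀ σ, σ ∈ U ↔ ∀ a : L, σ (ι a) = ι a) : U.Normal := by
  rw [ker_resHom ι U hU]
  exact MonoidHom.normal_ker _

end Instances

/-! ### Intermediate fields `K ≤ M` of `Ω` -/

section IF

variable {Ω : Type} [Field Ω] [Algebra ℚ Ω] [Algebra.IsAlgebraic ℚ Ω] [IsGalois ℚ Ω]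
  {P : IntermediateField ℚ Ω → Prop} (hP : IsFieldFilter P) (S : Set Nat.Primes)
  {K M : IntermediateField ℚ Ω} (hK : P K) (hM : P M) (hle : K ≤ M) [Normal ℚ M]
  (UK U : Subgroup (Ω ≃ₐ[ℚ] Ω)) [U.Normal] (hKU : K.fixingSubgroup = UK)
  (hMU : M.fixingSubgroup = U)

/-- **(d3)** for intermediate fields `K ≤ M` of `Ω` (`M/ℚ` normal): `UK / U ≃* Gal(M/K)`. -/
def layerGalEquivIF :
    letI : Algebra K M := relAlgebra hle
    layerSub UK U ≃* (M ≃ₐ[K] M) :=
  letI : Algebra K M := relAlgebra hle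
  haveI := relTower hle
  layerGalEquiv K.val M.val (fun _ => rfl) UK U (mem_iff_of_eq K UK hKU) (mem_iff_of_eq M U hMU)

/-- `layerGalEquivIF` is induced by restriction to `M`. -/
theorem layerGalEquivIF_mk_apply (σ : Ω ≃ₐ[ℚ] Ω) (hσ : σ ∈ UK) (a : M) :
    ((layerGalEquivIF hle UK U hKU hMU ⟨QuotientGroup.mk σ, σ, hσ, rfl⟩ a : M) : Ω) = σ (a : Ω) := by
  letI : Algebra K M := relAlgebra hle
  haveI := relTower hle
  exact layerGalEquiv_mk_apply K.val M.val (fun _ => rfl) UK U (mem_iff_of_eq K UK hKU)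
    (mem_iff_of_eq M U hMU) σ hσ a

include hP hM hKU hMU in
theorem card_layerSubIF :
    letI : Algebra K M := relAlgebra hle
    Nat.card (layerSub UK U) = Module.finrank K M := by
  letI : Algebra K M := relAlgebra hle
  haveI := relTower hle
  haveI := hP.fin hM
  haveI : IsGalois ℚ M := ⟨⟩
  haveI : IsGalois K M := IsGalois.tower_top_of_isGalois ℚ K M
  haveI : FiniteDimensional K M := FiniteDimensional.right ℚ K M
  exact card_layerSub K.val M.val (fun _ => rfl) UK U (mem_iff_of_eq K UK hKU) (mem_iff_of_eq M U hMU)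

/-- The map `C_S(M) → (C_S)^U` of a level `U = Gal(Ω/M)`. -/
def toLayerIF : Additive (CS M S) →+ ((repCD hP S).quotientToInvariants U).V :=
  toLayer hP S M.val (J.map_val_mem_JP hM) U (mem_iff_of_eq M U hMU)

theorem toLayerIF_coe (c : Additive (CS M S)) :
    ((toLayerIF hP S hM U hMU c).1 : Additive (CD hP S)) =
      Additive.ofMul (CD.ofLevel hP S hM c.toMul) := rfl

include hKU in
/-- **(d2)** for intermediate fields `K ≤ M` of the family: the norm of the layer `(C_S)^U`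
for `UK / U` is the idele norm `N_{M/K}`. -/
theorem sum_ρ_toLayerIF [Fintype (layerSub UK U)] :
    letI : Algebra K M := relAlgebra hle
    haveI := relTower hle
    ∀ [FiniteDimensional K M] [IsGalois K M] (x : J M),
    ((∑ h : layerSub UK U, ((repCD hP S).quotientToInvariants U).ρ (h : (Ω ≃ₐ[ℚ] Ω) ⧸ U)
        (toLayerIF hP S hM U hMU (Additive.ofMul (toCS M S x))) :
          ((repCD hP S).quotientToInvariants U).V) : (repCD hP S).V) =
      Additive.ofMul (CD.ofLevel hP S hK (toCS K S (normJ K M x))) := by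
  letI : Algebra K M := relAlgebra hle
  haveI := relTower hle
  intro _ _ x
  exact sum_ρ_toLayer hP S K.val M.val (fun _ => rfl) (J.map_val_mem_JP hK)
    (J.map_val_mem_JP hM) UK U (mem_iff_of_eq K UK hKU) (mem_iff_of_eq M U hMU) x

end IF

/-! ### Fields embedded in `Ω` with image in the family -/

section OfEmb

variable {Ω : Type} [Field Ω] [Algebra ℚ Ω] [Algebra.IsAlgebraic ℚ Ω] [IsGalois ℚ Ω]
  {P : IntermediateField ℚ Ω → Prop} (hP : IsFieldFilter P) (S : Set Nat.Primes)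
  {K L : Type} [Field K] [Field L] [Algebra ℚ K] [Algebra ℚ L] [Algebra K L]
  [IsScalarTower ℚ K L] [Algebra.IsAlgebraic ℚ K] [Algebra.IsAlgebraic ℚ L] [Normal ℚ L]
  (ιK : K →ₐ[ℚ] Ω) (ι : L →ₐ[ℚ] Ω) (hι : ∀ a : K, ι (algebraMap K L a) = ιK a)
  (hK : P ιK.fieldRange) (hL : P ι.fieldRange)
  (UK U : Subgroup (Ω ≃ₐ[ℚ] Ω)) [U.Normal] (hKU : ιK.fieldRange.fixingSubgroup = UK)
  (hLU : ι.fieldRange.fixingSubgroup = U)

/-- **(d3)** for fields embedded in `Ω`: `UK / U ≃* Gal(L/K)`. -/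
def layerGalEquivOfEmb : layerSub UK U ≃* (L ≃ₐ[K] L) :=
  layerGalEquiv ιK ι hι UK U (mem_iff_of_fieldRange_eq ιK UK hKU)
    (mem_iff_of_fieldRange_eq ι U hLU)

theorem layerGalEquivOfEmb_mk_apply (σ : Ω ≃ₐ[ℚ] Ω) (hσ : σ ∈ UK) (a : L) :
    ι (layerGalEquivOfEmb ιK ι hι UK U hKU hLU ⟨QuotientGroup.mk σ, σ, hσ, rfl⟩ a) = σ (ι a) :=
  layerGalEquiv_mk_apply ιK ι hι UK U _ _ σ hσ a

include hι hKU hLU in
theorem card_layerSubOfEmb [FiniteDimensional K L] [IsGalois K L] :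
    Nat.card (layerSub UK U) = Module.finrank K L :=
  card_layerSub ιK ι hι UK U (mem_iff_of_fieldRange_eq ιK UK hKU)
    (mem_iff_of_fieldRange_eq ι U hLU)

/-- The map `C_S(L) → (C_S)^U` for a field embedded in `Ω` with image in the family. -/
def toLayerOfEmb : Additive (CS L S) →+ ((repCD hP S).quotientToInvariants U).V :=
  toLayer hP S ι (map_mem_JP_of_fieldRange hP ι hL) U (mem_iff_of_fieldRange_eq ι U hLU)

theorem toLayerOfEmb_coe (c : Additive (CS L S)) :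
    ((Additive.toMul ((toLayerOfEmb hP S ι hL U hLU c).1 : Additive (CD hP S)) : CD hP S) :
      CS Ω S) = CS.map ι c.toMul := rfl

include hι hKU in
/-- **(d2)** for fields embedded in `Ω` with images in the family. -/
theorem sum_ρ_toLayerOfEmb [FiniteDimensional K L] [IsGalois K L] [Fintype (layerSub UK U)]
    (x : J L) :
    ((∑ h : layerSub UK U, ((repCD hP S).quotientToInvariants U).ρ (h : (Ω ≃ₐ[ℚ] Ω) ⧸ U)
        (toLayerOfEmb hP S ι hL U hLU (Additive.ofMul (toCS L S x))) :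
          ((repCD hP S).quotientToInvariants U).V) : (repCD hP S).V) =
      Additive.ofMul (ofEmb hP S ιK (map_mem_JP_of_fieldRange hP ιK hK)
        (toCS K S (normJ K L x))) :=
  sum_ρ_toLayer hP S ιK ι hι _ _ UK U (mem_iff_of_fieldRange_eq ιK UK hKU)
    (mem_iff_of_fieldRange_eq ι U hLU) x

end OfEmb

end Fermat.Agent.CFT.Idele.LevelNorm
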