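import Mathlib
import Fermat.Agent.CFT.Idele.QS
import Fermat.Agent.CFT.Idele.LevelD
import Fermat.Agent.CFT.GaloisDict.Infinite

/-!
# PROJECT C, layer dictionary (LD-Z), second seat: the finite layers of `J_S` and `J_q`

`Ω/ℚ` Galois, `hP : IsFieldFilter P`, `F` a field of the family, normal over `ℚ`,
`U = F.fixingSubgroup` (given as `h : F.fixingSubgroup = U`).  We identify the layer
`X^U = X.quotientToInvariants U`, a representation of `Gal(Ω/ℚ) ⧸ U`, with the corresponding
module of `F`, a representation of `Gal(F/ℚ)`: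

* `levelEquiv F U h : Gal(Ω/ℚ) ⧸ U ≃* Gal(F/ℚ)`;
* `jqLayer hP hF U h q : ((repLocP hP q).quotientToInvariants U).V ≃ₗ[ℤ] Additive (Loc F q)ˣ`;
* `jLayer hP S hF U h : ((repJD hP S).quotientToInvariants U).V ≃ₗ[ℤ] Additive (JS F S)`;
* `eLayer hP S hF U h : ((repED hP S).quotientToInvariants U).V ≃ₗ[ℤ] Additive (TUnits F S)`;
* `*_compat` : equivariance, `e' ∘ₗ X^U.ρ g = Y.ρ (levelEquiv g) ∘ₗ e'`.

The construction is generic (`Generic` section): it only uses a monoid homomorphism
`f : B →* A` which is injective, whose range is the group of `U`-invariants, and which is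
equivariant along `e : G ⧸ U ≃* Γ`.
-/

set_option autoImplicit false
set_option linter.unusedSectionVars false

noncomputable section

namespace Fermat.Agent.CFT.Idele.LevelIsoJ

open Fermat.Agent.CFT.Idele

/-! ### The generic construction -/

section Generic

variable {G Γ : Type} [Group G] [Group Γ] {A B : Type} [CommGroup A] [CommGroup B]
  [MulDistribMulAction G A] [MulDistribMulAction Γ B]
  (U : Subgroup G) [U.Normal] (e : G ⧸ U ≃* Γ) (f : B →* A)

/-- `f` as a `ℤ`-linear map between the additive versions. -/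
def ofLevelLin : Additive B →ₗ[ℤ] Additive A := (MonoidHom.toAdditive f).toIntLinearMap

theorem ofLevelLin_apply (b : Additive B) :
    ofLevelLin f b = Additive.ofMul (f (Additive.toMul b)) := rfl

theorem ofLevelLin_injective (hinj : Function.Injective f) :
    Function.Injective (ofLevelLin f) := by
  intro a b h
  exact congrArg Additive.ofMul (hinj (congrArg Additive.toMul h))

theorem range_ofLevelLin (hrange : ∀ a : A, a ∈ f.range ↔ ∀ σ ∈ U, σ • a = a) :
    LinearMap.range (ofLevelLin f) =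
      Representation.invariants ((Rep.ofMulDistribMulAction G A).ρ.comp U.subtype) := by
  ext a
  constructor
  · rintro ⟨b, rfl⟩ σ
    exact congrArg Additive.ofMul ((hrange _).mp ⟨Additive.toMul b, rfl⟩ σ σ.2)
  · intro ha
    obtain ⟨b, hb⟩ := (hrange (Additive.toMul a)).mpr
      (fun σ hσ => congrArg Additive.toMul (ha ⟨σ, hσ⟩))
    exact ⟨Additive.ofMul b, congrArg Additive.ofMul hb⟩

/-- `B ≃ A^U` as `ℤ`-modules. -/
def ofLevelEquiv (hinj : Function.Injective f)
    (hrange : ∀ a : A, a ∈ f.range ↔ ∀ σ ∈ U, σ • a = a) :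
    Additive B ≃ₗ[ℤ]
      Representation.invariants ((Rep.ofMulDistribMulAction G A).ρ.comp U.subtype) :=
  (LinearEquiv.ofInjective (ofLevelLin f) (ofLevelLin_injective f hinj)).trans
    (LinearEquiv.ofEq _ _ (range_ofLevelLin U f hrange))

theorem coe_ofLevelEquiv (hinj : Function.Injective f)
    (hrange : ∀ a : A, a ∈ f.range ↔ ∀ σ ∈ U, σ • a = a) (b : Additive B) :
    (ofLevelEquiv U f hinj hrange b).1 = Additive.ofMul (f (Additive.toMul b)) := rfl

/-- **The layer equivalence** `A^U ≃ B`, in the direction of `A7.IsClassModule.of_equiv`. -/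
def layer (hinj : Function.Injective f)
    (hrange : ∀ a : A, a ∈ f.range ↔ ∀ σ ∈ U, σ • a = a) :
    ((Rep.ofMulDistribMulAction G A).quotientToInvariants U).V ≃ₗ[ℤ]
      (Rep.ofMulDistribMulAction Γ B).V :=
  (ofLevelEquiv U f hinj hrange).symm

theorem coe_layer_symm (hinj : Function.Injective f)
    (hrange : ∀ a : A, a ∈ f.range ↔ ∀ σ ∈ U, σ • a = a) (b : Additive B) :
    ((layer (Γ := Γ) U f hinj hrange).symm b).1 = Additive.ofMul (f (Additive.toMul b)) := rfl

theorem ofMul_map_layer (hinj : Function.Injective f)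
    (hrange : ∀ a : A, a ∈ f.range ↔ ∀ σ ∈ U, σ • a = a)
    (x : ((Rep.ofMulDistribMulAction G A).quotientToInvariants U).V) :
    Additive.ofMul (f (Additive.toMul (layer (Γ := Γ) U f hinj hrange x))) = x.1 := by
  have := coe_layer_symm (Γ := Γ) U f hinj hrange (layer (Γ := Γ) U f hinj hrange x)
  rw [LinearEquiv.symm_apply_apply] at this
  exact this.symm

/-- **Equivariance of the layer equivalence.** -/
theorem layer_compat (hinj : Function.Injective f)
    (hrange : ∀ a : A, a ∈ f.range ↔ ∀ σ ∈ U, σ • a = a)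
    (hsmul : ∀ (σ : G) (b : B), f (e (σ : G ⧸ U) • b) = σ • f b) (g : G ⧸ U) :
    (layer (Γ := Γ) U f hinj hrange).toLinearMap ∘ₗ
        ((Rep.ofMulDistribMulAction G A).quotientToInvariants U).ρ g =
      (Rep.ofMulDistribMulAction Γ B).ρ (e g) ∘ₗ
        (layer (Γ := Γ) U f hinj hrange).toLinearMap := by
  obtain ⟨σ, rfl⟩ := QuotientGroup.mk_surjective g
  apply LinearMap.ext
  intro x
  obtain ⟨b, rfl⟩ := (layer (Γ := Γ) U f hinj hrange).symm.surjective x
  change layer (Γ := Γ) U f hinj hrange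
      (((Rep.ofMulDistribMulAction G A).quotientToInvariants U).ρ (σ : G ⧸ U)
        ((layer (Γ := Γ) U f hinj hrange).symm b)) =
    (Rep.ofMulDistribMulAction Γ B).ρ (e (σ : G ⧸ U))
      (layer (Γ := Γ) U f hinj hrange ((layer (Γ := Γ) U f hinj hrange).symm b))
  rw [LinearEquiv.apply_symm_apply]
  apply (layer (Γ := Γ) U f hinj hrange).symm.injective
  rw [LinearEquiv.symm_apply_apply]
  apply Subtype.ext
  exact (congrArg Additive.ofMul (hsmul σ (Additive.toMul b))).symm

end Generic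

/-! ### The layers of `J_q`, `J_S`, `E_S` -/

attribute [local instance 2000] IntermediateField.algebra'

section Level

variable {Ω : Type} [Field Ω] [Algebra ℚ Ω] [Algebra.IsAlgebraic ℚ Ω] [IsGalois ℚ Ω]
  {P : IntermediateField ℚ Ω → Prop} (hP : IsFieldFilter P) (S : Set Nat.Primes)
  (F : IntermediateField ℚ Ω) (hF : P F) [Normal ℚ F]
  (U : Subgroup (Ω ≃ₐ[ℚ] Ω)) [U.Normal] (h : F.fixingSubgroup = U)

/- Shortcut instances, as in `LevelD`. -/
local instance (priority := 3000) unitsActionIF (F : IntermediateField ℚ Ω) :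
    MulDistribMulAction (F ≃ₐ[ℚ] F) (↥F)ˣ := AlgEquiv.instMulDistribMulActionUnits

local instance (priority := 3000) unitsSMulIF (F : IntermediateField ℚ Ω) :
    SMul (F ≃ₐ[ℚ] F) (↥F)ˣ := (unitsActionIF F).toSMul

/-- `Gal(Ω/ℚ) ⧸ U ≃* Gal(F/ℚ)` for `U = F.fixingSubgroup`: this IS
`GaloisDict.Infinite.layerQuotEquiv F U h` (reducible abbreviation). -/
abbrev levelEquiv : (Ω ≃ₐ[ℚ] Ω) ⧸ U ≃* (F ≃ₐ[ℚ] F) :=
  Fermat.Agent.CFT.GaloisDict.Infinite.layerQuotEquiv F U h

theorem levelEquiv_mk (σ : Ω ≃ₐ[ℚ] Ω) :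
    levelEquiv F U h (QuotientGroup.mk σ) = AlgEquiv.restrictNormalHom F σ := rfl

theorem levelEquiv_symm_restrictNormalHom (σ : Ω ≃ₐ[ℚ] Ω) :
    (levelEquiv F U h).symm (AlgEquiv.restrictNormalHom F σ) = QuotientGroup.mk σ := by
  rw [← levelEquiv_mk F U h, MulEquiv.symm_apply_apply]

variable {F}

/-- The finite-level model of the layer of `J_q`: `(F ⊗ ℚ_q)ˣ` with its `Gal(F/ℚ)`-action. -/
abbrev repLocF (F : IntermediateField ℚ Ω) (q : Nat.Primes) : Rep.{0} ℤ (F ≃ₐ[ℚ] F) :=
  Rep.ofMulDistribMulAction (F ≃ₐ[ℚ] F) (Loc F q)ˣ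

/-- **The layer of `J_q`**: `J_q^U ≃ (F ⊗ ℚ_q)ˣ`. -/
def jqLayer (q : Nat.Primes) :
    ((repLocP hP q).quotientToInvariants U).V ≃ₗ[ℤ] (repLocF F q).V :=
  layer U (LocP.ofLevel hP hF q) (LocP.ofLevel_injective hF q)
    (fun u => by rw [LocP.mem_range_ofLevel_iff hF q u, h])

theorem coe_jqLayer_symm (q : Nat.Primes) (u : Additive (Loc F q)ˣ) :
    ((jqLayer hP hF U h q).symm u).1 =
      Additive.ofMul (LocP.ofLevel hP hF q (Additive.toMul u)) := rfl

theorem jqLayer_compat (q : Nat.Primes) (g : (Ω ≃ₐ[ℚ] Ω) ⧸ U) :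
    (jqLayer hP hF U h q).toLinearMap ∘ₗ ((repLocP hP q).quotientToInvariants U).ρ g =
      (repLocF F q).ρ (levelEquiv F U h g) ∘ₗ (jqLayer hP hF U h q).toLinearMap :=
  layer_compat U (levelEquiv F U h) (LocP.ofLevel hP hF q) (LocP.ofLevel_injective hF q) _
    (fun σ u => LocP.ofLevel_smul hF q σ u) g

/-- **The layer of `J_S`**: `J_S^U ≃ J_S(F)`. -/
def jLayer : ((repJD hP S).quotientToInvariants U).V ≃ₗ[ℤ] (repJS F S).V :=
  layer U (JD.ofLevel hP S hF) (JD.ofLevel_injective hF)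
    (fun x => by rw [JD.mem_range_ofLevel_iff hF x, h])

theorem coe_jLayer_symm (y : Additive (JS F S)) :
    ((jLayer hP S hF U h).symm y).1 =
      Additive.ofMul (JD.ofLevel hP S hF (Additive.toMul y)) := rfl

theorem jLayer_compat (g : (Ω ≃ₐ[ℚ] Ω) ⧸ U) :
    (jLayer hP S hF U h).toLinearMap ∘ₗ ((repJD hP S).quotientToInvariants U).ρ g =
      (repJS F S).ρ (levelEquiv F U h g) ∘ₗ (jLayer hP S hF U h).toLinearMap :=
  layer_compat U (levelEquiv F U h) (JD.ofLevel hP S hF) (JD.ofLevel_injective hF) _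
    (fun σ y => JD.ofLevel_smul hF σ y) g

/-- **The layer of `E_S`**: `E_S^U ≃ E_S(F)`. -/
def eLayer : ((repED hP S).quotientToInvariants U).V ≃ₗ[ℤ] (repES F S).V :=
  layer U (ED.ofLevel hP S hF) (ED.ofLevel_injective hF)
    (fun a => by rw [ED.mem_range_ofLevel_iff hF a, h])

theorem coe_eLayer_symm (a : Additive (TUnits F S)) :
    ((eLayer hP S hF U h).symm a).1 =
      Additive.ofMul (ED.ofLevel hP S hF (Additive.toMul a)) := rfl

theorem eLayer_compat (g : (Ω ≃ₐ[ℚ] Ω) ⧸ U) :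
    (eLayer hP S hF U h).toLinearMap ∘ₗ ((repED hP S).quotientToInvariants U).ρ g =
      (repES F S).ρ (levelEquiv F U h g) ∘ₗ (eLayer hP S hF U h).toLinearMap :=
  layer_compat U (levelEquiv F U h) (ED.ofLevel hP S hF) (ED.ofLevel_injective hF) _
    (fun σ a => ED.ofLevel_smul hF σ a) g

/-- **The layer of `C_S`**: `C_S^U ≃ C_S(F)`, given `H¹(Gal(F'/F), U^S(F')) = 1` for the normal
`F' ⊇ F` of the family (hypothesis `hU` of `CD.mem_range_ofLevel_iff`). -/
def cLayer (hS : S.Nonempty)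
    (hH1 : ∀ F' : IntermediateField ℚ Ω, P F' → Normal ℚ F' → ∀ hle : F ≤ F',
      H1USVanishes S F F' hle) :
    ((repCD hP S).quotientToInvariants U).V ≃ₗ[ℤ] (repCS F S).V :=
  layer U (CD.ofLevel hP S hF) (CD.ofLevel_injective hF hS)
    (fun c => by rw [CD.mem_range_ofLevel_iff hF hS hH1 c, h])

theorem coe_cLayer_symm (hS : S.Nonempty)
    (hH1 : ∀ F' : IntermediateField ℚ Ω, P F' → Normal ℚ F' → ∀ hle : F ≤ F',
      H1USVanishes S F F' hle) (c : Additive (CS F S)) :
    ((cLayer hP S hF U h hS hH1).symm c).1 =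
      Additive.ofMul (CD.ofLevel hP S hF (Additive.toMul c)) := rfl

theorem cLayer_compat (hS : S.Nonempty)
    (hH1 : ∀ F' : IntermediateField ℚ Ω, P F' → Normal ℚ F' → ∀ hle : F ≤ F',
      H1USVanishes S F F' hle) (g : (Ω ≃ₐ[ℚ] Ω) ⧸ U) :
    (cLayer hP S hF U h hS hH1).toLinearMap ∘ₗ ((repCD hP S).quotientToInvariants U).ρ g =
      (repCS F S).ρ (levelEquiv F U h g) ∘ₗ (cLayer hP S hF U h hS hH1).toLinearMap :=
  layer_compat U (levelEquiv F U h) (CD.ofLevel hP S hF) (CD.ofLevel_injective hF hS) _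
    (fun σ c => CD.ofLevel_smul hF σ c) g

/-! ### Compatibility of the layer equivalences with the structure maps -/

/-- `J_S → J_q` on the layers is the `q`-component `J_S(F) → (F ⊗ ℚ_q)ˣ`. -/
theorem projHom_jLayer_symm (q : Nat.Primes) (y : Additive (JS F S)) :
    (projHom hP S q).hom ((jLayer hP S hF U h).symm y).1 =
      ((jqLayer hP hF U h q).symm
        (Additive.ofMul (((Additive.toMul y : JS F S).1 : ∀ q : Nat.Primes, (Loc F q)ˣ) q))).1 :=
  rfl

/-- `E_S → J_S` on the layers is the diagonal `E_S(F) → J_S(F)`. -/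
theorem edSC_f_eLayer_symm (a : Additive (TUnits F S)) :
    (edSC hP S).f.hom ((eLayer hP S hF U h).symm a).1 =
      ((jLayer hP S hF U h).symm (Additive.ofMul (diagS F S (Additive.toMul a)))).1 := by
  change Additive.ofMul (ED.diag hP S (ED.ofLevel hP S hF (Additive.toMul a))) =
    Additive.ofMul (JD.ofLevel hP S hF (diagS F S (Additive.toMul a)))
  exact congrArg Additive.ofMul (JD.ofLevel_diagS hF (Additive.toMul a)).symm

/-- `J_S → C_S` on the layers is `J_S(F) → C_S(F)`. -/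
theorem jdToCD_jLayer_symm (hS : S.Nonempty)
    (hH1 : ∀ F' : IntermediateField ℚ Ω, P F' → Normal ℚ F' → ∀ hle : F ≤ F',
      H1USVanishes S F F' hle) (y : Additive (JS F S)) :
    (jdToCD hP S).hom ((jLayer hP S hF U h).symm y).1 =
      ((cLayer hP S hF U h hS hH1).symm
        (Additive.ofMul (toCS F S ((Additive.toMul y : JS F S) : J F)))).1 :=
  rfl

end Level

/-! ### The instantiation at `Ω = ℚ̄`, `P F = F.IsUnramifiedOutside S` -/

section QSLayers

open Fermat.Agent.CFT.Bridge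
open scoped Fermat.Agent.CFT.Idele

variable (S : Finset Nat.Primes)

/-- A level of `levelsS S` is the fixing subgroup of a finite normal extension of `ℚ` unramified
outside `S`. -/
theorem exists_field_of_mem_levelsS {U : Subgroup GQ} (hU : U ∈ (levelsS S).sets) :
    ∃ F : IntermediateField ℚ Qbar, F.IsUnramifiedOutside S ∧ Normal ℚ F ∧
      F.fixingSubgroup = U := by
  obtain ⟨hN, F, hF, h⟩ := hU
  have := hF.1
  exact ⟨F, hF, Fermat.Agent.CFT.LocalBridge.normal_of_normal_fixingSubgroup F (h ▸ hN), h⟩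

variable {F : IntermediateField ℚ Qbar} (hF : F.IsUnramifiedOutside S) [Normal ℚ F]
  (U : Subgroup GQ) [U.Normal] (h : F.fixingSubgroup = U)

/-- The layer of `QS.Jq S q` at the level field `F`. -/
abbrev qsJqLayer (q : Nat.Primes) :
    ((QS.Jq S q).quotientToInvariants U).V ≃ₗ[ℤ] (repLocF F q).V :=
  jqLayer (isFieldFilter_unram S) hF U h q

theorem qsJqLayer_compat (q : Nat.Primes) (g : GQ ⧸ U) :
    (qsJqLayer S hF U h q).toLinearMap ∘ₗ ((QS.Jq S q).quotientToInvariants U).ρ g =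
      (repLocF F q).ρ (levelEquiv F U h g) ∘ₗ (qsJqLayer S hF U h q).toLinearMap :=
  jqLayer_compat (isFieldFilter_unram S) hF U h q g

/-- The layer of `QS.J S` at the level field `F`. -/
abbrev qsJLayer :
    ((QS.J S).quotientToInvariants U).V ≃ₗ[ℤ] (repJS F (S : Set Nat.Primes)).V :=
  jLayer (isFieldFilter_unram S) (S : Set Nat.Primes) hF U h

theorem qsJLayer_compat (g : GQ ⧸ U) :
    (qsJLayer S hF U h).toLinearMap ∘ₗ ((QS.J S).quotientToInvariants U).ρ g =
      (repJS F (S : Set Nat.Primes)).ρ (levelEquiv F U h g) ∘ₗ (qsJLayer S hF U h).toLinearMap :=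
  jLayer_compat (isFieldFilter_unram S) (S : Set Nat.Primes) hF U h g

/-- The layer of `QS.E S` at the level field `F`. -/
abbrev qsELayer :
    ((QS.E S).quotientToInvariants U).V ≃ₗ[ℤ] (repES F (S : Set Nat.Primes)).V :=
  eLayer (isFieldFilter_unram S) (S : Set Nat.Primes) hF U h

theorem qsELayer_compat (g : GQ ⧸ U) :
    (qsELayer S hF U h).toLinearMap ∘ₗ ((QS.E S).quotientToInvariants U).ρ g =
      (repES F (S : Set Nat.Primes)).ρ (levelEquiv F U h g) ∘ₗ (qsELayer S hF U h).toLinearMap :=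
  eLayer_compat (isFieldFilter_unram S) (S : Set Nat.Primes) hF U h g

end QSLayers

end Fermat.Agent.CFT.Idele.LevelIsoJ
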