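import Mathlib
import Fermat.Agent.CFT.Idele.QS
import Fermat.Agent.CFT.LocalBridge.Tensor

/-!
# PROJECT C, slice C2 (ideles), part 14: the evaluation `π_q : J_q → ℚ̄_qˣ`

* `evalQ q : Loc Qbar q →ₐ[ℚ] PadicAlgCl q`, `a ⊗ c ↦ padicEmbedding a * c` (the place of `ℚ̄` over
  `q` cut out by the prelude's `padicEmbedding`); `evalQ_map_val` : on `F ⊗ ℚ_q` it is helper4's
  `LocalBridge.locEval q F`;
* `evalQ_aut` : equivariance for `localGaloisToGlobal q : Gal(ℚ̄_q/ℚ_q) → Gal(ℚ̄/ℚ)`;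
* `evalUnits q : (Loc Qbar q)ˣ →* (PadicAlgCl q)ˣ`;
* `QS.pi S q : Rep.res (localGaloisToGlobal q) (QS.Jq S q) ⟶ Rep.ofAlgebraAutOnUnits ℚ_q ℚ̄_q`,
  the morphism `π_q` of (h4) in the D-plan, and `QS.loc S q := res(proj) ≫ π_q` on `J_S`.
-/

set_option autoImplicit false

noncomputable section

open scoped TensorProduct
open CategoryTheory

namespace Fermat.Agent.CFT.Idele

open Fermat.Agent.CFT.Bridge Fermat.Agent.CFT.LocalBridge

attribute [local instance 2000] IntermediateField.algebra'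

variable (q : Nat.Primes)

/-- Evaluation of `ℚ̄ ⊗ ℚ_q` at the place of `ℚ̄` cut out by `padicEmbedding q`. -/
def evalQ : Loc Qbar q →ₐ[ℚ] PadicAlgCl (q : ℕ) :=
  Algebra.TensorProduct.productMap (padicEmbedding (q : ℕ))
    (IsScalarTower.toAlgHom ℚ ℚ_[(q : ℕ)] (PadicAlgCl (q : ℕ)))

@[simp] theorem evalQ_tmul (a : Qbar) (c : ℚ_[(q : ℕ)]) :
    evalQ q (a ⊗ₜ[ℚ] c) =
      padicEmbedding (q : ℕ) a * algebraMap ℚ_[(q : ℕ)] (PadicAlgCl (q : ℕ)) c := by
  rw [evalQ, Algebra.TensorProduct.productMap_apply_tmul]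
  rfl

/-- On `F ⊗ ℚ_q` the evaluation is helper4's `locEval q F`. -/
theorem evalQ_map_val (F : IntermediateField ℚ Qbar) (y : Loc F q) :
    evalQ q (Loc.map q F.val y) = locEval q F y := by
  induction y using TensorProduct.induction_on with
  | zero => simp
  | tmul a c => rw [Loc.map_tmul, evalQ_tmul, locEval_tmul]; rfl
  | add z w hz hw => rw [map_add, map_add, map_add, hz, hw]

/-- `evalQ` intertwines the action of `Gal(ℚ̄/ℚ)` (through `localGaloisToGlobal`) with the action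
of the local Galois group on `PadicAlgCl q`. -/
theorem evalQ_aut (τ : LocGal (q : ℕ)) (y : Loc Qbar q) :
    evalQ q (Loc.aut Qbar q (localGaloisToGlobal (q : ℕ) τ) y) = τ (evalQ q y) := by
  induction y using TensorProduct.induction_on with
  | zero => simp
  | tmul a c =>
    rw [Loc.aut_tmul, evalQ_tmul, evalQ_tmul, map_mul, padicEmbedding_localGaloisToGlobal,
      AlgEquiv.commutes]
  | add z w hz hw => rw [map_add, map_add, map_add, map_add, hz, hw]

/-- The evaluation on units. -/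
def evalUnits : (Loc Qbar q)ˣ →* (PadicAlgCl (q : ℕ))ˣ :=
  Units.map (evalQ q : Loc Qbar q →* PadicAlgCl (q : ℕ))

theorem evalUnits_val (u : (Loc Qbar q)ˣ) :
    ((evalUnits q u : (PadicAlgCl (q : ℕ))ˣ) : PadicAlgCl (q : ℕ)) = evalQ q (u : Loc Qbar q) := rfl

theorem evalUnits_smul (τ : LocGal (q : ℕ)) (u : (Loc Qbar q)ˣ) :
    evalUnits q (localGaloisToGlobal (q : ℕ) τ • u) = τ • evalUnits q u := by
  apply Units.ext
  rw [evalUnits_val, locUnits_smul_val, evalQ_aut]
  rfl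

namespace QS

variable (S : Finset Nat.Primes)

/-- `π_q : J_q → ℚ̄_qˣ` as a map on the `q`-component of `J_S`. -/
def piHom : LocP (isFieldFilter_unram S) q →* (PadicAlgCl (q : ℕ))ˣ :=
  (evalUnits q).comp (LocP (isFieldFilter_unram S) q).subtype

theorem piHom_apply (u : LocP (isFieldFilter_unram S) q) :
    piHom q S u = evalUnits q (u : (Loc Qbar q)ˣ) := rfl

theorem piHom_smul (τ : LocGal (q : ℕ)) (u : LocP (isFieldFilter_unram S) q) :
    piHom q S (localGaloisToGlobal (q : ℕ) τ • u) = τ • piHom q S u :=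
  evalUnits_smul q τ (u : (Loc Qbar q)ˣ)

/-- **`π_q`**: the evaluation `J_q → ℚ̄_qˣ` as a morphism of representations of the local Galois
group `Gal(ℚ̄_q/ℚ_q)`. -/
def pi : Rep.res (localGaloisToGlobal (q : ℕ)) (Jq S q) ⟶
    Rep.ofAlgebraAutOnUnits ℚ_[(q : ℕ)] (PadicAlgCl (q : ℕ)) :=
  Rep.ofHom <| LinearMap.intertwiningMap_of_isIntertwiningMap
    (ρ := (Rep.res (localGaloisToGlobal (q : ℕ)) (Jq S q)).ρ)
    (σ := (Rep.ofAlgebraAutOnUnits ℚ_[(q : ℕ)] (PadicAlgCl (q : ℕ))).ρ)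
    ((piHom q S).toAdditive.toIntLinearMap)
    (fun τ u => congrArg Additive.ofMul (piHom_smul q S τ u.toMul))

theorem pi_apply (u : Additive (LocP (isFieldFilter_unram S) q)) :
    (pi q S).hom u = Additive.ofMul (piHom q S u.toMul) := rfl

/-- The localisation `J_S → ℚ̄_qˣ` (`res` to `G_q`, then project to the `q`-component, then
evaluate). -/
def loc : Rep.res (localGaloisToGlobal (q : ℕ)) (J S) ⟶
    Rep.ofAlgebraAutOnUnits ℚ_[(q : ℕ)] (PadicAlgCl (q : ℕ)) :=
  (Rep.resFunctor (localGaloisToGlobal (q : ℕ))).map (proj S q) ≫ pi q S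

theorem loc_apply (x : Additive (JD (isFieldFilter_unram S) (S : Set Nat.Primes))) :
    (loc q S).hom x = Additive.ofMul (evalUnits q
      ((x.toMul.1 : ∀ q : Nat.Primes, (Loc Qbar q)ˣ) q)) := rfl

end QS

end Fermat.Agent.CFT.Idele
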