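import Mathlib
import Fermat.Agent.CFT.Idele.LocalEval
import Fermat.Agent.CFT.D.Biprod

/-!
# PROJECT C, slice C2 (ideles), part 16: `J_S = ⊕_{q ∈ S} J_q` as biproduct data

`QS.biprod S : D.BiprodData (QS.J S) (fun q : {q // q ∈ S} => QS.Jq S q.1)` in the shape of
helper23's `D/Biprod.lean`, and the identification of `BiprodData.loc` with `QS.loc`.
-/

set_option autoImplicit false

noncomputable section

open CategoryTheory

namespace Fermat.Agent.CFT.Idele

open Fermat.Agent.CFT.Bridge Fermat.Agent.CFT.D

namespace QS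

variable (S : Finset Nat.Primes)

/-- **`J_S = ⊕_{q ∈ S} J_q`** as biproduct data in `Rep ℤ GQ`. -/
def biprod : BiprodData (QS.J S) (fun q : {q // q ∈ S} => QS.Jq S q.1) where
  p q := QS.proj S q.1
  i q := QS.single S q.1 q.2
  i_p_self q := QS.single_comp_proj S q.1 q.2
  i_p_ne q q' h := QS.single_comp_proj_of_ne S q.2 (fun h' => h (Subtype.ext h'.symm))
  sum_p_i := by
    rw [← QS.sum_proj_comp_single S, Finset.univ_eq_attach]

@[simp] theorem biprod_p (q : {q // q ∈ S}) : (biprod S).p q = QS.proj S q.1 := rfl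

@[simp] theorem biprod_i (q : {q // q ∈ S}) : (biprod S).i q = QS.single S q.1 q.2 := rfl

/-- The localisation maps of the biproduct data are the maps `QS.loc`. -/
theorem biprod_loc (q : {q // q ∈ S}) :
    (biprod S).loc (fun q : {q // q ∈ S} => localGaloisToGlobal (q.1 : ℕ))
      (fun q : {q // q ∈ S} => QS.pi q.1 S) q = QS.loc q.1 S := rfl

end QS

end Fermat.Agent.CFT.Idele
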