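import Mathlib
import Fermat.Agent.CFT.Semilocal.Finite

/-!
# PROJECT C, slice C5 (c5): weak approximation in the tensor model of the ideles

For a number field `K` and a finite set `S` of rational primes, `K` is dense in
`∏_{q ∈ S} K ⊗ ℚ_q` (`exists_approx`), and `Kˣ` is dense in `∏_{q ∈ S} (K ⊗ ℚ_q)ˣ`
(`exists_unit_approx`, with respect to the principal congruence subgroups `congUnits K q m`
`= 1 + q^m • intRing K q`).  Idele form: `exists_diag_mul_mem`; form for arbitrary subgroups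
containing a congruence subgroup: `exists_unit_mul_mem`.
The rational case `exists_rat_approx` is the Chinese remainder theorem.
-/

set_option autoImplicit false

open scoped TensorProduct NumberField
open Fermat.Agent.CFT.Idele Fermat.Agent.CFT.Semilocal NumberField

noncomputable section

namespace Fermat.Agent.CFT.Idele.WeakApprox

/-! ### `ℚ` is dense in `∏_{q ∈ S} ℚ_q` -/

section Rat

/-- `ℕ` is dense in `ℤ_p`, in the norm of `ℚ_p`. -/
theorem exists_nat_approx (p : ℕ) [Fact p.Prime] (d : ℚ_[p]) (hd : ‖d‖ ≤ 1) (e : ℕ) :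
    ∃ n : ℕ, ‖d - (n : ℚ_[p])‖ ≤ (p : ℝ) ^ (-(e : ℤ)) := by
  refine ⟨PadicInt.appr (⟨d, hd⟩ : ℤ_[p]) e, ?_⟩
  have h1 := PadicInt.appr_spec e (⟨d, hd⟩ : ℤ_[p])
  rw [← PadicInt.norm_le_pow_iff_mem_span_pow, PadicInt.norm_def, PadicInt.coe_sub,
    PadicInt.coe_natCast] at h1
  exact h1

/-- The Chinese remainder theorem for powers of the primes of a finite set. -/
theorem exists_int_crt (S : Finset Nat.Primes) (e : ℕ) (n : Nat.Primes → ℤ) :
    ∃ z : ℤ, ∀ q ∈ S, (((q : ℕ) : ℤ) ^ e) ∣ z - n q := by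
  classical
  have hI : Pairwise (Function.onFun IsCoprime
      (fun i : S => Ideal.span {(((i : Nat.Primes) : ℕ) : ℤ) ^ e})) := by
    intro i j hij
    simp only [Function.onFun]
    rw [Ideal.isCoprime_span_singleton_iff]
    apply IsCoprime.pow
    rw [Nat.isCoprime_iff_coprime]
    exact (Nat.coprime_primes i.1.2 j.1.2).mpr fun h => hij (Subtype.ext (Subtype.ext h))
  obtain ⟨z, hz⟩ := Ideal.exists_forall_sub_mem_ideal hI (fun i : S => n i)
  refine ⟨z, fun q hq => ?_⟩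
  have := hz ⟨q, hq⟩
  rwa [Ideal.mem_span_singleton] at this

/-- A uniform bound for the norms of finitely many `q`-adic numbers. -/
theorem exists_norm_le_pow (S : Finset Nat.Primes) (c : ∀ q : Nat.Primes, ℚ_[(q : ℕ)]) :
    ∃ k : ℕ, ∀ q ∈ S, ‖c q‖ ≤ ((q : ℕ) : ℝ) ^ k := by
  classical
  have h1 : ∀ q : Nat.Primes, ∃ k : ℕ, ‖c q‖ < ((q : ℕ) : ℝ) ^ k := fun q =>
    pow_unbounded_of_one_lt _ (by exact_mod_cast q.2.one_lt)
  choose k hk using h1
  refine ⟨S.sup k, fun q hq => (hk q).le.trans ?_⟩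
  exact pow_le_pow_right₀ (by exact_mod_cast q.2.one_lt.le) (Finset.le_sup hq)

theorem norm_prod_primes (S : Finset Nat.Primes) (q : Nat.Primes) (hq : q ∈ S) :
    ‖(((∏ q' ∈ S, (q' : ℕ) : ℕ)) : ℚ_[(q : ℕ)])‖ = ((q : ℕ) : ℝ)⁻¹ := by
  classical
  rw [← Finset.mul_prod_erase S _ hq, Nat.cast_mul, norm_mul, Padic.norm_p]
  have h1 : ‖((∏ q' ∈ S.erase q, (q' : ℕ) : ℕ) : ℚ_[(q : ℕ)])‖ = 1 := by
    rw [Padic.norm_natCast_eq_one_iff]
    apply Nat.Coprime.prod_right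
    intro q' hq'
    exact (Nat.coprime_primes q.2 q'.2).mpr
      fun h => (Finset.ne_of_mem_erase hq') (Subtype.ext h.symm)
  rw [h1, mul_one]

/-- **Weak approximation for `ℚ`** at a finite set of primes. -/
theorem exists_rat_approx (S : Finset Nat.Primes) (m : ℕ) (c : ∀ q : Nat.Primes, ℚ_[(q : ℕ)]) :
    ∃ r : ℚ, ∀ q ∈ S, ‖(r : ℚ_[(q : ℕ)]) - c q‖ ≤ ((q : ℕ) : ℝ) ^ (-(m : ℤ)) := by
  classical
  obtain ⟨k, hk⟩ := exists_norm_le_pow S c
  set N : ℕ := (∏ q' ∈ S, (q' : ℕ)) ^ k with hN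
  have hNnorm : ∀ q ∈ S, ‖(N : ℚ_[(q : ℕ)])‖ = ((q : ℕ) : ℝ) ^ (-(k : ℤ)) := by
    intro q hq
    rw [hN, Nat.cast_pow, norm_pow, norm_prod_primes S q hq, inv_pow, zpow_neg, zpow_natCast]
  have hqpos : ∀ q : Nat.Primes, (0 : ℝ) < ((q : ℕ) : ℝ) := fun q => by exact_mod_cast q.2.pos
  -- the integral numbers `N * c q`
  have hd : ∀ q ∈ S, ‖(N : ℚ_[(q : ℕ)]) * c q‖ ≤ 1 := by
    intro q hq
    rw [norm_mul, hNnorm q hq, zpow_neg, zpow_natCast]
    rw [inv_mul_le_iff₀ (pow_pos (hqpos q) k), mul_one]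
    exact hk q hq
  have h2 : ∀ q : Nat.Primes, ∃ n : ℕ, q ∈ S →
      ‖(N : ℚ_[(q : ℕ)]) * c q - (n : ℚ_[(q : ℕ)])‖ ≤ ((q : ℕ) : ℝ) ^ (-((m + k : ℕ) : ℤ)) := by
    intro q
    by_cases hq : q ∈ S
    · obtain ⟨n, hn⟩ := exists_nat_approx (q : ℕ) _ (hd q hq) (m + k)
      exact ⟨n, fun _ => hn⟩
    · exact ⟨0, fun h => absurd h hq⟩
  choose n hn using h2
  obtain ⟨z, hz⟩ := exists_int_crt S (m + k) (fun q => (n q : ℤ))
  refine ⟨(z : ℚ) / (N : ℚ), fun q hq => ?_⟩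
  have hN0 : (N : ℚ_[(q : ℕ)]) ≠ 0 := by
    intro h
    have := hNnorm q hq
    rw [h, norm_zero] at this
    exact (zpow_pos (hqpos q) _).ne this
  have h3 : ‖((z : ℚ_[(q : ℕ)]) - (n q : ℚ_[(q : ℕ)]))‖ ≤ ((q : ℕ) : ℝ) ^ (-((m + k : ℕ) : ℤ)) := by
    have := (Padic.norm_int_le_pow_iff_dvd (p := (q : ℕ)) (z - (n q : ℤ)) (m + k)).mpr
      (by exact_mod_cast hz q hq)
    push_cast at this ⊢
    exact this
  have h4 : ‖(z : ℚ_[(q : ℕ)]) - (N : ℚ_[(q : ℕ)]) * c q‖ ≤ ((q : ℕ) : ℝ) ^ (-((m + k : ℕ) : ℤ)) := by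
    have e : (z : ℚ_[(q : ℕ)]) - (N : ℚ_[(q : ℕ)]) * c q
        = ((z : ℚ_[(q : ℕ)]) - (n q : ℚ_[(q : ℕ)])) -
          ((N : ℚ_[(q : ℕ)]) * c q - (n q : ℚ_[(q : ℕ)])) := by ring
    rw [e, sub_eq_add_neg]
    refine (Padic.nonarchimedean _ _).trans (max_le h3 ?_)
    rw [norm_neg]
    exact hn q hq
  have e2 : (((z : ℚ) / (N : ℚ) : ℚ) : ℚ_[(q : ℕ)]) - c q
      = ((z : ℚ_[(q : ℕ)]) - (N : ℚ_[(q : ℕ)]) * c q) / (N : ℚ_[(q : ℕ)]) := by
    push_cast
    field_simp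
  rw [e2, norm_div, hNnorm q hq, div_le_iff₀ (zpow_pos (hqpos q) _), ← zpow_add₀ (hqpos q).ne']
  refine h4.trans (le_of_eq ?_)
  congr 1
  push_cast
  ring

/-- A `p`-adic number of norm `≤ p^(-m)` is `p^m` times a `p`-adic integer. -/
theorem exists_eq_pow_mul (p : ℕ) [Fact p.Prime] (m : ℕ) (t : ℚ_[p])
    (ht : ‖t‖ ≤ (p : ℝ) ^ (-(m : ℤ))) : ∃ z : ℤ_[p], t = (p : ℚ_[p]) ^ m * (z : ℚ_[p]) := by
  have hp : (p : ℚ_[p]) ≠ 0 := by exact_mod_cast (Fact.out : p.Prime).ne_zero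
  have hpos : (0 : ℝ) < (p : ℝ) ^ (-(m : ℤ)) :=
    zpow_pos (by exact_mod_cast (Fact.out : p.Prime).pos) _
  refine ⟨⟨t / (p : ℚ_[p]) ^ m, ?_⟩, ?_⟩
  · rw [norm_div, Padic.norm_p_pow, div_le_one hpos]
    exact ht
  · show t = (p : ℚ_[p]) ^ m * (t / (p : ℚ_[p]) ^ m)
    field_simp

/-- A `p`-adic number becomes integral after multiplication by a power of `p`. -/
theorem exists_pow_mul_eq (p : ℕ) [Fact p.Prime] (k : ℕ) (t : ℚ_[p])
    (ht : ‖t‖ ≤ (p : ℝ) ^ k) : ∃ z : ℤ_[p], (p : ℚ_[p]) ^ k * t = (z : ℚ_[p]) := by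
  have hpos : (0 : ℝ) < (p : ℝ) ^ k := pow_pos (by exact_mod_cast (Fact.out : p.Prime).pos) _
  refine ⟨⟨(p : ℚ_[p]) ^ k * t, ?_⟩, rfl⟩
  rw [norm_mul, Padic.norm_p_pow, zpow_neg, zpow_natCast, inv_mul_le_iff₀ hpos, mul_one]
  exact ht

end Rat

/-! ### Weak approximation in the tensor model -/

section NumberField

variable (K : Type*) [Field K] [NumberField K]

theorem inclL_smul_eq (q : Nat.Primes) (r : ℚ) (a : K) :
    inclL K q (r • a) = inclL K q a * inclQ K q (r : ℚ_[(q : ℕ)]) := by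
  rw [inclL_apply, inclL_apply, inclQ_apply, Algebra.TensorProduct.tmul_mul_tmul, mul_one,
    one_mul, TensorProduct.smul_tmul]
  congr 1
  rw [Algebra.smul_def, mul_one]
  rfl

theorem inclQ_pow_mul (q : Nat.Primes) (m : ℕ) (z : ℤ_[(q : ℕ)]) :
    inclQ K q (((q : ℕ) : ℚ_[(q : ℕ)]) ^ m * (z : ℚ_[(q : ℕ)]))
      = ((q : ℕ) : Loc K q) ^ m * inclZ K q z := by
  rw [map_mul, map_pow, map_natCast]
  rfl

theorem inclL_integralBasis_mem (q : Nat.Primes) (i : Module.Free.ChooseBasisIndex ℤ (𝓞 K)) :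
    inclL K q (integralBasis K i) ∈ intRing K q :=
  inclL_mem_intRing_of_isIntegral K q (isIntegral_integralBasis K i)

/-- **Weak approximation**: `K` is dense in `∏_{q ∈ S} K ⊗ ℚ_q`. -/
theorem exists_approx (S : Finset Nat.Primes) (m : ℕ) (x : ∀ q : Nat.Primes, Loc K q) :
    ∃ a : K, ∀ q ∈ S, ∃ y ∈ intRing K q,
      inclL K q a - x q = ((q : ℕ) : Loc K q) ^ m * y := by
  classical
  have h1 : ∀ i, ∃ r : ℚ, ∀ q ∈ S,
      ‖(r : ℚ_[(q : ℕ)]) - coordQ K q (integralBasis K) i (x q)‖ ≤ ((q : ℕ) : ℝ) ^ (-(m : ℤ)) :=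
    fun i => exists_rat_approx S m (fun q => coordQ K q (integralBasis K) i (x q))
  choose r hr using h1
  refine ⟨∑ i, r i • integralBasis K i, fun q hq => ?_⟩
  have h2 : ∀ i, ∃ z : ℤ_[(q : ℕ)],
      (r i : ℚ_[(q : ℕ)]) - coordQ K q (integralBasis K) i (x q)
        = ((q : ℕ) : ℚ_[(q : ℕ)]) ^ m * (z : ℚ_[(q : ℕ)]) :=
    fun i => exists_eq_pow_mul _ m _ (hr i q hq)
  choose z hz using h2
  refine ⟨∑ i, inclL K q (integralBasis K i) * inclZ K q (z i), ?_, ?_⟩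
  · exact Subring.sum_mem _ fun i _ =>
      Subring.mul_mem _ (inclL_integralBasis_mem K q i) (inclZ_mem_intRing K q _)
  · have e1 : inclL K q (∑ i, r i • integralBasis K i)
        = ∑ i, inclL K q (integralBasis K i) * inclQ K q (r i : ℚ_[(q : ℕ)]) := by
      rw [map_sum]
      exact Finset.sum_congr rfl fun i _ => inclL_smul_eq K q _ _
    have e2 := eq_sum_coordQ K q (integralBasis K) (x q)
    rw [e1]
    conv_lhs => arg 2; rw [e2]
    rw [← Finset.sum_sub_distrib, Finset.mul_sum]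
    refine Finset.sum_congr rfl fun i _ => ?_
    rw [← mul_sub, ← map_sub, hz i, inclQ_pow_mul]
    ring

/-- Every element of `K ⊗ ℚ_q` becomes integral after multiplication by a power of `q`. -/
theorem exists_pow_mul_mem_intRing (q : Nat.Primes) (w : Loc K q) :
    ∃ j : ℕ, ((q : ℕ) : Loc K q) ^ j * w ∈ intRing K q := by
  classical
  have h1 : ∀ i, ∃ k : ℕ, ‖coordQ K q (integralBasis K) i w‖ ≤ ((q : ℕ) : ℝ) ^ k := fun i =>
    (pow_unbounded_of_one_lt _ (by exact_mod_cast q.2.one_lt)).imp fun _ h => h.le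
  choose k hk using h1
  refine ⟨Finset.univ.sup k, ?_⟩
  have h2 : ∀ i, ∃ z : ℤ_[(q : ℕ)],
      ((q : ℕ) : ℚ_[(q : ℕ)]) ^ (Finset.univ.sup k) * coordQ K q (integralBasis K) i w
        = (z : ℚ_[(q : ℕ)]) := fun i =>
    exists_pow_mul_eq _ _ _ ((hk i).trans
      (pow_le_pow_right₀ (by exact_mod_cast q.2.one_lt.le) (Finset.le_sup (Finset.mem_univ i))))
  choose z hz using h2
  have e2 := eq_sum_coordQ K q (integralBasis K) w
  have e3 : ((q : ℕ) : Loc K q) ^ (Finset.univ.sup k) * w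
      = ∑ i, inclL K q (integralBasis K i) * inclZ K q (z i) := by
    conv_lhs => arg 2; rw [e2]
    rw [Finset.mul_sum]
    refine Finset.sum_congr rfl fun i _ => ?_
    have : inclZ K q (z i) = inclQ K q (((q : ℕ) : ℚ_[(q : ℕ)]) ^ (Finset.univ.sup k) *
        coordQ K q (integralBasis K) i w) := by
      rw [hz i]; rfl
    rw [this, map_mul, map_pow, map_natCast]
    ring
  rw [e3]
  exact Subring.sum_mem _ fun i _ =>
    Subring.mul_mem _ (inclL_integralBasis_mem K q i) (inclZ_mem_intRing K q _)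

theorem pow_mul_mem_intRing_of_le (q : Nat.Primes) (w : Loc K q) {j j' : ℕ} (h : j ≤ j')
    (hw : ((q : ℕ) : Loc K q) ^ j * w ∈ intRing K q) :
    ((q : ℕ) : Loc K q) ^ j' * w ∈ intRing K q := by
  obtain ⟨d, rfl⟩ := Nat.exists_eq_add_of_le h
  have : ((q : ℕ) : Loc K q) ^ (j + d) * w
      = ((q : ℕ) : Loc K q) ^ d * (((q : ℕ) : Loc K q) ^ j * w) := by ring
  rw [this]
  exact Subring.mul_mem _ (Subring.pow_mem _ (natCast_mem _ _) _) hw

end NumberField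

/-! ### Principal congruence subgroups and approximation of units -/

section Units

variable (K : Type*) [Field K] [NumberField K]

/-- The principal congruence subgroup `1 + q^m • intRing K q` of `intUnits K q`
(all of `intUnits K q` for `m = 0`). -/
def congUnits (q : Nat.Primes) (m : ℕ) : Subgroup (Loc K q)ˣ where
  carrier := {u | u ∈ intUnits K q ∧
    ∃ y ∈ intRing K q, (u : Loc K q) = 1 + ((q : ℕ) : Loc K q) ^ m * y}
  mul_mem' := by
    rintro u v ⟨hu, y, hy, huy⟩ ⟨hv, y', hy', hvy⟩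
    refine ⟨(intUnits K q).mul_mem hu hv,
      y + y' + ((q : ℕ) : Loc K q) ^ m * (y * y'), ?_, ?_⟩
    · exact Subring.add_mem _ (Subring.add_mem _ hy hy')
        (Subring.mul_mem _ (Subring.pow_mem _ (natCast_mem _ _) _) (Subring.mul_mem _ hy hy'))
    · rw [Units.val_mul, huy, hvy]; ring
  one_mem' := ⟨(intUnits K q).one_mem, 0, Subring.zero_mem _, by simp⟩
  inv_mem' := by
    rintro u ⟨hu, y, hy, huy⟩
    refine ⟨(intUnits K q).inv_mem hu, -(((u⁻¹ : (Loc K q)ˣ) : Loc K q) * y), ?_, ?_⟩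
    · exact Subring.neg_mem _ (Subring.mul_mem _ hu.2 hy)
    · have h1 : ((u⁻¹ : (Loc K q)ˣ) : Loc K q) * (u : Loc K q) = 1 := Units.inv_mul u
      have h2 : ((u⁻¹ : (Loc K q)ˣ) : Loc K q)
          = 1 - ((u⁻¹ : (Loc K q)ˣ) : Loc K q) * ((u : Loc K q) - 1) := by
        rw [mul_sub, h1]; ring
      conv_lhs => rw [h2, huy]
      ring

theorem mem_congUnits {q : Nat.Primes} {m : ℕ} {u : (Loc K q)ˣ} :
    u ∈ congUnits K q m ↔ u ∈ intUnits K q ∧
      ∃ y ∈ intRing K q, (u : Loc K q) = 1 + ((q : ℕ) : Loc K q) ^ m * y := Iff.rfl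

theorem congUnits_le_intUnits (q : Nat.Primes) (m : ℕ) : congUnits K q m ≤ intUnits K q :=
  fun _ hu => hu.1

theorem congUnits_zero (q : Nat.Primes) : congUnits K q 0 = intUnits K q := by
  refine le_antisymm (congUnits_le_intUnits K q 0) fun u hu => ⟨hu, (u : Loc K q) - 1, ?_, ?_⟩
  · exact Subring.sub_mem _ hu.1 (Subring.one_mem _)
  · rw [pow_zero, one_mul]; ring

theorem congUnits_antitone (q : Nat.Primes) {m m' : ℕ} (h : m ≤ m') :
    congUnits K q m' ≤ congUnits K q m := by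
  rintro u ⟨hu, y, hy, huy⟩
  obtain ⟨d, rfl⟩ := Nat.exists_eq_add_of_le h
  refine ⟨hu, ((q : ℕ) : Loc K q) ^ d * y,
    Subring.mul_mem _ (Subring.pow_mem _ (natCast_mem _ _) _) hy, ?_⟩
  rw [huy]; ring

/-- `1 + q • t` is an integral unit for integral `t`: membership in `congUnits` needs no unit
hypothesis when `m ≥ 1`. -/
theorem exists_mem_congUnits_of_eq (q : Nat.Primes) (m : ℕ) (t : Loc K q)
    (ht : t ∈ intRing K q) :
    ∃ u ∈ congUnits K q (m + 1), (u : Loc K q) = 1 + ((q : ℕ) : Loc K q) ^ (m + 1) * t := by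
  have h1 : ((q : ℕ) : Loc K q) ^ m * t ∈ intRing K q :=
    Subring.mul_mem _ (Subring.pow_mem _ (natCast_mem _ _) _) ht
  obtain ⟨v, hv⟩ := isUnit_one_add_qInt_mul K q ⟨((q : ℕ) : Loc K q) ^ m * t, h1⟩
  have hv1 : ((v : intRing K q) : Loc K q) = 1 + ((q : ℕ) : Loc K q) ^ (m + 1) * t := by
    rw [hv]
    push_cast
    rw [coe_qInt]
    ring
  have hv2 : ((v : intRing K q) : Loc K q) * (((v⁻¹ : (intRing K q)ˣ) : intRing K q) : Loc K q)
      = 1 := by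
    rw [← Subring.coe_mul, Units.mul_inv]; rfl
  have hv3 : (((v⁻¹ : (intRing K q)ˣ) : intRing K q) : Loc K q) * ((v : intRing K q) : Loc K q)
      = 1 := by
    rw [mul_comm]; exact hv2
  refine ⟨⟨_, _, hv2, hv3⟩, ⟨⟨(v : intRing K q).2, ((v⁻¹ : (intRing K q)ˣ) : intRing K q).2⟩,
    t, ht, hv1⟩, hv1⟩

/-- **Weak approximation for units**: a family of units of the `K ⊗ ℚ_q`, `q ∈ S`, is
approximated by a global unit modulo the congruence subgroups. -/
theorem exists_unit_approx (S : Finset Nat.Primes) (m : ℕ) (x : ∀ q : Nat.Primes, (Loc K q)ˣ) :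
    ∃ a : Kˣ, ∀ q ∈ S,
      (Units.map (inclL K q : K →* Loc K q) a)⁻¹ * x q ∈ congUnits K q m := by
  classical
  rcases S.eq_empty_or_nonempty with rfl | hne
  · exact ⟨1, fun q hq => absurd hq (Finset.notMem_empty q)⟩
  -- integrality exponents for the inverses
  have h1 : ∀ q : Nat.Primes, ∃ j : ℕ,
      ((q : ℕ) : Loc K q) ^ j * (((x q)⁻¹ : (Loc K q)ˣ) : Loc K q) ∈ intRing K q :=
    fun q => exists_pow_mul_mem_intRing K q _
  choose j hj using h1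
  obtain ⟨a₀, ha₀⟩ := exists_approx K S (m + 1 + S.sup j) (fun q => (x q : Loc K q))
  -- the local error terms
  have key : ∀ q ∈ S, ∃ u ∈ congUnits K q (m + 1),
      inclL K q a₀ = (x q : Loc K q) * (u : Loc K q) := by
    intro q hq
    obtain ⟨y, hy, hay⟩ := ha₀ q hq
    have hw := pow_mul_mem_intRing_of_le K q _ (Finset.le_sup hq) (hj q)
    obtain ⟨u, hu, hu'⟩ := exists_mem_congUnits_of_eq K q m _ (Subring.mul_mem _ hw hy)
    refine ⟨u, hu, ?_⟩
    have h2 : (x q : Loc K q) * (((x q)⁻¹ : (Loc K q)ˣ) : Loc K q) = 1 := Units.mul_inv _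
    have h3 : inclL K q a₀ = (x q : Loc K q) + ((q : ℕ) : Loc K q) ^ (m + 1 + S.sup j) * y := by
      rw [← hay]; ring
    rw [h3, hu']
    have h4 : (x q : Loc K q) * (1 + ((q : ℕ) : Loc K q) ^ (m + 1) *
        (((q : ℕ) : Loc K q) ^ (S.sup j) * (((x q)⁻¹ : (Loc K q)ˣ) : Loc K q) * y))
        = (x q : Loc K q) + ((x q : Loc K q) * (((x q)⁻¹ : (Loc K q)ˣ) : Loc K q)) *
          (((q : ℕ) : Loc K q) ^ (m + 1 + S.sup j) * y) := by ring
    rw [h4, h2, one_mul]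
  have ha₀0 : a₀ ≠ 0 := by
    obtain ⟨q, hq⟩ := hne
    obtain ⟨u, -, hu⟩ := key q hq
    intro h
    rw [h, map_zero] at hu
    have h5 : IsUnit ((x q : Loc K q) * (u : Loc K q)) := ((x q) * u).isUnit
    rw [← hu] at h5
    exact not_isUnit_zero h5
  refine ⟨Units.mk0 a₀ ha₀0, fun q hq => ?_⟩
  obtain ⟨u, hu, hu'⟩ := key q hq
  have h6 : Units.map (inclL K q : K →* Loc K q) (Units.mk0 a₀ ha₀0) = x q * u := by
    apply Units.ext
    rw [Units.val_mul, ← hu']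
    rfl
  rw [h6, mul_inv_rev, mul_assoc, inv_mul_cancel, mul_one]
  exact congUnits_antitone K q (Nat.le_succ m) ((congUnits K q (m + 1)).inv_mem hu)

/-- Elementary form of `exists_unit_approx`. -/
theorem exists_unit_approx' (S : Finset Nat.Primes) (m : ℕ) (x : ∀ q : Nat.Primes, (Loc K q)ˣ) :
    ∃ a : Kˣ, ∀ q ∈ S, ∃ y ∈ intRing K q,
      ((x q : (Loc K q)ˣ) : Loc K q) = inclL K q a * (1 + ((q : ℕ) : Loc K q) ^ m * y) := by
  obtain ⟨a, ha⟩ := exists_unit_approx K S m x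
  refine ⟨a, fun q hq => ?_⟩
  obtain ⟨-, y, hy, hy'⟩ := ha q hq
  refine ⟨y, hy, ?_⟩
  rw [← hy', Units.val_mul]
  have : inclL K q a * (((Units.map (inclL K q : K →* Loc K q) a)⁻¹ : (Loc K q)ˣ) : Loc K q)
      = 1 := Units.mul_inv (Units.map (inclL K q : K →* Loc K q) a)
  rw [← mul_assoc, this, one_mul]

/-- Idele form: every idele is, up to a principal idele, in the congruence subgroups at the
primes of `S`. -/
theorem exists_diag_mul_mem (S : Finset Nat.Primes) (m : ℕ) (x : J K) :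
    ∃ a : Kˣ, ∀ q ∈ S,
      (((diag K a)⁻¹ * x : J K) : ∀ q : Nat.Primes, (Loc K q)ˣ) q ∈ congUnits K q m := by
  obtain ⟨a, ha⟩ := exists_unit_approx K S m (x : ∀ q : Nat.Primes, (Loc K q)ˣ)
  exact ⟨a, fun q hq => ha q hq⟩

/-- Open-subgroup form: if `H q` contains a congruence subgroup for every `q ∈ S`, then
`Kˣ → ∏_{q ∈ S} (K ⊗ ℚ_q)ˣ / H q` is onto. -/
theorem exists_unit_mul_mem (S : Finset Nat.Primes) (H : ∀ q : Nat.Primes, Subgroup (Loc K q)ˣ)
    (hH : ∀ q ∈ S, ∃ m : ℕ, congUnits K q m ≤ H q) (x : ∀ q : Nat.Primes, (Loc K q)ˣ) :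
    ∃ a : Kˣ, ∀ q ∈ S, (Units.map (inclL K q : K →* Loc K q) a)⁻¹ * x q ∈ H q := by
  classical
  have h1 : ∀ q : Nat.Primes, ∃ m : ℕ, q ∈ S → congUnits K q m ≤ H q := by
    intro q
    by_cases hq : q ∈ S
    · obtain ⟨m, hm⟩ := hH q hq
      exact ⟨m, fun _ => hm⟩
    · exact ⟨0, fun h => absurd h hq⟩
  choose m hm using h1
  obtain ⟨a, ha⟩ := exists_unit_approx K S (S.sup m) x
  exact ⟨a, fun q hq => hm q hq (congUnits_antitone K q (Finset.le_sup hq) (ha q hq))⟩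

end Units

end Fermat.Agent.CFT.Idele.WeakApprox
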