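import Mathlib
import Fermat.Agent.S14.IdeleClassGroup
import Fermat.Agent.CFT.Idele.WeakApprox

/-!
# `J_K = Kˣ · J_{K,T}` with `T` avoiding a given finite set of primes

For a number field `K` and a finite set `T₀` of rational primes there is a finite set `T` of
rational primes, **disjoint from `T₀`**, with `J_K = Kˣ · J_{K,T}` (`exists_finset_disjoint_sup_eq_top`).
Proof: the ideal class group is finite; by weak approximation every class is represented by an idele
which is a unit at all primes of `T₀`; take for `T` the (finite) set of primes where one of these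
finitely many representatives is not a unit.
-/

set_option autoImplicit false

open scoped NumberField

open Fermat.Agent.CFT.Idele Fermat.Agent.S14.IdeleClassGroup

noncomputable section

namespace Fermat.Agent.CFT.Idele.GlobalAvoid

variable (K : Type) [Field K] [NumberField K]

/-- every ideal class is represented by an idele which is a unit at the primes of `T₀` -/
theorem exists_rep_unit_at (T₀ : Finset Nat.Primes) (c : ClassGroup (𝓞 K)) :
    ∃ y : J K, toCl K y = c ∧
      ∀ q ∈ T₀, (y : ∀ q : Nat.Primes, (Loc K q)ˣ) q ∈ intUnits K q := by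
  obtain ⟨x, rfl⟩ := toCl_surjective K c
  obtain ⟨a, ha⟩ := WeakApprox.exists_diag_mul_mem K T₀ 0 x
  refine ⟨(diag K a)⁻¹ * x, ?_, fun q hq => ?_⟩
  · rw [map_mul, map_inv, toCl_diag, inv_one, one_mul]
  · have := ha q hq
    rwa [WeakApprox.congUnits_zero] at this

/-- **element form**: there is a finite set `T` of primes disjoint from `T₀` such that every idele
is a principal idele times an idele which is a unit outside `T`. -/
theorem exists_finset_disjoint_forall_exists_diag_mul (T₀ : Finset Nat.Primes) :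
    ∃ T : Finset Nat.Primes, Disjoint T T₀ ∧
      ∀ x : J K, ∃ a : Kˣ, ∃ y ∈ JTsub K (T : Set Nat.Primes), x = diag K a * y := by
  classical
  choose y hy1 hy2 using exists_rep_unit_at K T₀
  have hfin : ∀ c : ClassGroup (𝓞 K),
      {q | (y c : ∀ q : Nat.Primes, (Loc K q)ˣ) q ∉ intUnits K q}.Finite := fun c => (y c).2
  refine ⟨Finset.univ.biUnion fun c => (hfin c).toFinset, ?_, ?_⟩
  · rw [Finset.disjoint_left]
    intro q hq hq0
    rw [Finset.mem_biUnion] at hq
    obtain ⟨c, _, hc⟩ := hq
    rw [Set.Finite.mem_toFinset] at hc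
    exact hc (hy2 c q hq0)
  · intro x
    have hyT : ∀ c, y c ∈ JTsub K
        ((Finset.univ.biUnion fun c => (hfin c).toFinset : Finset Nat.Primes) : Set Nat.Primes) := by
      intro c
      rw [mem_JTsub]
      intro q hq
      by_contra h
      apply hq
      rw [Finset.mem_coe, Finset.mem_biUnion]
      exact ⟨c, Finset.mem_univ _, (Set.Finite.mem_toFinset _).mpr h⟩
    have hker : x * (y (toCl K x))⁻¹ ∈ (toCl K).ker := by
      rw [MonoidHom.mem_ker, map_mul, map_inv, hy1, mul_inv_cancel]
    rw [ker_toCl, Subgroup.mem_sup] at hker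
    obtain ⟨_, ⟨a, rfl⟩, u, hu, hau⟩ := hker
    refine ⟨a, u * y (toCl K x), ?_, ?_⟩
    · exact Subgroup.mul_mem _ (JTsub_mono K (Set.empty_subset _) hu) (hyT _)
    · rw [← mul_assoc, hau, inv_mul_cancel_right]

/-- **`J_K = Kˣ · J_{K,T}` for all `T` containing a fixed finite set of primes disjoint from a given
finite set `T₀`.** -/
theorem exists_finset_disjoint_sup_eq_top (T₀ : Finset Nat.Primes) :
    ∃ T : Finset Nat.Primes, Disjoint T T₀ ∧
      ∀ T' : Set Nat.Primes, (T : Set Nat.Primes) ⊆ T' → (diag K).range ⊔ JTsub K T' = ⊤ := by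
  obtain ⟨T, hT, h⟩ := exists_finset_disjoint_forall_exists_diag_mul K T₀
  refine ⟨T, hT, fun T' hT' => ?_⟩
  rw [eq_top_iff]
  intro x _
  obtain ⟨a, y, hy, rfl⟩ := h x
  exact Subgroup.mul_mem_sup ⟨a, rfl⟩ (JTsub_mono K hT' hy)

/-- the `T`-ideles surject onto the idele class group -/
theorem exists_finset_disjoint_toC_surjective (T₀ : Finset Nat.Primes) :
    ∃ T : Finset Nat.Primes, Disjoint T T₀ ∧
      ∀ T' : Set Nat.Primes, (T : Set Nat.Primes) ⊆ T' →
        Function.Surjective ((toC K).comp (JTsub K T').subtype) := by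
  obtain ⟨T, hT, h⟩ := exists_finset_disjoint_forall_exists_diag_mul K T₀
  refine ⟨T, hT, fun T' hT' c => ?_⟩
  obtain ⟨x, rfl⟩ := toC_surjective K c
  obtain ⟨a, y, hy, rfl⟩ := h x
  refine ⟨⟨y, JTsub_mono K hT' hy⟩, ?_⟩
  rw [map_mul, toC_diag, one_mul]
  rfl

/-- two admissible enlargements with disjoint new parts: for every finite `S` there are finite
`T₁`, `T₂`, pairwise disjoint and disjoint from `S`, with `J_K = Kˣ · J_{K, S ∪ T_i}`. -/
theorem exists_two_disjoint (S : Finset Nat.Primes) :
    ∃ T₁ T₂ : Finset Nat.Primes, Disjoint T₁ S ∧ Disjoint T₂ S ∧ Disjoint T₁ T₂ ∧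
      (diag K).range ⊔ JTsub K ((S ∪ T₁ : Finset Nat.Primes) : Set Nat.Primes) = ⊤ ∧
      (diag K).range ⊔ JTsub K ((S ∪ T₂ : Finset Nat.Primes) : Set Nat.Primes) = ⊤ := by
  classical
  obtain ⟨T₁, h1, h1'⟩ := exists_finset_disjoint_sup_eq_top K S
  obtain ⟨T₂, h2, h2'⟩ := exists_finset_disjoint_sup_eq_top K (S ∪ T₁)
  rw [Finset.disjoint_union_right] at h2
  refine ⟨T₁, T₂, h1, h2.1, h2.2.symm, h1' _ ?_, h2' _ ?_⟩
  · rw [Finset.coe_union]; exact Set.subset_union_right
  · rw [Finset.coe_union]; exact Set.subset_union_right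

end Fermat.Agent.CFT.Idele.GlobalAvoid
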