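import Mathlib
import Fermat.Agent.CFT.Idele.LevelNorm
import Fermat.Agent.CFT.A7.ClassFormationBaseChange

/-!
# PROJECT C, slice (LD-norm), `k`-level: the norm compatibility (d2) after localisation

`Y` any localisation (`A7.BaseChange.IsLocRep M (repCD hP S) Y fX`) of the `Gal(Ω/ℚ)`-module
`C_S = repCD hP S` (e.g. `(C7.SES.seqK S k).X₃ = tensorRep (QS.C S)` with `fX = toTensorRep`).
The norm of the layer `Y^U` for the group `UK / U ≃ Gal(L/K)`, evaluated on the image of an idele
class of `L`, is the image of the idele norm: the hypothesis `hnorm` of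
`C7.ExistF2.relIndex_BS_le_index` with `g₂ x := invMap hX U (toLayer .. [x])` and
`f₁ c := fX [c]`.
-/

set_option autoImplicit false
set_option linter.unusedSectionVars false
set_option linter.overlappingInstances false

noncomputable section

namespace Fermat.Agent.CFT.Idele.LevelNormK

open Fermat.Agent.CFT.D.Realize Fermat.Agent.CFT.C6.IdeleNorm Fermat.Agent.CFT.Idele.LevelNorm
  Fermat.Agent.CFT.A7.BaseChange Fermat.Agent.CFT.A7.CFBaseChange

attribute [local instance 2000] IntermediateField.algebra'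

/-! ### Generic: `invMap` commutes with the action and with finite sums over the layer group -/

section Generic

variable {R k : Type} [CommRing R] [CommRing k] [Algebra R k] {M : Submonoid R}
  {G : Type} [Group G] {X : Rep.{0} R G} {Y : Rep.{0} k G} {f : X.V →+ Y.V}

theorem invMap_ρ (hf : IsLocRep M X Y f) (U : Subgroup G) [U.Normal] (c : G ⧸ U)
    (x : (X.quotientToInvariants U).V) :
    invMap hf U ((X.quotientToInvariants U).ρ c x) =
      (Y.quotientToInvariants U).ρ c (invMap hf U x) := by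
  induction c using QuotientGroup.induction_on with
  | H g => exact Subtype.ext (hf.map_ρ g x.1)

theorem sum_ρ_invMap (hf : IsLocRep M X Y f) (U : Subgroup G) [U.Normal] (H : Subgroup (G ⧸ U))
    [Fintype H] (x : (X.quotientToInvariants U).V) :
    ∑ h : H, (Y.quotientToInvariants U).ρ (h : G ⧸ U) (invMap hf U x) =
      invMap hf U (∑ h : H, (X.quotientToInvariants U).ρ (h : G ⧸ U) x) := by
  rw [map_sum]
  exact Finset.sum_congr rfl fun h _ => (invMap_ρ hf U h x).symm

end Generic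

/-! ### (d2) at `k`-level -/

section LayerNormK

variable {Ω : Type} [Field Ω] [Algebra ℚ Ω] [Algebra.IsAlgebraic ℚ Ω] [Normal ℚ Ω]
  {P : IntermediateField ℚ Ω → Prop} (hP : IsFieldFilter P) (S : Set Nat.Primes)
  {K L : Type} [Field K] [Field L] [Algebra ℚ K] [Algebra ℚ L] [Algebra K L]
  [IsScalarTower ℚ K L] [Algebra.IsAlgebraic ℚ K] [Algebra.IsAlgebraic ℚ L] [Normal ℚ L]
  [FiniteDimensional K L] [IsGalois K L]
  (ιK : K →ₐ[ℚ] Ω) (ι : L →ₐ[ℚ] Ω) (hι : ∀ a : K, ι (algebraMap K L a) = ιK a)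
  (hJK : ∀ y : J K, J.map ιK y ∈ JP hP) (hJ : ∀ y : J L, J.map ι y ∈ JP hP)
  (UK U : Subgroup (Ω ≃ₐ[ℚ] Ω)) [U.Normal]
  (hUK : ∀ σ, σ ∈ UK ↔ ∀ a : K, σ (ιK a) = ιK a) (hU : ∀ σ, σ ∈ U ↔ ∀ a : L, σ (ι a) = ι a)
  {k : Type} [CommRing k] {M : Submonoid ℤ} {Y : Rep.{0} k (Ω ≃ₐ[ℚ] Ω)}
  {fX : (repCD hP S).V →+ Y.V} (hX : IsLocRep M (repCD hP S) Y fX)

include hι hUK in
/-- **(d2) after localisation.** -/
theorem sum_ρ_invMap_toLayer [Fintype (layerSub UK U)] (x : J L) :
    ((∑ h : layerSub UK U, (Y.quotientToInvariants U).ρ (h : (Ω ≃ₐ[ℚ] Ω) ⧸ U)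
        (invMap hX U (toLayer hP S ι hJ U hU (Additive.ofMul (toCS L S x)))) :
          (Y.quotientToInvariants U).V) : Y.V) =
      fX (Additive.ofMul (ofEmb hP S ιK hJK (toCS K S (normJ K L x)))) := by
  rw [sum_ρ_invMap hX U (layerSub UK U), invMap_coe,
    sum_ρ_toLayer hP S ιK ι hι hJK hJ UK U hUK hU x]
  rfl

/-- The map `C_S(K) → Y^{UK}` (`UK` need not be normal), `c ↦ fX [c]`. -/
def toInvK : Additive (CS K S) →+ Representation.invariants (Y.ρ.comp UK.subtype) where
  toFun c := ⟨fX (Additive.ofMul (ofEmb hP S ιK hJK c.toMul)), fun u => by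
    change Y.ρ (u : Ω ≃ₐ[ℚ] Ω) (fX _) = fX _
    rw [← hX.map_ρ]
    exact congrArg (fun z => fX (Additive.ofMul z))
      (smul_ofEmb_of_fixes hP S ιK hJK u.1 ((hUK u.1).mp u.2) c.toMul)⟩
  map_zero' := Subtype.ext (by simp only [toMul_zero, map_one]; exact map_zero fX)
  map_add' c d := Subtype.ext (by
    simp only [toMul_add, map_mul]
    exact map_add fX _ _)

theorem toInvK_coe (c : Additive (CS K S)) :
    ((toInvK hP S ιK hJK UK hUK hX c : Representation.invariants (Y.ρ.comp UK.subtype)) : Y.V) =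
      fX (Additive.ofMul (ofEmb hP S ιK hJK c.toMul)) := rfl

include hι in
/-- **`hnorm` of `C7.ExistF2.relIndex_BS_le_index`**, with `f₁ := toInvK ..` and
`g₂ x := invMap hX U (toLayer .. [x])`. -/
theorem hnorm [Fintype (layerSub UK U)] (x : J L) :
    ((∑ h : layerSub UK U, (Y.quotientToInvariants U).ρ (h : (Ω ≃ₐ[ℚ] Ω) ⧸ U)
        (invMap hX U (toLayer hP S ι hJ U hU (Additive.ofMul (toCS L S x)))) :
          (Y.quotientToInvariants U).V) : Y.V) =
      (toInvK hP S ιK hJK UK hUK hX (Additive.ofMul (toCS K S (normJ K L x))) : Y.V) :=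
  sum_ρ_invMap_toLayer hP S ιK ι hι hJK hJ UK U hUK hU hX x

end LayerNormK

end Fermat.Agent.CFT.Idele.LevelNormK
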