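import Mathlib
import Fermat.Agent.CFT.Idele.LocalEval

/-!
# PROJECT C, slice C2 (ideles), part 20: the localisation of a global `S`-unit

`QS.loc q S ∘ (QS.seq S).f` is the `q`-adic embedding on units (`q ∈ S`): the composite
`E_S → J_S → J_q → ℚ̄_qˣ` sends an `S`-unit `a` of `ℚ_S` to `padicEmbedding q a`.
-/

set_option autoImplicit false

open scoped TensorProduct

noncomputable section

namespace Fermat.Agent.CFT.Idele

open Fermat.Agent.CFT.Bridge Fermat.Agent.CFT.LocalBridge

namespace QS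

variable (q : Nat.Primes) (S : Finset Nat.Primes)

/-- Evaluation of the image of a global element. -/
theorem evalQ_inclL (a : Qbar) : evalQ q (inclL Qbar q a) = padicEmbedding (q : ℕ) a := by
  show evalQ q (a ⊗ₜ[ℚ] (1 : ℚ_[(q : ℕ)])) = _
  rw [evalQ_tmul, map_one, mul_one]

/-- The `q`-component (`q ∈ S`) of the diagonal `S`-idele of an `S`-unit, evaluated. -/
theorem evalUnits_diag (hq : q ∈ S) (a : ED (isFieldFilter_unram S) (S : Set Nat.Primes)) :
    evalUnits q (((ED.diag (isFieldFilter_unram S) (S : Set Nat.Primes) a : JD _ _).1 :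
      ∀ q : Nat.Primes, (Loc Qbar q)ˣ) q) =
      Units.map (padicEmbedding (q : ℕ) : Qbar →* PadicAlgCl (q : ℕ)) (a : Qbarˣ) := by
  apply Units.ext
  rw [evalUnits_val, ED.diag_val, trunc_of_mem _ (Finset.mem_coe.mpr hq)]
  exact evalQ_inclL q ((a : Qbarˣ) : Qbar)

/-- **`E_S → J_S → ℚ̄_qˣ` is the `q`-adic embedding** (`q ∈ S`). -/
theorem loc_seq_f (hq : q ∈ S) (a : (E S).V) :
    (loc q S).hom ((seq S).f.hom a) =
      Additive.ofMul (Units.map (padicEmbedding (q : ℕ) : Qbar →* PadicAlgCl (q : ℕ))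
        ((Additive.toMul a : ED (isFieldFilter_unram S) (S : Set Nat.Primes)) : Qbarˣ)) :=
  congrArg Additive.ofMul (evalUnits_diag q S hq (Additive.toMul a))

end QS

end Fermat.Agent.CFT.Idele
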