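import Mathlib
import Fermat.Agent.CFT.Idele.QSBiprod
import Fermat.Agent.CFT.C7.JDecomp
import Fermat.Agent.CFT.D.H4.QIdele

/-!
# PROJECT C, slice C2 (ideles), part 17: the modules `QS.J S`, `QS.Jq S q` are models

The concrete Layer-D modules `QS.J S` (`J_S`) and `QS.Jq S q` (`J_q`) of `Idele/QS.lean` satisfy the
model-independent contracts of the consumers:

* `QS.goodFamily S`, `QS.isJModel S`, `QS.isJqModel S q` : helper16's `C7.JDecomp.IsJModel` /
  `IsJqModel` (for `Good F := F.IsUnramifiedOutside S`), with the embeddings `QS.embJ S`,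
  `QS.embJq S q` (the subgroup inclusions);
* `QS.qModel S q : D.H4.QIdele.QModel S q (QS.Jq S q)` : helper4's arithmetic model at `q`,
  with `QS.qModel_π` : its `π` is `QS.pi q S` on elements.
-/

set_option autoImplicit false

noncomputable section

open CategoryTheory

namespace Fermat.Agent.CFT.Idele

open Fermat.Agent.CFT.Bridge Fermat.Agent.CFT.LC Fermat.Agent.CFT.C7.JDecomp

attribute [local instance 2000] IntermediateField.algebra'

namespace QS

variable (S : Finset Nat.Primes)

/-- The finite extensions of `ℚ` in `ℚ̄` unramified outside `S` form a good family. -/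
theorem goodFamily :
    IsGoodFamily (fun F : IntermediateField ℚ Qbar => F.IsUnramifiedOutside S) :=
  ⟨IntermediateField.isUnramifiedOutside_bot S, fun _ _ h h' => h.sup h'⟩

/-- The embedding `J_S → J(ℚ̄)`. -/
def embJ : (J S).V →+ Additive (Idele.J Qbar) :=
  (MonoidHom.toAdditive (JD (isFieldFilter_unram S) (S : Set Nat.Primes)).subtype :
    Additive (JD (isFieldFilter_unram S) (S : Set Nat.Primes)) →+ Additive (Idele.J Qbar))

/-- The embedding `J_q → (ℚ̄ ⊗ ℚ_q)ˣ`. -/
def embJq (q : Nat.Primes) : (Jq S q).V →+ Additive (Loc Qbar q)ˣ :=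
  (MonoidHom.toAdditive (LocP (isFieldFilter_unram S) q).subtype :
    Additive (LocP (isFieldFilter_unram S) q) →+ Additive (Loc Qbar q)ˣ)

theorem embJ_apply (x : Additive (JD (isFieldFilter_unram S) (S : Set Nat.Primes))) :
    embJ S x = Additive.ofMul ((Additive.toMul x : JD _ _) : Idele.J Qbar) := rfl

theorem embJq_apply (q : Nat.Primes) (x : Additive (LocP (isFieldFilter_unram S) q)) :
    embJq S q x = Additive.ofMul ((Additive.toMul x : LocP _ q) : (Loc Qbar q)ˣ) := rfl

theorem smoothAt_eq (q : Nat.Primes) :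
    smoothAt (fun F : IntermediateField ℚ Qbar => F.IsUnramifiedOutside S) (goodFamily S) q =
      LocP (isFieldFilter_unram S) q := rfl

theorem smoothJS_eq :
    smoothJS (fun F : IntermediateField ℚ Qbar => F.IsUnramifiedOutside S) (goodFamily S)
      (S : Set Nat.Primes) = JD (isFieldFilter_unram S) (S : Set Nat.Primes) := by
  ext x
  exact and_comm

/-- `QS.J S` is a model of the smooth `S`-ideles. -/
theorem isJModel : IsJModel (k := ℤ) (goodFamily S) S (J S) (embJ S) where
  inj := fun x y h => by
    have h1 : ((Additive.toMul x : JD _ _) : Idele.J Qbar) = (Additive.toMul y : JD _ _) := h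
    exact congrArg Additive.ofMul (Subtype.ext h1)
  equivariant := fun σ x => rfl
  range := fun z => by
    rw [smoothJS_eq]
    constructor
    · rintro ⟨x, hx⟩
      have : ((Additive.toMul x : JD _ _) : Idele.J Qbar) = z := hx
      rw [← this]
      exact (Additive.toMul x : JD _ _).2
    · intro hz
      exact ⟨Additive.ofMul ⟨z, hz⟩, rfl⟩

/-- `QS.Jq S q` is a model of the smooth units of `ℚ̄ ⊗ ℚ_q`. -/
theorem isJqModel (q : Nat.Primes) :
    IsJqModel (k := ℤ) (goodFamily S) q (Jq S q) (embJq S q) where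
  inj := fun x y h => by
    have h1 : ((Additive.toMul x : LocP _ q) : (Loc Qbar q)ˣ) = (Additive.toMul y : LocP _ q) := h
    exact congrArg Additive.ofMul (Subtype.ext h1)
  equivariant := fun σ x => rfl
  range := fun u => by
    rw [smoothAt_eq]
    constructor
    · rintro ⟨x, hx⟩
      have : ((Additive.toMul x : LocP _ q) : (Loc Qbar q)ˣ) = u := hx
      rw [← this]
      exact (Additive.toMul x : LocP _ q).2
    · intro hu
      exact ⟨Additive.ofMul ⟨u, hu⟩, rfl⟩

/-! ### helper4's arithmetic model at `q` -/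

open Fermat.Agent.CFT.D.H4.QIdele Fermat.Agent.CFT.LocalBridge in
/-- `QS.Jq S q` is a `QModel` (the input of `D/H4/QIdele.lean`). -/
def qModel (q : Nat.Primes) : QModel S q (Jq S q) where
  e := embJq S q
  e_injective := (isJqModel S q).inj
  e_ρ := fun _ _ => rfl
  mem_range := fun F hF v => ⟨Additive.ofMul ⟨unitIncl q F v, F, hF, v, rfl⟩, rfl⟩
  exists_field := fun x => by
    obtain ⟨F, hF, v, hv⟩ := (Additive.toMul x : LocP _ q).2
    exact ⟨F, hF, v, congrArg Additive.ofMul hv.symm⟩

open Fermat.Agent.CFT.D.H4.QIdele Fermat.Agent.CFT.LocalBridge in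
theorem qModel_e (q : Nat.Primes) : (qModel S q).e = embJq S q := rfl

open Fermat.Agent.CFT.D.H4.QIdele Fermat.Agent.CFT.LocalBridge in
theorem qModel_unit (q : Nat.Primes) (x : Additive (LocP (isFieldFilter_unram S) q)) :
    (qModel S q).unit x = ((Additive.toMul x : LocP _ q) : (Loc Qbar q)ˣ) := rfl

open Fermat.Agent.CFT.D.H4.QIdele Fermat.Agent.CFT.LocalBridge in
/-- helper4's evaluation `π` of the model is `QS.pi q S`. -/
theorem qModel_π (q : Nat.Primes) : (qModel S q).π = pi q S := by
  ext x
  rfl

end QS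

end Fermat.Agent.CFT.Idele
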